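/-
TEAM TW56 -> S56 (Taylor-Wiles primes), top level (architect helper55).  File 1: definitions.

`k = 𝒪/𝔪`, `rb : G_ℚ → M₂(k)` the matrices of `ρbar` in a basis, raw 1-cocycles `c : G_ℚ → M₂(k)` for the
adjoint action, the deformation `(1 + ε c) rb` to the dual numbers `k[ε] = S53.Eps 𝒪`, and the set
`TanCoc` of the cocycles whose deformation satisfies a deformation condition `𝒟`.
-/
import Fermat.Prelude.Def_GaloisRep_DeformationRingData
import Fermat.Prelude.Def_GaloisRep_LocalConditions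
import Fermat.Prelude.Def_GaloisRep_StrictOrdinary
import Fermat.Prelude.Def_GaloisRep_Flat
import Fermat.Agent.S53.Defs

set_option autoImplicit false

noncomputable section

namespace Fermat.Agent.TW56

open IsLocalRing Polynomial Fermat.Agent.S53

/-- a deformation condition (shape used by the prelude) -/
abbrev Cond (𝒪 : Type) [CommRing 𝒪] : Type 1 :=
  ∀ ⦃A : Type⦄ [CommRing A] [IsLocalRing A] [Algebra 𝒪 A], GaloisRepAdic A → Prop

/-- the strict ordinary condition of S56; `Q` = the set of Taylor-Wiles primes -/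
def condOrd (𝒪 : Type) [CommRing 𝒪] (p : ℕ) (Smin Q : Finset ℕ) : Cond 𝒪 :=
  fun _A _ _ _ ρ => GaloisRep.strictOrdinaryCondition 𝒪 p (Smin ∪ Q) ρ ∧
    ∀ q ∈ Smin, q.Prime → q ≠ p → ρ.IsUnipotentOnInertiaAt q

/-- the flat condition of S56 -/
def condFlat (𝒪 : Type) [CommRing 𝒪] (p : ℕ) (Smin Q : Finset ℕ) : Cond 𝒪 :=
  fun _A _ _ _ ρ => GaloisRep.flatCondition 𝒪 p (Smin ∪ Q) ρ ∧
    ∀ q ∈ Smin, q.Prime → q ≠ p → ρ.IsUnipotentOnInertiaAt q

section Coc

variable {k : Type} [Field k]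

/-- the matrices of `ρbar` in the basis `e` -/
def rbar (ρbar : ResidualGaloisRep k) (e : Module.Basis (Fin 2) k ρbar.V) : GQ →* M2 k :=
  (LinearMap.toMatrixAlgEquiv e).toAlgHom.toRingHom.toMonoidHom.comp ρbar.ρ

@[simp] theorem rbar_apply (ρbar : ResidualGaloisRep k) (e : Module.Basis (Fin 2) k ρbar.V)
    (σ : GQ) : rbar ρbar e σ = LinearMap.toMatrix e e (ρbar.ρ σ) := rfl

/-- `f` is trivial on `Gal(ℚ̄/L)` for some number field `L` -/
def FinLevel {X : Type} (f : GQ → X) (x₀ : X) : Prop :=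
  ∃ L : IntermediateField ℚ (AlgebraicClosure ℚ), FiniteDimensional ℚ L ∧
    ∀ σ : GQ, (∀ x ∈ L, σ x = x) → f σ = x₀

/-- raw continuous 1-cocycles of `G_ℚ` with values in `M₂(k)`, adjoint action through `rb` -/
structure IsCoc (rb : GQ →* M2 k) (c : GQ → M2 k) : Prop where
  coc : ∀ σ τ : GQ, c (σ * τ) = c σ + rb σ * c τ * rb σ⁻¹
  lev : FinLevel c 0

/-- cohomologous cochains -/
def Cohom (rb : GQ →* M2 k) (c c' : GQ → M2 k) : Prop :=
  ∃ X : M2 k, ∀ σ : GQ, c σ - c' σ = rb σ * X * rb σ⁻¹ - X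

theorem rb_mul_inv (rb : GQ →* M2 k) (σ : GQ) : rb σ * rb σ⁻¹ = 1 := by
  rw [← map_mul, mul_inv_cancel, map_one]

theorem rb_inv_mul (rb : GQ →* M2 k) (σ : GQ) : rb σ⁻¹ * rb σ = 1 := by
  rw [← map_mul, inv_mul_cancel, map_one]

end Coc

section DN

variable {k : Type} [Field k]

/-- `a + ε b ∈ M₂(k[ε])` -/
def dnMat (a b : M2 k) : M2 (DualNumber k) :=
  Matrix.of fun i j => TrivSqZeroExt.inl (a i j) + TrivSqZeroExt.inr (b i j)

theorem dnMat_apply (a b : M2 k) (i j : Fin 2) :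
    dnMat a b i j = TrivSqZeroExt.inl (a i j) + TrivSqZeroExt.inr (b i j) := rfl

theorem dnMat_mul (a b a' b' : M2 k) :
    dnMat a b * dnMat a' b' = dnMat (a * a') (a * b' + b * a') := by
  ext i j
  · simp only [Matrix.mul_apply, Fin.sum_univ_two, dnMat_apply, TrivSqZeroExt.fst_add,
      TrivSqZeroExt.fst_mul, TrivSqZeroExt.fst_inl, TrivSqZeroExt.fst_inr, add_zero]
  · simp only [Matrix.mul_apply, Matrix.add_apply, Fin.sum_univ_two, dnMat_apply,
      TrivSqZeroExt.snd_add, TrivSqZeroExt.snd_mul, TrivSqZeroExt.fst_add,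
      TrivSqZeroExt.fst_inl, TrivSqZeroExt.fst_inr, TrivSqZeroExt.snd_inl, TrivSqZeroExt.snd_inr,
      add_zero, zero_add, smul_eq_mul, MulOpposite.smul_eq_mul_unop, MulOpposite.unop_op]
    ring

theorem dnMat_one : dnMat (1 : M2 k) 0 = 1 := by
  ext i j
  · by_cases h : i = j
    · subst h
      simp only [dnMat_apply, Matrix.one_apply_eq, Matrix.zero_apply, TrivSqZeroExt.inr_zero,
        add_zero, TrivSqZeroExt.inl_one]
    · simp only [dnMat_apply, Matrix.one_apply_ne h, Matrix.zero_apply, TrivSqZeroExt.inr_zero,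
        add_zero, TrivSqZeroExt.inl_zero]
  · by_cases h : i = j
    · subst h
      simp only [dnMat_apply, Matrix.one_apply_eq, Matrix.zero_apply, TrivSqZeroExt.inr_zero,
        add_zero, TrivSqZeroExt.inl_one]
    · simp only [dnMat_apply, Matrix.one_apply_ne h, Matrix.zero_apply, TrivSqZeroExt.inr_zero,
        add_zero, TrivSqZeroExt.inl_zero]

theorem dnMat_injective {a b a' b' : M2 k} (h : dnMat a b = dnMat a' b') : a = a' ∧ b = b' := by
  constructor
  · ext i j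
    have h2 := congrArg TrivSqZeroExt.fst (congrFun (congrFun h i) j)
    simpa only [dnMat_apply, TrivSqZeroExt.fst_add, TrivSqZeroExt.fst_inl, TrivSqZeroExt.fst_inr,
      add_zero] using h2
  · ext i j
    have h2 := congrArg TrivSqZeroExt.snd (congrFun (congrFun h i) j)
    simpa only [dnMat_apply, TrivSqZeroExt.snd_add, TrivSqZeroExt.snd_inl, TrivSqZeroExt.snd_inr,
      zero_add] using h2

theorem exists_dnMat (x : M2 (DualNumber k)) : ∃ a b : M2 k, x = dnMat a b := by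
  refine ⟨x.map TrivSqZeroExt.fst, x.map TrivSqZeroExt.snd, ?_⟩
  ext i j
  · simp only [dnMat_apply, Matrix.map_apply, TrivSqZeroExt.fst_add, TrivSqZeroExt.fst_inl,
      TrivSqZeroExt.fst_inr, add_zero]
  · simp only [dnMat_apply, Matrix.map_apply, TrivSqZeroExt.snd_add, TrivSqZeroExt.snd_inl,
      TrivSqZeroExt.snd_inr, zero_add]

end DN

section Lift

variable (𝒪 : Type) [CommRing 𝒪] [IsLocalRing 𝒪]

/-- `a + ε b ∈ M₂(k[ε])`, `k[ε] = S53.Eps 𝒪` -/
def epsMat (a b : M2 (ResidueField 𝒪)) : M2 (Eps 𝒪) := dnMat a b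

variable {𝒪}

theorem epsMat_mul (a b a' b' : M2 (ResidueField 𝒪)) :
    epsMat 𝒪 a b * epsMat 𝒪 a' b' = epsMat 𝒪 (a * a') (a * b' + b * a') := dnMat_mul a b a' b'

theorem epsMat_one : epsMat 𝒪 1 0 = 1 := dnMat_one

theorem epsMat_injective {a b a' b' : M2 (ResidueField 𝒪)} (h : epsMat 𝒪 a b = epsMat 𝒪 a' b') :
    a = a' ∧ b = b' := dnMat_injective h

theorem exists_epsMat (x : M2 (Eps 𝒪)) : ∃ a b : M2 (ResidueField 𝒪), x = epsMat 𝒪 a b :=
  exists_dnMat x

/-- **the deformation `(1 + ε c) rb`** to the dual numbers attached to a cocycle `c` -/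
def liftHom (rb : GQ →* M2 (ResidueField 𝒪)) (c : GQ → M2 (ResidueField 𝒪)) (h : IsCoc rb c) :
    GQ →* M2 (Eps 𝒪) where
  toFun σ := epsMat 𝒪 (rb σ) (c σ * rb σ)
  map_one' := by
    have h1 : c 1 = 0 := by
      have := h.coc 1 1
      simpa using this
    rw [map_one, h1, zero_mul, epsMat_one]
  map_mul' σ τ := by
    rw [epsMat_mul, map_mul, h.coc σ τ]
    congr 1
    rw [add_mul, add_comm, mul_assoc (rb σ * c τ), ← mul_assoc (rb σ⁻¹), rb_inv_mul, one_mul,
      mul_assoc, mul_assoc]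

@[simp] theorem liftHom_apply (rb : GQ →* M2 (ResidueField 𝒪)) (c : GQ → M2 (ResidueField 𝒪))
    (h : IsCoc rb c) (σ : GQ) : liftHom rb c h σ = epsMat 𝒪 (rb σ) (c σ * rb σ) := rfl

theorem matCont_liftHom (rb : GQ →* M2 (ResidueField 𝒪)) (hrb : FinLevel rb 1)
    (c : GQ → M2 (ResidueField 𝒪)) (h : IsCoc rb c) : MatCont (liftHom rb c h) := by
  intro n
  obtain ⟨L, hL, h1⟩ := hrb
  obtain ⟨L', hL', h2⟩ := h.lev
  refine ⟨L ⊔ L', IntermediateField.finiteDimensional_sup L L', fun σ hσ i j => ?_⟩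
  have e1 : rb σ = 1 := h1 σ fun x hx => hσ x ((le_sup_left : L ≤ L ⊔ L') hx)
  have e2 : c σ = 0 := h2 σ fun x hx => hσ x ((le_sup_right : L' ≤ L ⊔ L') hx)
  rw [liftHom_apply, e1, e2, zero_mul, epsMat_one, sub_self]
  exact Ideal.zero_mem _

/-- the `GaloisRepAdic` over `k[ε]` attached to a cocycle -/
def liftRep (rb : GQ →* M2 (ResidueField 𝒪)) (hrb : FinLevel rb 1)
    (c : GQ → M2 (ResidueField 𝒪)) (h : IsCoc rb c) : GaloisRepAdic (Eps 𝒪) :=
  ofMat (liftHom rb c h) (matCont_liftHom rb hrb c h)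

/-- **the cocycles of type `𝒟`** -/
def TanCoc (𝒟 : Cond 𝒪) (rb : GQ →* M2 (ResidueField 𝒪)) (hrb : FinLevel rb 1) :
    Set (GQ → M2 (ResidueField 𝒪)) :=
  {c | ∃ h : IsCoc rb c, 𝒟 (liftRep rb hrb c h)}

theorem finLevel_rbar (ρbar : ResidualGaloisRep (ResidueField 𝒪))
    (e : Module.Basis (Fin 2) (ResidueField 𝒪) ρbar.V) : FinLevel (rbar ρbar e) 1 := by
  obtain ⟨L, hL, h⟩ := ρbar.factorsThroughFiniteLevel
  refine ⟨L, hL, fun σ hσ => ?_⟩
  rw [rbar_apply, h σ hσ]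
  exact LinearMap.toMatrix_one e

end Lift

end Fermat.Agent.TW56

end
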