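/-
TEAM TW56 -> S56 (Taylor-Wiles primes), top level (architect helper55).  File 2: THE CONTRACTS.

   S56  ⟸  `Stmt_MTord`, `Stmt_MTflat`          (the cohomological blocks: chief helper33)
         +  `Stmt_HomCoc`                          (tangent space = classes of cocycles)       [TAN]
         +  `Stmt_PSsurj`                          (few tangent vectors ⟹ few generators)      [TAN]
         +  `Stmt_EquivOrd/Flat`, `Stmt_SurjOrd/Flat`  (formal properties of the conditions)   [TAN]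

`Stmt_MT*` : there is `r` such that for all `n` there is a Taylor-Wiles set `qv : Fin r → ℕ` of level `n`
such that the cocycles `c : G_ℚ → M₂(k)` whose deformation `(1 + ε c) ρ̄` is of type `𝒟_Q` fall into at
most `#k ^ r` cohomology classes.
-/
import Fermat.Agent.TW56.Top.Defs

set_option autoImplicit false

noncomputable section

namespace Fermat.Agent.TW56

open IsLocalRing Polynomial Fermat.Agent.S53

/-- the hypotheses of S56, verbatim -/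
structure Hyp (𝒪 : Type) [CommRing 𝒪] [IsLocalRing 𝒪] (p : ℕ)
    (ρbar : ResidualGaloisRep (ResidueField 𝒪)) (S Smin : Finset ℕ) : Prop where
  hp2 : p ≠ 2
  hp𝒪 : (p : 𝒪) ∈ maximalIdeal 𝒪
  habs : ρbar.IsAbsolutelyIrreducible
  hdet : (GaloisRepAdic.ofResidualGaloisRep ρbar).DetIsCyclotomic p
  hsplit : ∀ σ : AlgebraicClosure ℚ ≃ₐ[ℚ] AlgebraicClosure ℚ,
      ∃ α β : ResidueField 𝒪, LinearMap.charpoly (ρbar.ρ σ) = (X - C α) * (X - C β)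
  hTW : ∀ (K : Type) [Field K] [Algebra (ResidueField 𝒪) K]
      (G : Subgroup (AlgebraicClosure ℚ ≃ₐ[ℚ] AlgebraicClosure ℚ)), G.index = 2 →
      ∀ V : Submodule K (ρbar.baseChange K).V,
        (∀ σ ∈ G, ∀ x ∈ V, (ρbar.baseChange K).ρ σ x ∈ V) → V = ⊥ ∨ V = ⊤
  hpSmin : p ∈ Smin
  hSmin : Smin ⊆ S
  hS : ∀ q ∈ S, q.Prime
  hmin : ∀ q : ℕ, q.Prime → q ≠ p → (q ∈ Smin ↔ ¬ ρbar.IsUnramifiedAt q)

/-- `qv` is a set of Taylor-Wiles primes of level `n` (verbatim from S56) -/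
def IsTWSet {k : Type} [Field k] (ρbar : ResidualGaloisRep k) (p n : ℕ) (S : Finset ℕ) {r : ℕ}
    (qv : Fin r → ℕ) : Prop :=
  Function.Injective qv ∧
      (∀ i, (qv i).Prime ∧ qv i ∉ S ∧ p ^ (n + 1) ∣ qv i - 1) ∧
      (∀ i, ∀ P : ValuationSubring (AlgebraicClosure ℚ), P.LiesOverPrime (qv i) →
        ∀ φ : AlgebraicClosure ℚ ≃ₐ[ℚ] AlgebraicClosure ℚ, P.IsFrobeniusAt φ (qv i) →
          ∃ α β : k, α ≠ β ∧ LinearMap.charpoly (ρbar.ρ φ) = (X - C α) * (X - C β))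

/-- the cochains in `X` fall into at most `N` cohomology classes -/
def Covered {k : Type} [Field k] (rb : GQ →* M2 k) (X : Set (GQ → M2 k)) (N : ℕ) : Prop :=
  ∃ T : Finset (GQ → M2 k), T.card ≤ N ∧ ∀ c ∈ X, ∃ t ∈ T, Cohom rb c t

/-- the main theorem for a family of conditions `𝒟 Q` -/
def MTFor (𝒪 : Type) [CommRing 𝒪] [IsLocalRing 𝒪] (p : ℕ)
    (ρbar : ResidualGaloisRep (ResidueField 𝒪)) (S : Finset ℕ) (𝒟 : Finset ℕ → Cond 𝒪) : Prop :=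
  ∃ (e : Module.Basis (Fin 2) (ResidueField 𝒪) ρbar.V) (r : ℕ), ∀ n : ℕ, ∃ qv : Fin r → ℕ,
    IsTWSet ρbar p n S qv ∧
    Covered (rbar ρbar e)
      (insert 0 (TanCoc (𝒟 (Finset.univ.image qv)) (rbar ρbar e) (finLevel_rbar ρbar e)))
      (Nat.card (ResidueField 𝒪) ^ r)

/-- **MAIN CONTRACT, ordinary case** -/
def Stmt_MTord : Prop :=
  ∀ (𝒪 : Type) [CommRing 𝒪] [IsDomain 𝒪] [IsDiscreteValuationRing 𝒪]
    [IsAdicComplete (maximalIdeal 𝒪) 𝒪] [Finite (ResidueField 𝒪)] (p : ℕ) [Fact p.Prime]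
    (ρbar : ResidualGaloisRep (ResidueField 𝒪)) (S Smin : Finset ℕ), Hyp 𝒪 p ρbar S Smin →
    MTFor 𝒪 p ρbar S (condOrd 𝒪 p Smin)

/-- **MAIN CONTRACT, flat case** -/
def Stmt_MTflat : Prop :=
  ∀ (𝒪 : Type) [CommRing 𝒪] [IsDomain 𝒪] [IsDiscreteValuationRing 𝒪]
    [IsAdicComplete (maximalIdeal 𝒪) 𝒪] [Finite (ResidueField 𝒪)] (p : ℕ) [Fact p.Prime]
    (ρbar : ResidualGaloisRep (ResidueField 𝒪)) (S Smin : Finset ℕ), Hyp 𝒪 p ρbar S Smin →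
    MTFor 𝒪 p ρbar S (condFlat 𝒪 p Smin)

/-! ### formal properties of the conditions -/

/-- invariance under equivalence, over `k[ε]` -/
def EquivInv {𝒪 : Type} [CommRing 𝒪] [IsLocalRing 𝒪] (𝒟 : Cond 𝒪) : Prop :=
  ∀ ρ ρ' : GaloisRepAdic (Eps 𝒪), ρ.IsEquiv ρ' → 𝒟 ρ → 𝒟 ρ'

/-- stability under SURJECTIVE base change to `k[ε]` -/
def SurjBC {𝒪 : Type} [CommRing 𝒪] [IsLocalRing 𝒪] (𝒟 : Cond 𝒪) : Prop :=
  ∀ (R : Type) [CommRing R] [IsLocalRing R] [Algebra 𝒪 R] (ρ : GaloisRepAdic R)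
    (φ : R →ₐ[𝒪] Eps 𝒪) (hφ : IsLocalHom (φ : R →+* Eps 𝒪)), Function.Surjective φ →
    𝒟 ρ → 𝒟 (ρ.baseChangeAlong (φ : R →+* Eps 𝒪) hφ)

/-- TAN-EQ-ORD -/
def Stmt_EquivOrd : Prop :=
  ∀ (𝒪 : Type) [CommRing 𝒪] [IsLocalRing 𝒪] (p : ℕ) (Smin Q : Finset ℕ),
    EquivInv (condOrd 𝒪 p Smin Q)

/-- TAN-EQ-FLAT -/
def Stmt_EquivFlat : Prop :=
  ∀ (𝒪 : Type) [CommRing 𝒪] [IsLocalRing 𝒪] (p : ℕ) (Smin Q : Finset ℕ),
    EquivInv (condFlat 𝒪 p Smin Q)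

/-- TAN-BC-ORD -/
def Stmt_SurjOrd : Prop :=
  ∀ (𝒪 : Type) [CommRing 𝒪] [IsLocalRing 𝒪] (p : ℕ) (Smin Q : Finset ℕ),
    SurjBC (condOrd 𝒪 p Smin Q)

/-- TAN-BC-FLAT -/
def Stmt_SurjFlat : Prop :=
  ∀ (𝒪 : Type) [CommRing 𝒪] [IsLocalRing 𝒪] [Finite (ResidueField 𝒪)] (p : ℕ)
    (Smin Q : Finset ℕ), SurjBC (condFlat 𝒪 p Smin Q)

/-! ### tangent space -/

/-- TAN-HOMCOC : the tangent vectors of a deformation ring inject into the classes of cocycles of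
type `𝒟` (together with the trivial class). -/
def Stmt_HomCoc : Prop :=
  ∀ (𝒪 : Type) [CommRing 𝒪] [IsDomain 𝒪] [IsDiscreteValuationRing 𝒪]
    [IsAdicComplete (maximalIdeal 𝒪) 𝒪] (ρbar : ResidualGaloisRep (ResidueField 𝒪))
    (𝒟 : Cond 𝒪) (e : Module.Basis (Fin 2) (ResidueField 𝒪) ρbar.V),
    EquivInv 𝒟 → SurjBC 𝒟 → ∀ DQ : GaloisRep.DeformationRingData 𝒪 ρbar 𝒟,
    ∃ Φ : (DQ.R →ₐ[𝒪] Eps 𝒪) → (GQ → M2 (ResidueField 𝒪)),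
      (∀ φ, Φ φ ∈ TanCoc 𝒟 (rbar ρbar e) (finLevel_rbar ρbar e) ∨ Cohom (rbar ρbar e) (Φ φ) 0) ∧
      ∀ φ φ', Cohom (rbar ρbar e) (Φ φ) (Φ φ') → φ = φ'

/-- TAN-PS : a complete Noetherian local `𝒪`-algebra with residue field `k` and at most `#k ^ r`
tangent vectors is a quotient of `𝒪[[x₁,…,x_r]]`. -/
def Stmt_PSsurj : Prop :=
  ∀ (𝒪 : Type) [CommRing 𝒪] [IsDomain 𝒪] [IsDiscreteValuationRing 𝒪]
    [IsAdicComplete (maximalIdeal 𝒪) 𝒪] [Finite (ResidueField 𝒪)]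
    (R : Type) [CommRing R] [IsLocalRing R] [IsNoetherianRing R]
    [IsAdicComplete (maximalIdeal R) R] [Algebra 𝒪 R] [IsLocalHom (algebraMap 𝒪 R)],
    Function.Surjective (residue R ∘ algebraMap 𝒪 R) →
    ∀ r : ℕ, (∀ s : Finset (R →ₐ[𝒪] Eps 𝒪), s.card ≤ Nat.card (ResidueField 𝒪) ^ r) →
    ∃ γ : MvPowerSeries (Fin r) 𝒪 →ₐ[𝒪] R, Function.Surjective γ

/-! ### sub-packages of `Stmt_PSsurj` -/

/-- TAN-PS1 : few tangent vectors ⟹ few generators of the maximal ideal. -/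
def Stmt_PSgens : Prop :=
  ∀ (𝒪 : Type) [CommRing 𝒪] [IsDomain 𝒪] [IsDiscreteValuationRing 𝒪]
    [Finite (ResidueField 𝒪)]
    (R : Type) [CommRing R] [IsLocalRing R] [IsNoetherianRing R]
    [Algebra 𝒪 R] [IsLocalHom (algebraMap 𝒪 R)],
    Function.Surjective (residue R ∘ algebraMap 𝒪 R) →
    ∀ r : ℕ, (∀ s : Finset (R →ₐ[𝒪] Eps 𝒪), s.card ≤ Nat.card (ResidueField 𝒪) ^ r) →
    ∃ x : Fin r → R,
      Ideal.map (algebraMap 𝒪 R) (maximalIdeal 𝒪) ⊔ Ideal.span (Set.range x) = maximalIdeal R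

/-- TAN-PS2 : generators of the maximal ideal give a surjection from the power series ring. -/
def Stmt_PSeval : Prop :=
  ∀ (𝒪 : Type) [CommRing 𝒪] [IsDomain 𝒪] [IsDiscreteValuationRing 𝒪]
    [IsAdicComplete (maximalIdeal 𝒪) 𝒪] [Finite (ResidueField 𝒪)]
    (R : Type) [CommRing R] [IsLocalRing R] [IsNoetherianRing R]
    [IsAdicComplete (maximalIdeal R) R] [Algebra 𝒪 R] [IsLocalHom (algebraMap 𝒪 R)],
    Function.Surjective (residue R ∘ algebraMap 𝒪 R) →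
    ∀ (r : ℕ) (x : Fin r → R),
      Ideal.map (algebraMap 𝒪 R) (maximalIdeal 𝒪) ⊔ Ideal.span (Set.range x) = maximalIdeal R →
    ∃ γ : MvPowerSeries (Fin r) 𝒪 →ₐ[𝒪] R, Function.Surjective γ

theorem psSurj (h1 : Stmt_PSgens) (h2 : Stmt_PSeval) : Stmt_PSsurj := by
  intro 𝒪 _ _ _ _ _ R _ _ _ _ _ _ hres r hcard
  obtain ⟨x, hx⟩ := h1 𝒪 R hres r hcard
  exact h2 𝒪 R hres r x hx

/-! ### sub-packages of `Stmt_HomCoc` -/

/-- TAN-HC1 : every deformation of `ρ̄` to `k[ε]` is `(1 + ε c) ρ̄`. -/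
def Stmt_CocOf : Prop :=
  ∀ (𝒪 : Type) [CommRing 𝒪] [IsLocalRing 𝒪] (ρbar : ResidualGaloisRep (ResidueField 𝒪))
    (e : Module.Basis (Fin 2) (ResidueField 𝒪) ρbar.V) (ρ : GaloisRepAdic (Eps 𝒪)),
    ρ.residual.IsEquiv (ρbar.baseChangeAlong (epsψ 𝒪)) →
    ∃ (c : GQ → M2 (ResidueField 𝒪)) (h : IsCoc (rbar ρbar e) c),
      ρ.IsEquiv (liftRep (rbar ρbar e) (finLevel_rbar ρbar e) c h)

/-- TAN-HC2 : cohomologous cocycles give equivalent deformations. -/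
def Stmt_CohomEquiv : Prop :=
  ∀ (𝒪 : Type) [CommRing 𝒪] [IsLocalRing 𝒪] (rb : GQ →* M2 (ResidueField 𝒪))
    (hrb : FinLevel rb 1) (c c' : GQ → M2 (ResidueField 𝒪)) (h : IsCoc rb c) (h' : IsCoc rb c'),
    Cohom rb c c' → (liftRep rb hrb c h).IsEquiv (liftRep rb hrb c' h')

/-- TAN-HC3 : a deformation `(1 + ε c) ρ̄` which is equivalent to a representation with matrices in
`k ⊆ k[ε]` has `c ∼ 0`. -/
def Stmt_ConstCoc : Prop :=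
  ∀ (𝒪 : Type) [CommRing 𝒪] [IsLocalRing 𝒪] (rb : GQ →* M2 (ResidueField 𝒪))
    (hrb : FinLevel rb 1) (c : GQ → M2 (ResidueField 𝒪)) (h : IsCoc rb c)
    (a : GQ →* M2 (Eps 𝒪)) (ha : MatCont a),
    (∀ σ, ∃ a₀ : M2 (ResidueField 𝒪), a σ = epsMat 𝒪 a₀ 0) →
    (liftRep rb hrb c h).IsEquiv (ofMat a ha) → Cohom rb c 0

/-- TAN-HC4 : `𝒪`-algebra homomorphisms `R → k[ε]` are local; the non-surjective ones have values in
`k`, and there is at most one of them. -/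
def Stmt_HomEps : Prop :=
  ∀ (𝒪 : Type) [CommRing 𝒪] [IsLocalRing 𝒪]
    (R : Type) [CommRing R] [IsLocalRing R] [Algebra 𝒪 R] [IsLocalHom (algebraMap 𝒪 R)],
    Function.Surjective (residue R ∘ algebraMap 𝒪 R) →
    (∀ φ : R →ₐ[𝒪] Eps 𝒪, IsLocalHom (φ : R →+* Eps 𝒪)) ∧
    (∀ φ : R →ₐ[𝒪] Eps 𝒪, ¬ Function.Surjective φ →
      ∀ x : R, ∃ a : 𝒪, φ x = algebraMap 𝒪 (Eps 𝒪) a) ∧
    (∀ φ φ' : R →ₐ[𝒪] Eps 𝒪, ¬ Function.Surjective φ → ¬ Function.Surjective φ' → φ = φ')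

/-! ### the statement of S56 -/

/-- one half of S56 for a family of conditions -/
def HalfFor (𝒪 : Type) [CommRing 𝒪] [IsDomain 𝒪] [IsDiscreteValuationRing 𝒪]
    [IsAdicComplete (maximalIdeal 𝒪) 𝒪] (p : ℕ)
    (ρbar : ResidualGaloisRep (ResidueField 𝒪)) (S : Finset ℕ) (𝒟 : Finset ℕ → Cond 𝒪) : Prop :=
  ∃ r : ℕ, ∀ n : ℕ, ∃ qv : Fin r → ℕ, IsTWSet ρbar p n S qv ∧
    ∀ DQ : GaloisRep.DeformationRingData 𝒪 ρbar (𝒟 (Finset.univ.image qv)),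
      ∃ γ : MvPowerSeries (Fin r) 𝒪 →ₐ[𝒪] DQ.R, Function.Surjective γ

/-- **TOP** : one half of S56 from the contracts. -/
theorem halfFor (hHC : Stmt_HomCoc) (hPS : Stmt_PSsurj)
    (𝒪 : Type) [CommRing 𝒪] [IsDomain 𝒪] [IsDiscreteValuationRing 𝒪]
    [IsAdicComplete (maximalIdeal 𝒪) 𝒪] [Finite (ResidueField 𝒪)] (p : ℕ)
    (ρbar : ResidualGaloisRep (ResidueField 𝒪)) (S : Finset ℕ) (𝒟 : Finset ℕ → Cond 𝒪)
    (hE : ∀ Q, EquivInv (𝒟 Q)) (hB : ∀ Q, SurjBC (𝒟 Q)) (hMT : MTFor 𝒪 p ρbar S 𝒟) :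
    HalfFor 𝒪 p ρbar S 𝒟 := by
  classical
  obtain ⟨e, r, h⟩ := hMT
  refine ⟨r, fun n => ?_⟩
  obtain ⟨qv, hq, T, hT, hcov⟩ := h n
  refine ⟨qv, hq, fun DQ => ?_⟩
  obtain ⟨Φ, hΦ1, hΦ2⟩ := hHC 𝒪 ρbar _ e (hE _) (hB _) DQ
  refine hPS 𝒪 DQ.R DQ.residue_surjective r fun s => ?_
  -- choose a representative in `T` for each tangent vector
  have hrep : ∀ φ : DQ.R →ₐ[𝒪] Eps 𝒪, ∃ t ∈ T, Cohom (rbar ρbar e) (Φ φ) t := by
    intro φ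
    rcases hΦ1 φ with h1 | h1
    · exact hcov _ (Set.mem_insert_of_mem _ h1)
    · obtain ⟨t, ht, X, hX⟩ := hcov 0 (Set.mem_insert _ _)
      obtain ⟨Y, hY⟩ := h1
      refine ⟨t, ht, X + Y, fun σ => ?_⟩
      have e1 := hX σ
      have e2 := hY σ
      simp only [Pi.zero_apply, sub_zero, zero_sub] at e1 e2
      rw [e2, sub_eq_add_neg, e1, mul_add, add_mul]
      abel
  choose f hfT hf using hrep
  refine le_trans ?_ hT
  refine Finset.card_le_card_of_injOn f (fun φ _ => hfT φ) ?_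
  intro φ _ φ' _ hφ
  refine hΦ2 φ φ' ?_
  obtain ⟨X, hX⟩ := hf φ
  obtain ⟨Y, hY⟩ := hf φ'
  refine ⟨X - Y, fun σ => ?_⟩
  have e1 := hX σ
  have e2 := hY σ
  have e3 : f φ σ = f φ' σ := congrFun hφ σ
  rw [e3] at e1
  have : Φ φ σ - Φ φ' σ = (Φ φ σ - f φ' σ) - (Φ φ' σ - f φ' σ) := by abel
  rw [this, e1, e2, mul_sub, sub_mul]
  abel

end Fermat.Agent.TW56

end
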