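/-
TEAM TW56 -> S56, top level (architect helper55).  File 3: ASSEMBLY of `Stmt_MTord`, `Stmt_MTflat`.

   Stmt_MT*  ⟸  GW.Stmt_GWmat (helper62)  +  Sel.Stmt_Mat, Sel.Stmt_TWset (helper74)
              +  Stmt_ECad (EC, helper56)  +  Stmt_LocQ, Stmt_LocUnip, Stmt_LocOrd (LOCQ)
              +  Stmt_LocFlat, Stmt_FlatLoc (FLAT, helper33)
              +  the elementary packages ELEM below.

Local conditions (additive subgroups of functions `G_{ℚ_v} → M₂(k)`):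
  `LUnip rb v`   : continuous trace zero cocycles with `tr (c g · rb g) = 0` on inertia;
  `LOrd rb ℓ v`  : continuous trace zero cocycles `c = c₀ + cob Y`, `c₀` with values in `k · nil ℓ`;
  `LFlatV rb v`  : helper33's `Flat.LFlat`.
-/
import Fermat.Agent.TW56.GW.BInterface
import Fermat.Agent.TW56.Sel.Interface

set_option autoImplicit false

noncomputable section

namespace Fermat.Agent.TW56

open IsLocalRing Polynomial Fermat.Agent.S53 ExtCitation Matrix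

/-! ### definitions -/

/-- a finite set of natural numbers, as a finite set of primes -/
def toPrimes (T : Finset ℕ) : Finset Nat.Primes := T.subtype Nat.Prime

theorem mem_toPrimes {T : Finset ℕ} {v : Nat.Primes} : v ∈ toPrimes T ↔ (v : ℕ) ∈ T :=
  Finset.mem_subtype

section Loc

variable {k : Type} [Field k]

/-- the elements of the inertia subgroup of `G_{ℚ_v}` -/
def IsInertV (v : Nat.Primes) (g : primeLocalGaloisGroup v) : Prop :=
  primeLocalToGlobal v g ∈ (primeLocalPlace v).inertiaSubgroupIn ℚ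

/-- the nilpotent matrix with image and kernel the line `k ℓ` -/
def nil (ℓ : Fin 2 → k) : M2 k := Matrix.vecMulVec ℓ ![-(ℓ 1), ℓ 0]

/-- the "unipotent on inertia" condition -/
def LUnip (rb : GQ →* M2 k) (v : Nat.Primes) : AddSubgroup (primeLocalGaloisGroup v → M2 k) where
  carrier := {c | c ∈ GW.ZLoc rb v ∧ ∀ g, IsInertV v g → (c g * GW.rbv rb v g).trace = 0}
  add_mem' := by
    rintro c c' ⟨h, h2⟩ ⟨h', h2'⟩
    refine ⟨add_mem h h', fun g hg => ?_⟩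
    rw [Pi.add_apply, add_mul, Matrix.trace_add, h2 g hg, h2' g hg, add_zero]
  zero_mem' := ⟨zero_mem _, fun g _ => by simp⟩
  neg_mem' := by
    rintro c ⟨h, h2⟩
    refine ⟨neg_mem h, fun g hg => ?_⟩
    rw [Pi.neg_apply, neg_mul, Matrix.trace_neg, h2 g hg, neg_zero]

/-- the strict ordinary condition -/
def LOrd (rb : GQ →* M2 k) (ℓ : Fin 2 → k) (v : Nat.Primes) :
    AddSubgroup (primeLocalGaloisGroup v → M2 k) where
  carrier := {c | c ∈ GW.ZLoc rb v ∧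
    ∃ Y : M2 k, ∀ g, ∃ t : k, c g - Flat.cob (GW.rbv rb v) Y g = t • nil ℓ}
  add_mem' := by
    rintro c c' ⟨h, Y, hY⟩ ⟨h', Y', hY'⟩
    refine ⟨add_mem h h', Y + Y', fun g => ?_⟩
    obtain ⟨t, ht⟩ := hY g
    obtain ⟨t', ht'⟩ := hY' g
    refine ⟨t + t', ?_⟩
    rw [add_smul, ← ht, ← ht']
    simp only [Pi.add_apply, Flat.cob, mul_add, add_mul]
    abel
  zero_mem' := ⟨zero_mem _, 0, fun g => ⟨0, by simp [Flat.cob]⟩⟩
  neg_mem' := by
    rintro c ⟨h, Y, hY⟩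
    refine ⟨neg_mem h, -Y, fun g => ?_⟩
    obtain ⟨t, ht⟩ := hY g
    refine ⟨-t, ?_⟩
    rw [neg_smul, ← ht]
    simp only [Pi.neg_apply, Flat.cob, mul_neg, neg_mul]
    abel

/-- helper33's flat condition at the place `v` -/
def LFlatV (rb : GQ →* M2 k) (v : Nat.Primes) : AddSubgroup (primeLocalGaloisGroup v → M2 k) :=
  letI : Fact (v : ℕ).Prime := ⟨v.2⟩
  Flat.LFlat (v : ℕ) (GW.rbv rb v)

/-- `rb` is unipotent on the inertia group at `v` -/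
def RbUnipV (rb : GQ →* M2 k) (v : Nat.Primes) : Prop :=
  ∀ g, IsInertV v g → (GW.rbv rb v g).trace = 2 ∧ (GW.rbv rb v g).det = 1

/-- the shape of `rb` on the decomposition group at `p` in the strict ordinary case -/
structure RbOrdV (p : ℕ) [Fact p.Prime] [Algebra (ZMod p) k] (rb : GQ →* M2 k)
    (ℓ : Fin 2 → k) : Prop where
  ne : ℓ ≠ 0
  shape : ∀ g : primeLocalGaloisGroup (pPrime p), ∃ z : k, z ^ 2 = 1 ∧
    (∀ w : Fin 2 → k, ∃ t : k, GW.rbv rb (pPrime p) g *ᵥ w - z • w = t • ℓ) ∧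
    GW.rbv rb (pPrime p) g *ᵥ ℓ
      = (algebraMap (ZMod p) k (cycloChar p (primeLocalToGlobal (pPrime p) g) : ZMod p) * z) • ℓ
  inert : ∀ g : primeLocalGaloisGroup (pPrime p), IsInertV (pPrime p) g →
    ∀ w : Fin 2 → k, ∃ t : k, GW.rbv rb (pPrime p) g *ᵥ w - w = t • ℓ

end Loc

/-! ### contracts with the local blocks -/

/-- LOCQ-Q : `#Z¹(G_q, ad⁰) ≤ #k⁴` at a Taylor-Wiles prime. -/
def Stmt_LocQ : Prop :=
  ∀ (p : ℕ) [Fact p.Prime] (k : Type) [Field k] [Finite k] [Algebra (ZMod p) k], p ≠ 2 →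
    ∀ (rb : GQ →* M2 k) (q : Nat.Primes), FinLevel rb 1 → (q : ℕ) ≠ p → p ∣ (q : ℕ) - 1 →
    (∀ A : ValuationSubring (AlgebraicClosure ℚ), A.LiesOverPrime (q : ℕ) →
      ∀ σ ∈ A.inertiaSubgroupIn ℚ, rb σ = 1) →
    (∀ A : ValuationSubring (AlgebraicClosure ℚ), A.LiesOverPrime (q : ℕ) →
      ∀ φ : GQ, A.IsFrobeniusAt φ (q : ℕ) →
        ∃ α β : k, α ≠ β ∧ (rb φ).charpoly = (X - C α) * (X - C β)) →
    Finite (GW.ZLoc rb q) ∧ Nat.card (GW.ZLoc rb q) ≤ Nat.card k ^ 4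

/-- LOCQ-U : `#LUnip ≤ #k³` at a ramified prime `v ≠ p` with unipotent inertia. -/
def Stmt_LocUnip : Prop :=
  ∀ (p : ℕ) [Fact p.Prime] (k : Type) [Field k] [Finite k] [Algebra (ZMod p) k], p ≠ 2 →
    ∀ (rb : GQ →* M2 k) (v : Nat.Primes), FinLevel rb 1 → (v : ℕ) ≠ p → RbUnipV rb v →
    (∃ g, IsInertV v g ∧ GW.rbv rb v g ≠ 1) →
    Finite (LUnip rb v) ∧ Nat.card (LUnip rb v) ≤ Nat.card k ^ 3

/-- LOCQ-O : `#LOrd ≤ #k⁴`. -/
def Stmt_LocOrd : Prop :=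
  ∀ (p : ℕ) [Fact p.Prime] (k : Type) [Field k] [Finite k] [Algebra (ZMod p) k], p ≠ 2 →
    ∀ (rb : GQ →* M2 k) (ℓ : Fin 2 → k), FinLevel rb 1 → RbOrdV p rb ℓ →
    Finite (LOrd rb ℓ (pPrime p)) ∧ Nat.card (LOrd rb ℓ (pPrime p)) ≤ Nat.card k ^ 4

/-- FLAT, final output : `#LFlat ≤ #k⁴`. -/
def Stmt_LocFlat : Prop :=
  ∀ (𝒪 : Type) [CommRing 𝒪] [IsDomain 𝒪] [IsDiscreteValuationRing 𝒪]
    [IsAdicComplete (maximalIdeal 𝒪) 𝒪] [Finite (ResidueField 𝒪)] (p : ℕ) [Fact p.Prime]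
    (ρbar : ResidualGaloisRep (ResidueField 𝒪)) (S Smin : Finset ℕ), Hyp 𝒪 p ρbar S Smin →
    ∀ e : Module.Basis (Fin 2) (ResidueField 𝒪) ρbar.V,
    Finite (LFlatV (rbar ρbar e) (pPrime p)) ∧
      Nat.card (LFlatV (rbar ρbar e) (pPrime p)) ≤ Nat.card (ResidueField 𝒪) ^ 4

/-- FLAT : a globally flat deformation is locally flat. -/
def Stmt_FlatLoc : Prop :=
  ∀ (p : ℕ) [Fact p.Prime] (k : Type) [Field k] [Finite k] (rb : GQ →* M2 k) (c : GQ → M2 k),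
    IsCoc rb c → Flat.FlatCoc p rb c →
    Flat.FlatCocLoc p (rb.comp (Flat.loc p)) (fun g => c (Flat.loc p g))

/-- EC for `ad⁰(1)`. -/
def Stmt_ECad : Prop :=
  ∀ (p : ℕ) [Fact p.Prime] (k : Type) [Field k] [Finite k] [Algebra (ZMod p) k]
    (rb : GQ →* M2 k) (Smin : Finset Nat.Primes), GW.GWHyp p rb Smin → GW.ECHyp p rb Smin

/-! ### ELEM : elementary packages -/

/-- ELEM-HYP1 : the hypotheses of S56 in helper74's form. -/
def Stmt_RbarHyp : Prop :=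
  ∀ (𝒪 : Type) [CommRing 𝒪] [IsLocalRing 𝒪] (p : ℕ) [Fact p.Prime]
    (ρbar : ResidualGaloisRep (ResidueField 𝒪)) (S Smin : Finset ℕ), Hyp 𝒪 p ρbar S Smin →
    Sel.RbarHyp p ρbar

/-- ELEM-HYP2 : the hypotheses of S56 in helper62's form. -/
def Stmt_GWHyp : Prop :=
  ∀ (𝒪 : Type) [CommRing 𝒪] [IsLocalRing 𝒪] (p : ℕ) [Fact p.Prime]
    [Algebra (ZMod p) (ResidueField 𝒪)]
    (ρbar : ResidualGaloisRep (ResidueField 𝒪)) (S Smin : Finset ℕ), Hyp 𝒪 p ρbar S Smin →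
    ∀ e : Module.Basis (Fin 2) (ResidueField 𝒪) ρbar.V,
    GW.GWHyp p (rbar ρbar e) (toPrimes Smin)

/-- ELEM-TR : `det = cyclotomic` gives trace zero. -/
def Stmt_ElemTr : Prop :=
  ∀ (𝒪 : Type) [CommRing 𝒪] [IsLocalRing 𝒪] (p : ℕ) [Fact p.Prime]
    (rb : GQ →* M2 (ResidueField 𝒪)) (hrb : FinLevel rb 1) (c : GQ → M2 (ResidueField 𝒪))
    (h : IsCoc rb c), (liftRep rb hrb c h).DetIsCyclotomic p → ∀ σ, (c σ).trace = 0

/-- ELEM-UNR : unramified deformations. -/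
def Stmt_ElemUnr : Prop :=
  ∀ (𝒪 : Type) [CommRing 𝒪] [IsLocalRing 𝒪] (q : ℕ)
    (rb : GQ →* M2 (ResidueField 𝒪)) (hrb : FinLevel rb 1) (c : GQ → M2 (ResidueField 𝒪))
    (h : IsCoc rb c), (liftRep rb hrb c h).IsUnramifiedAt q →
    ∀ A : ValuationSubring (AlgebraicClosure ℚ), A.LiesOverPrime q →
      ∀ σ ∈ A.inertiaSubgroupIn ℚ, c σ = 0

/-- ELEM-ZLOC : the restriction of a global trace zero cocycle is in `ZLoc`. -/
def Stmt_ElemZLoc : Prop :=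
  ∀ (k : Type) [Field k] (rb : GQ →* M2 k) (c : GQ → M2 k), IsCoc rb c →
    (∀ σ, (c σ).trace = 0) → ∀ v : Nat.Primes,
    (fun g => c (primeLocalToGlobal v g)) ∈ GW.ZLoc rb v

/-- ELEM-UNIP : deformations which are unipotent on inertia. -/
def Stmt_ElemUnip : Prop :=
  ∀ (𝒪 : Type) [CommRing 𝒪] [IsLocalRing 𝒪] (v : Nat.Primes)
    (rb : GQ →* M2 (ResidueField 𝒪)) (hrb : FinLevel rb 1) (c : GQ → M2 (ResidueField 𝒪))
    (h : IsCoc rb c), (liftRep rb hrb c h).IsUnipotentOnInertiaAt (v : ℕ) →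
    RbUnipV rb v ∧ ∀ g, IsInertV v g →
      (c (primeLocalToGlobal v g) * GW.rbv rb v g).trace = 0

/-- ELEM-RAM : a ramified `ρ̄` is ramified at the standard place. -/
def Stmt_ElemRam : Prop :=
  ∀ (k : Type) [Field k] (ρbar : ResidualGaloisRep k) (e : Module.Basis (Fin 2) k ρbar.V)
    (v : Nat.Primes), ¬ ρbar.IsUnramifiedAt (v : ℕ) →
    ∃ g, IsInertV v g ∧ GW.rbv (rbar ρbar e) v g ≠ 1

/-- ELEM-ORD1 : the shape of a strict ordinary deformation. -/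
def Stmt_ElemOrd1 : Prop :=
  ∀ (𝒪 : Type) [CommRing 𝒪] [IsLocalRing 𝒪] (p : ℕ) [Fact p.Prime]
    [Algebra (ZMod p) (ResidueField 𝒪)], p ≠ 2 →
    ∀ (rb : GQ →* M2 (ResidueField 𝒪)) (hrb : FinLevel rb 1) (c : GQ → M2 (ResidueField 𝒪))
    (h : IsCoc rb c), (liftRep rb hrb c h).DetIsCyclotomic p →
    (liftRep rb hrb c h).IsStrictOrdinaryAt p →
    ∃ ℓ : Fin 2 → ResidueField 𝒪, RbOrdV p rb ℓ ∧
      ∃ Y : M2 (ResidueField 𝒪), ∀ g : primeLocalGaloisGroup (pPrime p), ∃ t : ResidueField 𝒪,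
        c (primeLocalToGlobal (pPrime p) g) - Flat.cob (GW.rbv rb (pPrime p)) Y g = t • nil ℓ

/-- ELEM-CYCRAM : the mod `p` cyclotomic character is ramified at `p` (`p` odd). -/
def Stmt_CycRam : Prop :=
  ∀ (p : ℕ) [Fact p.Prime], p ≠ 2 →
    ∃ g : primeLocalGaloisGroup (pPrime p), IsInertV (pPrime p) g ∧
      cycloChar p (primeLocalToGlobal (pPrime p) g) ≠ 1

/-- ELEM-ORD2 : the line is unique. -/
def Stmt_ElemOrd2 : Prop :=
  ∀ (p : ℕ) [Fact p.Prime] (k : Type) [Field k] [Algebra (ZMod p) k] (rb : GQ →* M2 k)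
    (ℓ ℓ' : Fin 2 → k), RbOrdV p rb ℓ → RbOrdV p rb ℓ' →
    (∃ g : primeLocalGaloisGroup (pPrime p), IsInertV (pPrime p) g ∧
      cycloChar p (primeLocalToGlobal (pPrime p) g) ≠ 1) →
    ∃ a : k, nil ℓ' = a • nil ℓ

/-- ELEM-FLAT : `IsFlatAt` for the ideal `⊥` of `k[ε]`, in helper33's form. -/
def Stmt_ElemFlat : Prop :=
  ∀ (𝒪 : Type) [CommRing 𝒪] [IsLocalRing 𝒪] [Finite (ResidueField 𝒪)] (p : ℕ)
    (rb : GQ →* M2 (ResidueField 𝒪)) (hrb : FinLevel rb 1) (c : GQ → M2 (ResidueField 𝒪))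
    (h : IsCoc rb c), (liftRep rb hrb c h).IsFlatAt p → Flat.FlatCoc p rb c

end Fermat.Agent.TW56

end
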