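/-
TEAM TW56 -> S56, top level.  The part of the assembly of `Stmt_MTord`, `Stmt_MTflat` which does not
depend on the condition at `p` (helper22; tasks ASM-FLAT, ASM-ORD).
-/
import Fermat.Agent.TW56.Top.Asm
import Fermat.Agent.CFT.LocalBridge

set_option autoImplicit false

noncomputable section

namespace Fermat.Agent.TW56

open IsLocalRing Polynomial Fermat.Agent.S53 ExtCitation Matrix

theorem Asm_liesOver (v : Nat.Primes) : (primeLocalPlace v).LiesOverPrime (v : ℕ) := by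
  let _ : Fact (v : ℕ).Prime := ⟨v.2⟩
  exact Fermat.Agent.CFT.padicPlace_liesOverPrime (v : ℕ)

section Cob

variable {k : Type} [Field k]

theorem Asm_cob_isCoc0 {G : Type} [Group G] (rb : G →* M2 k) (X : M2 k) :
    Flat.IsCoc0 rb (Flat.cob rb X) := by
  constructor
  · intro σ τ
    simp only [Flat.cob, map_mul, _root_.mul_inv_rev]
    rw [mul_sub, sub_mul]
    simp only [mul_assoc]
    abel
  · intro σ
    rw [Flat.cob, Matrix.trace_sub, GW.trace_conj, sub_self]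

theorem Asm_cob_mem_ZLoc (rb : GQ →* M2 k) (hrb : FinLevel rb 1) (v : Nat.Primes) (X : M2 k) :
    Flat.cob (GW.rbv rb v) X ∈ GW.ZLoc rb v := by
  obtain ⟨L, hL, h⟩ := hrb
  refine ⟨Asm_cob_isCoc0 _ X, L, hL, fun g s hs => ?_⟩
  have h1 : GW.rbv rb v s = 1 := h _ (fun x hx => hs ⟨x, hx⟩)
  have h2 : GW.rbv rb v s⁻¹ = 1 := by
    have := GW.rb_inv_mul' (GW.rbv rb v) s
    rwa [h1, mul_one] at this
  simp only [Flat.cob, map_mul, _root_.mul_inv_rev, h1, h2, mul_one, one_mul]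

theorem Asm_cob_mem_LUnip (rb : GQ →* M2 k) (hrb : FinLevel rb 1) (v : Nat.Primes) (X : M2 k) :
    Flat.cob (GW.rbv rb v) X ∈ LUnip rb v := by
  refine ⟨Asm_cob_mem_ZLoc rb hrb v X, fun g _ => ?_⟩
  rw [Flat.cob, sub_mul, mul_assoc, GW.rb_inv_mul', mul_one, Matrix.trace_sub,
    Matrix.trace_mul_comm, sub_self]

theorem Asm_zero_mem_SelSet (rb : GQ →* M2 k) (S Smin : Finset Nat.Primes)
    (𝓛 : ∀ v : Nat.Primes, AddSubgroup (primeLocalGaloisGroup v → M2 k)) :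
    (0 : GQ → M2 k) ∈ GW.SelSet rb S Smin 𝓛 := by
  refine ⟨⟨fun σ τ => by simp, ⊥, inferInstance, fun _ _ => rfl⟩, fun σ => by simp,
    fun _ _ _ _ _ _ => rfl, fun v _ => (𝓛 v).zero_mem⟩

end Cob

theorem Asm_card_toPrimes {r : ℕ} (qv : Fin r → ℕ) (hinj : Function.Injective qv)
    (hprime : ∀ i, (qv i).Prime) : (toPrimes (Finset.univ.image qv)).card = r := by
  have h0 : (toPrimes (Finset.univ.image qv)).card
      = ((Finset.univ.image qv).filter Nat.Prime).card := Finset.card_subtype _ _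
  rw [h0, Finset.filter_true_of_mem, Finset.card_image_of_injective _ hinj,
    Finset.card_univ, Fintype.card_fin]
  intro q hq
  obtain ⟨i, -, rfl⟩ := Finset.mem_image.1 hq
  exact hprime i

/-! ### the local conditions -/

/-- `𝓛p` at `p`, `LUnip` elsewhere. -/
def Asm_L (p : ℕ) [Fact p.Prime] {k : Type} [Field k] (rb : GQ →* M2 k)
    (𝓛p : ∀ v : Nat.Primes, AddSubgroup (primeLocalGaloisGroup v → M2 k)) (v : Nat.Primes) :
    AddSubgroup (primeLocalGaloisGroup v → M2 k) :=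
  if v = pPrime p then 𝓛p v else LUnip rb v

theorem Asm_charP {𝒪 : Type} [CommRing 𝒪] [IsLocalRing 𝒪] {p : ℕ} [Fact p.Prime]
    (hp𝒪 : (p : 𝒪) ∈ maximalIdeal 𝒪) : CharP (ResidueField 𝒪) p := by
  rw [CharP.charP_iff_prime_eq_zero (Fact.out : p.Prime)]
  have := (residue_eq_zero_iff (p : 𝒪)).2 hp𝒪
  rwa [map_natCast] at this

/-- the hypotheses of Greenberg-Wiles on the local conditions `Asm_L`. -/
theorem Asm_locHypS (hU : Stmt_LocUnip) (hUp : Stmt_ElemUnip) (hR : Stmt_ElemRam)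
    (𝒪 : Type) [CommRing 𝒪] [IsLocalRing 𝒪] [Finite (ResidueField 𝒪)] (p : ℕ) [Fact p.Prime]
    (ρbar : ResidualGaloisRep (ResidueField 𝒪)) (S Smin : Finset ℕ) (H : Hyp 𝒪 p ρbar S Smin)
    (e : Module.Basis (Fin 2) (ResidueField 𝒪) ρbar.V)
    (c0 : GQ → M2 (ResidueField 𝒪)) (h0 : IsCoc (rbar ρbar e) c0)
    (hunip : ∀ q ∈ Smin, q.Prime → q ≠ p →
      (liftRep (rbar ρbar e) (finLevel_rbar ρbar e) c0 h0).IsUnipotentOnInertiaAt q)
    (𝓛p : ∀ v : Nat.Primes, AddSubgroup (primeLocalGaloisGroup v → M2 (ResidueField 𝒪)))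
    (hp1 : ∀ X, Flat.cob (GW.rbv (rbar ρbar e) (pPrime p)) X ∈ 𝓛p (pPrime p))
    (hp2 : Finite (𝓛p (pPrime p)))
    (hp3 : Nat.card (𝓛p (pPrime p)) ≤ Nat.card (ResidueField 𝒪) ^ 4) :
    GW.LocHypS p (rbar ρbar e) (toPrimes Smin) (Asm_L p (rbar ρbar e) 𝓛p) := by
  intro v hv
  by_cases hvp : v = pPrime p
  · subst hvp
    rw [Asm_L, if_pos rfl, if_pos rfl]
    exact ⟨hp1, hp2, hp3⟩
  · rw [Asm_L, if_neg hvp, if_neg hvp]
    have hvp' : (v : ℕ) ≠ p := fun h => hvp (Subtype.ext h)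
    have hvS : (v : ℕ) ∈ Smin := mem_toPrimes.1 hv
    have hchar : CharP (ResidueField 𝒪) p := Asm_charP H.hp𝒪
    let _ : Algebra (ZMod p) (ResidueField 𝒪) := ZMod.algebra _ p
    obtain ⟨hf, hc⟩ := hU p (ResidueField 𝒪) H.hp2 (rbar ρbar e) v (finLevel_rbar ρbar e) hvp'
      (hUp 𝒪 v _ _ c0 h0 (hunip v hvS v.2 hvp')).1
      (hR _ ρbar e v ((H.hmin v v.2 hvp').1 hvS))
    exact ⟨Asm_cob_mem_LUnip _ (finLevel_rbar ρbar e) v, hf, hc⟩

/-- a cocycle whose deformation satisfies the conditions away from `p` and whose restriction to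
`G_{ℚ_p}` is in `𝓛p` lies in the Selmer set. -/
theorem Asm_mem_SelSet (hTr : Stmt_ElemTr) (hUn : Stmt_ElemUnr) (hZ : Stmt_ElemZLoc)
    (hUp : Stmt_ElemUnip)
    (𝒪 : Type) [CommRing 𝒪] [IsLocalRing 𝒪] (p : ℕ) [Fact p.Prime]
    (rb : GQ →* M2 (ResidueField 𝒪)) (hrb : FinLevel rb 1) (c : GQ → M2 (ResidueField 𝒪))
    (h : IsCoc rb c) (Smin Q : Finset ℕ)
    (hdet : (liftRep rb hrb c h).DetIsCyclotomic p)
    (hunr : ∀ q : ℕ, q.Prime → q ∉ Smin ∪ Q → (liftRep rb hrb c h).IsUnramifiedAt q)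
    (hunip : ∀ q ∈ Smin, q.Prime → q ≠ p → (liftRep rb hrb c h).IsUnipotentOnInertiaAt q)
    (𝓛p : ∀ v : Nat.Primes, AddSubgroup (primeLocalGaloisGroup v → M2 (ResidueField 𝒪)))
    (hp : (fun g => c (primeLocalToGlobal (pPrime p) g)) ∈ 𝓛p (pPrime p)) :
    c ∈ GW.SelSet rb (toPrimes Smin ∪ toPrimes Q) (toPrimes Smin) (Asm_L p rb 𝓛p) := by
  have htr : ∀ σ, (c σ).trace = 0 := hTr 𝒪 p rb hrb c h hdet
  refine ⟨h, htr, ?_, ?_⟩
  · intro q hq A hA s hs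
    refine hUn 𝒪 q rb hrb c h (hunr q q.2 ?_) A hA s hs
    intro hq'
    apply hq
    rcases Finset.mem_union.1 hq' with h1 | h1
    · exact Finset.mem_union_left _ (mem_toPrimes.2 h1)
    · exact Finset.mem_union_right _ (mem_toPrimes.2 h1)
  · intro v hv
    by_cases hvp : v = pPrime p
    · subst hvp
      rw [Asm_L, if_pos rfl]
      exact hp
    · rw [Asm_L, if_neg hvp]
      have hvp' : (v : ℕ) ≠ p := fun h => hvp (Subtype.ext h)
      exact ⟨hZ _ rb c h htr v,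
        (hUp 𝒪 v rb hrb c h (hunip v (mem_toPrimes.1 hv) v.2 hvp')).2⟩

/-- **the common part of the assembly.** -/
theorem asmCommon (hMat : Sel.Stmt_Mat) (hTW : Sel.Stmt_TWset) (hGW : GW.Stmt_GWmat)
    (hEC : Stmt_ECad) (hQ : Stmt_LocQ) (h1 : Stmt_RbarHyp) (h2 : Stmt_GWHyp)
    (𝒪 : Type) [CommRing 𝒪] [IsDomain 𝒪] [IsDiscreteValuationRing 𝒪]
    [IsAdicComplete (maximalIdeal 𝒪) 𝒪] [Finite (ResidueField 𝒪)] (p : ℕ) [Fact p.Prime]
    (ρbar : ResidualGaloisRep (ResidueField 𝒪)) (S Smin : Finset ℕ) (H : Hyp 𝒪 p ρbar S Smin)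
    (𝒟 : Finset ℕ → Cond 𝒪)
    (hloc : ∀ (e : Module.Basis (Fin 2) (ResidueField 𝒪) ρbar.V) (Q : Finset ℕ),
      (∀ q ∈ Q, q.Prime ∧ q ∉ S) →
      (TanCoc (𝒟 Q) (rbar ρbar e) (finLevel_rbar ρbar e)).Nonempty →
      ∃ 𝓛 : ∀ v : Nat.Primes, AddSubgroup (primeLocalGaloisGroup v → M2 (ResidueField 𝒪)),
        GW.LocHypS p (rbar ρbar e) (toPrimes Smin) 𝓛 ∧
        TanCoc (𝒟 Q) (rbar ρbar e) (finLevel_rbar ρbar e) ⊆
          GW.SelSet (rbar ρbar e) (toPrimes Smin ∪ toPrimes Q) (toPrimes Smin) 𝓛) :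
    MTFor 𝒪 p ρbar S 𝒟 := by
  classical
  have hchar : CharP (ResidueField 𝒪) p := Asm_charP H.hp𝒪
  let _ : Algebra (ZMod p) (ResidueField 𝒪) := ZMod.algebra _ p
  obtain ⟨b, ρ, hρ, hρb⟩ := hMat p (ResidueField 𝒪) ρbar (h1 𝒪 p ρbar S Smin H)
  have hrb : FinLevel (rbar ρbar b) 1 := finLevel_rbar ρbar b
  have hρrb : ∀ g, (ρ g : M2 (ResidueField 𝒪)) = rbar ρbar b g := hρb
  have G := h2 𝒪 p ρbar S Smin H b
  obtain ⟨r, ψ, hψ1, hψ2, hcov⟩ :=
    hGW p (ResidueField 𝒪) (rbar ρbar b) (toPrimes Smin) G (hEC p _ _ _ G)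
  refine ⟨b, r, fun n => ?_⟩
  -- dictionary
  have hact : ∀ g m, Grp.act (ρ g) m
      = (rbar ρbar b g).det • (rbar ρbar b g * m * rbar ρbar b g⁻¹) := by
    intro g m
    rw [Grp.act, ← map_inv, hρrb, hρrb]
  have hcocQ : ∀ i, Sel.IsCocQ ρ (ψ i) := fun i =>
    ⟨(hψ1 i).tr, fun g h => by rw [hact]; exact (hψ1 i).coc g h, (hψ1 i).lev⟩
  have hcob : ∀ i D, Sel.IsCobOn ρ (ψ i) D ↔ GW.IsCobTw (rbar ρbar b) (ψ i) D := by
    intro i D
    unfold Sel.IsCobOn GW.IsCobTw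
    simp only [hact]
  obtain ⟨qv, hinj, hqv⟩ :=
    hTW p _ H.hp2 ρ hρ r ψ hcocQ (fun i h => hψ2 i ((hcob i ⊤).1 h)) n S
  have hprime : ∀ i, (qv i).Prime := fun i => (hqv i).2.1
  have hnS : ∀ i, qv i ∉ S := fun i => (hqv i).1
  have hnp : ∀ i, qv i ≠ p := fun i h => hnS i (h ▸ H.hSmin H.hpSmin)
  have hunr : ∀ i, ρbar.IsUnramifiedAt (qv i) := by
    intro i
    by_contra hc
    exact hnS i (H.hSmin ((H.hmin (qv i) (hprime i) (hnp i)).2 hc))
  have hunr' : ∀ i, ∀ A : ValuationSubring (AlgebraicClosure ℚ), A.LiesOverPrime (qv i) →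
      ∀ σ ∈ A.inertiaSubgroupIn ℚ, rbar ρbar b σ = 1 := by
    intro i A hA σ hσ
    rw [rbar_apply, hunr i A hA σ hσ]
    exact LinearMap.toMatrix_one b
  have hreg : ∀ i, ∀ A : ValuationSubring (AlgebraicClosure ℚ), A.LiesOverPrime (qv i) →
      ∀ φ : GQ, A.IsFrobeniusAt φ (qv i) → ∃ α β : ResidueField 𝒪, α ≠ β ∧
        (rbar ρbar b φ).charpoly = (X - C α) * (X - C β) := by
    intro i A hA φ hφ
    obtain ⟨α, β, hne, h⟩ := (hqv i).2.2.2.2
      (fun A hA σ hσ => Units.ext (by rw [hρrb, hunr' i A hA σ hσ]; rfl)) A hA φ hφ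
    exact ⟨α, β, hne, by rw [← hρrb]; exact h⟩
  refine ⟨qv, ⟨hinj, fun i => ⟨hprime i, hnS i, (hqv i).2.2.1⟩, fun i P hP φ hφ => ?_⟩, ?_⟩
  · obtain ⟨α, β, hne, h⟩ := hreg i P hP φ hφ
    refine ⟨α, β, hne, ?_⟩
    rw [← h, rbar_apply, LinearMap.charpoly_toMatrix]
  · -- covering
    have hQ0 : ∀ q ∈ Finset.univ.image qv, q.Prime ∧ q ∉ S := by
      intro q hq
      obtain ⟨i, -, rfl⟩ := Finset.mem_image.1 hq
      exact ⟨hprime i, hnS i⟩
    by_cases hne : (TanCoc (𝒟 (Finset.univ.image qv)) (rbar ρbar b)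
        (finLevel_rbar ρbar b)).Nonempty
    · obtain ⟨𝓛, hL, hsub⟩ := hloc b _ hQ0 hne
      have hdisj : Disjoint (toPrimes Smin) (toPrimes (Finset.univ.image qv)) := by
        rw [Finset.disjoint_left]
        intro v hv hv'
        exact (hQ0 _ (mem_toPrimes.1 hv')).2 (H.hSmin (mem_toPrimes.1 hv))
      have hc := hcov (toPrimes (Finset.univ.image qv)) hdisj
        (fun i => ⟨⟨qv i, hprime i⟩,
          mem_toPrimes.2 (Finset.mem_image_of_mem _ (Finset.mem_univ i)),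
          fun hc => (hqv i).2.2.2.1 _ (Asm_liesOver ⟨qv i, hprime i⟩) ((hcob i _).2 hc)⟩)
        (fun q hq => by
          obtain ⟨i, -, hi⟩ := Finset.mem_image.1 (mem_toPrimes.1 hq)
          refine hQ p _ H.hp2 _ q hrb (hi ▸ hnp i) ?_ ?_ ?_
          · rw [← hi]
            exact (dvd_pow_self p (Nat.succ_ne_zero n)).trans (hqv i).2.2.1
          · rw [← hi]
            exact hunr' i
          · rw [← hi]
            exact hreg i) 𝓛 hL
      rw [Asm_card_toPrimes qv hinj hprime] at hc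
      obtain ⟨T, hT, hT'⟩ := hc
      refine ⟨T, hT, fun c hc => ?_⟩
      rcases hc with rfl | hc
      · exact hT' 0 (Asm_zero_mem_SelSet _ _ _ _)
      · exact hT' c (hsub hc)
    · rw [Set.not_nonempty_iff_eq_empty] at hne
      rw [hne]
      refine ⟨{0}, ?_, ?_⟩
      · rw [Finset.card_singleton]
        exact Nat.one_le_pow _ _ Nat.card_pos
      · intro c hc
        rcases hc with rfl | hc
        · exact ⟨0, Finset.mem_singleton_self _, 0, fun σ => by simp⟩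
        · exact absurd hc (Set.notMem_empty c)

end Fermat.Agent.TW56

end
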