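/-
TEAM TW56 -> S56, top level (architect helper55).  ASM-ORD, local part : the local conditions
`LOrd` at `p`, `LUnip` at the other primes of `Smin` (the hypothesis `hloc` of `asmCommon`).
-/
import Fermat.Agent.TW56.Top.Asm

set_option autoImplicit false

noncomputable section

namespace Fermat.Agent.TW56

open IsLocalRing Polynomial Fermat.Agent.S53 ExtCitation Matrix

section Cob

variable {k : Type} [Field k]

theorem AsmOrd_cob_isCoc0 {G : Type} [Group G] (rb : G →* M2 k) (X : M2 k) :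
    Flat.IsCoc0 rb (Flat.cob rb X) := by
  refine ⟨fun σ τ => ?_, fun σ => ?_⟩
  · simp only [Flat.cob, map_mul, _root_.mul_inv_rev, mul_sub, sub_mul, mul_assoc]
    abel
  · rw [Flat.cob, Matrix.trace_sub, GW.trace_conj, sub_self]

theorem AsmOrd_cob_mem_ZLoc (rb : GQ →* M2 k) (hrb : FinLevel rb 1) (v : Nat.Primes) (X : M2 k) :
    Flat.cob (GW.rbv rb v) X ∈ GW.ZLoc rb v := by
  obtain ⟨F, hF, hlev⟩ := hrb
  refine ⟨AsmOrd_cob_isCoc0 _ X, F, hF, fun g s hs => ?_⟩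
  have h1 : GW.rbv rb v s = 1 :=
    hlev _ fun x hx => (IntermediateField.mem_fixingSubgroup_iff F _).1 hs x hx
  have h2 : GW.rbv rb v s⁻¹ = 1 := by
    have := GW.rb_inv_mul' (GW.rbv rb v) s
    rwa [h1, mul_one] at this
  simp only [Flat.cob, map_mul, _root_.mul_inv_rev, h1, h2, mul_one, one_mul]

theorem AsmOrd_cob_mem_LUnip (rb : GQ →* M2 k) (hrb : FinLevel rb 1) (v : Nat.Primes) (X : M2 k) :
    Flat.cob (GW.rbv rb v) X ∈ LUnip rb v := by
  refine ⟨AsmOrd_cob_mem_ZLoc rb hrb v X, fun g _ => ?_⟩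
  rw [Flat.cob, sub_mul, mul_assoc, GW.rb_inv_mul', mul_one, Matrix.trace_sub,
    Matrix.trace_mul_comm, sub_self]

theorem AsmOrd_cob_mem_LOrd (rb : GQ →* M2 k) (hrb : FinLevel rb 1) (ℓ : Fin 2 → k)
    (v : Nat.Primes) (X : M2 k) : Flat.cob (GW.rbv rb v) X ∈ LOrd rb ℓ v :=
  ⟨AsmOrd_cob_mem_ZLoc rb hrb v X, X, fun g => ⟨0, by rw [sub_self, zero_smul]⟩⟩

end Cob

/-- the local part of `Stmt_MTord`. -/
theorem AsmOrd_hloc (hU : Stmt_LocUnip) (hO : Stmt_LocOrd) (hTr : Stmt_ElemTr)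
    (hUn : Stmt_ElemUnr) (hZ : Stmt_ElemZLoc) (hUp : Stmt_ElemUnip) (hR : Stmt_ElemRam)
    (hO1 : Stmt_ElemOrd1) (hO2 : Stmt_ElemOrd2) (hCR : Stmt_CycRam)
    (𝒪 : Type) [CommRing 𝒪] [IsLocalRing 𝒪] [Finite (ResidueField 𝒪)] (p : ℕ) [Fact p.Prime]
    (ρbar : ResidualGaloisRep (ResidueField 𝒪)) (S Smin : Finset ℕ) (H : Hyp 𝒪 p ρbar S Smin)
    (e : Module.Basis (Fin 2) (ResidueField 𝒪) ρbar.V) (Q : Finset ℕ)
    (hne : (TanCoc (condOrd 𝒪 p Smin Q) (rbar ρbar e) (finLevel_rbar ρbar e)).Nonempty) :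
    ∃ LL : ∀ v : Nat.Primes, AddSubgroup (primeLocalGaloisGroup v → M2 (ResidueField 𝒪)),
      GW.LocHypS p (rbar ρbar e) (toPrimes Smin) LL ∧
      TanCoc (condOrd 𝒪 p Smin Q) (rbar ρbar e) (finLevel_rbar ρbar e) ⊆
        GW.SelSet (rbar ρbar e) (toPrimes Smin ∪ toPrimes Q) (toPrimes Smin) LL := by
  classical
  have hchar : CharP (ResidueField 𝒪) p := by
    rw [CharP.charP_iff_prime_eq_zero (Fact.out : p.Prime)]
    have h0 : residue 𝒪 (p : 𝒪) = 0 := (residue_eq_zero_iff _).2 H.hp𝒪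
    rwa [map_natCast] at h0
  let _ : Algebra (ZMod p) (ResidueField 𝒪) := ZMod.algebra _ p
  set rb := rbar ρbar e with hrbdef
  have hrb : FinLevel rb 1 := finLevel_rbar ρbar e
  obtain ⟨c0, h0, ⟨hdet0, hord0, -⟩, hunip0⟩ := hne
  obtain ⟨ℓ, hℓ, -⟩ := hO1 𝒪 p H.hp2 rb hrb c0 h0 hdet0 hord0
  refine ⟨fun v => if v = pPrime p then LOrd rb ℓ v else LUnip rb v, ?_, ?_⟩
  · intro v hv
    by_cases hvp : v = pPrime p
    · subst hvp
      simp only [if_true]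
      obtain ⟨hfin, hcard⟩ := hO p _ H.hp2 rb ℓ hrb hℓ
      exact ⟨fun X => AsmOrd_cob_mem_LOrd rb hrb ℓ _ X, hfin, hcard⟩
    · simp only [if_neg hvp]
      have hvp' : (v : ℕ) ≠ p := fun h => hvp (Subtype.ext h)
      have hvS : (v : ℕ) ∈ Smin := mem_toPrimes.1 hv
      have hun := (hUp 𝒪 v rb hrb c0 h0 (hunip0 v hvS v.2 hvp')).1
      have hram := hR _ ρbar e v ((H.hmin v v.2 hvp').1 hvS)
      obtain ⟨hfin, hcard⟩ := hU p _ H.hp2 rb v hrb hvp' hun hram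
      exact ⟨fun X => AsmOrd_cob_mem_LUnip rb hrb v X, hfin, hcard⟩
  · rintro c ⟨h, ⟨hdet, hord, hunr⟩, hunip⟩
    have htr := hTr 𝒪 p rb hrb c h hdet
    refine ⟨h, htr, ?_, ?_⟩
    · intro q hq A hA s hs
      refine hUn 𝒪 q rb hrb c h (hunr q q.2 ?_) A hA s hs
      intro hq'
      apply hq
      rcases Finset.mem_union.1 hq' with h' | h'
      · exact Finset.mem_union_left _ (mem_toPrimes.2 h')
      · exact Finset.mem_union_right _ (mem_toPrimes.2 h')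
    · intro v hv
      by_cases hvp : v = pPrime p
      · subst hvp
        simp only [if_true]
        refine ⟨hZ _ rb c h htr _, ?_⟩
        obtain ⟨ℓ', hℓ', Y, hY⟩ := hO1 𝒪 p H.hp2 rb hrb c h hdet hord
        obtain ⟨a, ha⟩ := hO2 p _ rb ℓ ℓ' hℓ hℓ' (hCR p H.hp2)
        refine ⟨Y, fun g => ?_⟩
        obtain ⟨t, ht⟩ := hY g
        exact ⟨t * a, by rw [ht, ha, smul_smul]⟩
      · simp only [if_neg hvp]
        have hvp' : (v : ℕ) ≠ p := fun h => hvp (Subtype.ext h)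
        have hvS : (v : ℕ) ∈ Smin := mem_toPrimes.1 hv
        exact ⟨hZ _ rb c h htr _, (hUp 𝒪 v rb hrb c h (hunip v hvS v.2 hvp')).2⟩

end Fermat.Agent.TW56

end
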