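/-
TEAM TW56 -> S56, top level.  THE ASSEMBLY WITH AUXILIARY PRIMES (helper73).

[EC] delivers the global Euler characteristic only for `S ⊇ Smin ∪ A₀` (`EC.Stmt_ECadAux`), and helper62's
`GW.Stmt_GWmatAux` (`GW/AuxSet.lean`) turns this into the Greenberg-Wiles bound for Taylor-Wiles sets which
avoid `A₀`.  This file repeats helper22's `asmCommon`, `mtFlat` and helper34's `mtOrd` with
`(hGW : GW.Stmt_GWmat) (hEC : Stmt_ECad)` replaced by `(hGA : GW.Stmt_GWmatAux) (hEA : EC.Stmt_ECadAux)`: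
the Taylor-Wiles primes are chosen outside `S ∪ A₀`.
-/
import Fermat.Agent.TW56.Top.AsmCommon
import Fermat.Agent.TW56.Top.AsmOrdLoc
import Fermat.Agent.TW56.GW.AuxSet
import Fermat.Agent.TW56.EC.Interface2

set_option autoImplicit false

noncomputable section

namespace Fermat.Agent.TW56

open IsLocalRing Polynomial Fermat.Agent.S53 ExtCitation Matrix

/-- **the common part of the assembly, with auxiliary primes.** -/
theorem asmCommon2 (hMat : Sel.Stmt_Mat) (hTW : Sel.Stmt_TWset) (hGA : GW.Stmt_GWmatAux)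
    (hEA : EC.Stmt_ECadAux) (hQ : Stmt_LocQ) (h1 : Stmt_RbarHyp) (h2 : Stmt_GWHyp)
    (𝒪 : Type) [CommRing 𝒪] [IsDomain 𝒪] [IsDiscreteValuationRing 𝒪]
    [IsAdicComplete (maximalIdeal 𝒪) 𝒪] [Finite (ResidueField 𝒪)] (p : ℕ) [Fact p.Prime]
    (ρbar : ResidualGaloisRep (ResidueField 𝒪)) (S Smin : Finset ℕ) (H : Hyp 𝒪 p ρbar S Smin)
    (𝒟 : Finset ℕ → Cond 𝒪)
    (hloc : ∀ (e : Module.Basis (Fin 2) (ResidueField 𝒪) ρbar.V) (Q : Finset ℕ),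
      (∀ q ∈ Q, q.Prime ∧ q ∉ S) →
      (TanCoc (𝒟 Q) (rbar ρbar e) (finLevel_rbar ρbar e)).Nonempty →
      ∃ 𝓛 : ∀ v : Nat.Primes, AddSubgroup (primeLocalGaloisGroup v → M2 (ResidueField 𝒪)),
        GW.LocHypS p (rbar ρbar e) (toPrimes Smin) 𝓛 ∧
        TanCoc (𝒟 Q) (rbar ρbar e) (finLevel_rbar ρbar e) ⊆
          GW.SelSet (rbar ρbar e) (toPrimes Smin ∪ toPrimes Q) (toPrimes Smin) 𝓛) :
    MTFor 𝒪 p ρbar S 𝒟 := by
  classical
  have hchar : CharP (ResidueField 𝒪) p := Asm_charP H.hp𝒪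
  let _ : Algebra (ZMod p) (ResidueField 𝒪) := ZMod.algebra _ p
  obtain ⟨b, ρ, hρ, hρb⟩ := hMat p (ResidueField 𝒪) ρbar (h1 𝒪 p ρbar S Smin H)
  have hrb : FinLevel (rbar ρbar b) 1 := finLevel_rbar ρbar b
  have hρrb : ∀ g, (ρ g : M2 (ResidueField 𝒪)) = rbar ρbar b g := hρb
  have G := h2 𝒪 p ρbar S Smin H b
  obtain ⟨A₀, hA₀⟩ := hEA p (ResidueField 𝒪) (rbar ρbar b) (toPrimes Smin) G
  obtain ⟨r, ψ, hψ1, hψ2, hcov⟩ :=
    hGA p (ResidueField 𝒪) (rbar ρbar b) (toPrimes Smin) A₀ G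
      (hA₀ _ Finset.subset_union_left Finset.subset_union_right).2
  refine ⟨b, r, fun n => ?_⟩
  -- dictionary
  have hact : ∀ g m, Grp.act (ρ g) m
      = (rbar ρbar b g).det • (rbar ρbar b g * m * rbar ρbar b g⁻¹) := by
    intro g m
    rw [Grp.act, ← map_inv, hρrb, hρrb]
  have hcocQ : ∀ i, Sel.IsCocQ ρ (ψ i) := fun i =>
    ⟨(hψ1 i).tr, fun g h => by rw [hact]; exact (hψ1 i).coc g h, (hψ1 i).lev⟩
  have hcob : ∀ i D, Sel.IsCobOn ρ (ψ i) D ↔ GW.IsCobTw (rbar ρbar b) (ψ i) D := by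
    intro i D
    unfold Sel.IsCobOn GW.IsCobTw
    simp only [hact]
  obtain ⟨qv, hinj, hqv⟩ :=
    hTW p _ H.hp2 ρ hρ r ψ hcocQ (fun i h => hψ2 i ((hcob i ⊤).1 h)) n
      (S ∪ A₀.image (fun v : Nat.Primes => (v : ℕ)))
  have hprime : ∀ i, (qv i).Prime := fun i => (hqv i).2.1
  have hnS : ∀ i, qv i ∉ S := fun i h => (hqv i).1 (Finset.mem_union_left _ h)
  have hnA : ∀ i, ∀ v ∈ A₀, (v : ℕ) ≠ qv i := fun i v hv h =>
    (hqv i).1 (Finset.mem_union_right _ (Finset.mem_image.2 ⟨v, hv, h⟩))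
  have hnp : ∀ i, qv i ≠ p := fun i h => hnS i (h ▸ H.hSmin H.hpSmin)
  have hunr : ∀ i, ρbar.IsUnramifiedAt (qv i) := by
    intro i
    by_contra hc
    exact hnS i (H.hSmin ((H.hmin (qv i) (hprime i) (hnp i)).2 hc))
  have hunr' : ∀ i, ∀ A : ValuationSubring (AlgebraicClosure ℚ), A.LiesOverPrime (qv i) →
      ∀ σ ∈ A.inertiaSubgroupIn ℚ, rbar ρbar b σ = 1 := by
    intro i A hA σ hσ
    rw [rbar_apply, hunr i A hA σ hσ]
    exact LinearMap.toMatrix_one b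
  have hreg : ∀ i, ∀ A : ValuationSubring (AlgebraicClosure ℚ), A.LiesOverPrime (qv i) →
      ∀ φ : GQ, A.IsFrobeniusAt φ (qv i) → ∃ α β : ResidueField 𝒪, α ≠ β ∧
        (rbar ρbar b φ).charpoly = (X - C α) * (X - C β) := by
    intro i A hA φ hφ
    obtain ⟨α, β, hne, h⟩ := (hqv i).2.2.2.2
      (fun A hA σ hσ => Units.ext (by rw [hρrb, hunr' i A hA σ hσ]; rfl)) A hA φ hφ
    exact ⟨α, β, hne, by rw [← hρrb]; exact h⟩
  refine ⟨qv, ⟨hinj, fun i => ⟨hprime i, hnS i, (hqv i).2.2.1⟩, fun i P hP φ hφ => ?_⟩, ?_⟩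
  · obtain ⟨α, β, hne, h⟩ := hreg i P hP φ hφ
    refine ⟨α, β, hne, ?_⟩
    rw [← h, rbar_apply, LinearMap.charpoly_toMatrix]
  · -- covering
    have hQ0 : ∀ q ∈ Finset.univ.image qv, q.Prime ∧ q ∉ S := by
      intro q hq
      obtain ⟨i, -, rfl⟩ := Finset.mem_image.1 hq
      exact ⟨hprime i, hnS i⟩
    by_cases hne : (TanCoc (𝒟 (Finset.univ.image qv)) (rbar ρbar b)
        (finLevel_rbar ρbar b)).Nonempty
    · obtain ⟨𝓛, hL, hsub⟩ := hloc b _ hQ0 hne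
      have hdisj : Disjoint (toPrimes Smin ∪ A₀) (toPrimes (Finset.univ.image qv)) := by
        rw [Finset.disjoint_left]
        intro v hv hv'
        rcases Finset.mem_union.1 hv with hv | hv
        · exact (hQ0 _ (mem_toPrimes.1 hv')).2 (H.hSmin (mem_toPrimes.1 hv))
        · obtain ⟨i, -, hi⟩ := Finset.mem_image.1 (mem_toPrimes.1 hv')
          exact hnA i v hv hi.symm
      have hc := hcov (toPrimes (Finset.univ.image qv)) hdisj
        (fun i => ⟨⟨qv i, hprime i⟩,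
          mem_toPrimes.2 (Finset.mem_image_of_mem _ (Finset.mem_univ i)),
          fun hc => (hqv i).2.2.2.1 _ (Asm_liesOver ⟨qv i, hprime i⟩) ((hcob i _).2 hc)⟩)
        (fun q hq => by
          obtain ⟨i, -, hi⟩ := Finset.mem_image.1 (mem_toPrimes.1 hq)
          refine hQ p _ H.hp2 _ q hrb (hi ▸ hnp i) ?_ ?_ ?_
          · rw [← hi]
            exact (dvd_pow_self p (Nat.succ_ne_zero n)).trans (hqv i).2.2.1
          · rw [← hi]
            exact hunr' i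
          · rw [← hi]
            exact hreg i) 𝓛 hL
      rw [Asm_card_toPrimes qv hinj hprime] at hc
      obtain ⟨T, hT, hT'⟩ := hc
      refine ⟨T, hT, fun c hc => ?_⟩
      rcases hc with rfl | hc
      · exact hT' 0 (Asm_zero_mem_SelSet _ _ _ _)
      · exact hT' c (hsub hc)
    · rw [Set.not_nonempty_iff_eq_empty] at hne
      rw [hne]
      refine ⟨{0}, ?_, ?_⟩
      · rw [Finset.card_singleton]
        exact Nat.one_le_pow _ _ Nat.card_pos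
      · intro c hc
        rcases hc with rfl | hc
        · exact ⟨0, Finset.mem_singleton_self _, 0, fun σ => by simp⟩
        · exact absurd hc (Set.notMem_empty c)

/-- **ASM-ORD, with auxiliary primes.** -/
theorem mtOrd2 (hMat : Sel.Stmt_Mat) (hTW : Sel.Stmt_TWset) (hGA : GW.Stmt_GWmatAux)
    (hEA : EC.Stmt_ECadAux) (hQ : Stmt_LocQ) (hU : Stmt_LocUnip) (hO : Stmt_LocOrd)
    (h1 : Stmt_RbarHyp) (h2 : Stmt_GWHyp) (hTr : Stmt_ElemTr) (hUn : Stmt_ElemUnr)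
    (hZ : Stmt_ElemZLoc) (hUp : Stmt_ElemUnip) (hR : Stmt_ElemRam) (hO1 : Stmt_ElemOrd1)
    (hO2 : Stmt_ElemOrd2) (hCR : Stmt_CycRam) : Stmt_MTord := by
  intro 𝒪 _ _ _ _ _ p _ ρbar S Smin H
  exact asmCommon2 hMat hTW hGA hEA hQ h1 h2 𝒪 p ρbar S Smin H (condOrd 𝒪 p Smin)
    fun e Q _ hne => AsmOrd_hloc hU hO hTr hUn hZ hUp hR hO1 hO2 hCR 𝒪 p ρbar S Smin H e Q hne

/-- **ASM-FLAT, with auxiliary primes.** -/
theorem mtFlat2 (hMat : Sel.Stmt_Mat) (hTW : Sel.Stmt_TWset) (hGA : GW.Stmt_GWmatAux)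
    (hEA : EC.Stmt_ECadAux) (hQ : Stmt_LocQ) (hU : Stmt_LocUnip) (hF : Stmt_LocFlat)
    (hFL : Stmt_FlatLoc) (h1 : Stmt_RbarHyp) (h2 : Stmt_GWHyp) (hTr : Stmt_ElemTr)
    (hUn : Stmt_ElemUnr) (hZ : Stmt_ElemZLoc) (hUp : Stmt_ElemUnip) (hR : Stmt_ElemRam)
    (hEF : Stmt_ElemFlat) : Stmt_MTflat := by
  intro 𝒪 _ _ _ _ _ p _ ρbar S Smin H
  refine asmCommon2 hMat hTW hGA hEA hQ h1 h2 𝒪 p ρbar S Smin H (condFlat 𝒪 p Smin) ?_
  rintro e Q - ⟨c0, h0, hc0⟩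
  obtain ⟨hfin, hcard⟩ := hF 𝒪 p ρbar S Smin H e
  refine ⟨Asm_L p (rbar ρbar e) (LFlatV (rbar ρbar e)),
    Asm_locHypS hU hUp hR 𝒪 p ρbar S Smin H e c0 h0 hc0.2 _ ?_ hfin hcard, ?_⟩
  · intro X
    exact AddSubgroup.subset_closure (Or.inr ⟨X, rfl⟩)
  · rintro c ⟨h, hc⟩
    have htr : ∀ σ, (c σ).trace = 0 := hTr 𝒪 p _ _ c h hc.1.1
    refine Asm_mem_SelSet hTr hUn hZ hUp 𝒪 p _ _ c h Smin Q hc.1.1 hc.1.2.2 hc.2 _ ?_
    refine AddSubgroup.subset_closure (Or.inl ⟨(hZ _ _ c h htr (pPrime p)).1, ?_⟩)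
    exact hFL p _ _ c h (hEF 𝒪 p _ _ c h hc.1.2.1)

end Fermat.Agent.TW56

end
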