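/-
TEAM TW56 -> S56, block [TAN], TAN-HC1 : every deformation of `ρ̄` to `k[ε]` is `(1 + ε c) ρ̄`.
-/
import Fermat.Agent.TW56.Top.Interface
import Fermat.Agent.S53.Residual
import Fermat.Agent.S53.Dict

set_option autoImplicit false

noncomputable section

namespace Fermat.Agent.TW56

open IsLocalRing Polynomial Fermat.Agent.S53
open scoped TensorProduct

section DN

variable {k : Type} [Field k]

theorem CocOf_fst_eq_zero {x : DualNumber k} (hx : x ∈ maximalIdeal (DualNumber k)) :
    TrivSqZeroExt.fst x = 0 := by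
  by_contra h
  have h1 : IsUnit x := TrivSqZeroExt.isUnit_iff_isUnit_fst.2 (isUnit_iff_ne_zero.2 h)
  exact (mem_maximalIdeal x).1 hx h1

theorem CocOf_dn_sq : maximalIdeal (DualNumber k) ^ 2 = ⊥ := by
  rw [pow_two, eq_bot_iff, Ideal.mul_le]
  intro x hx y hy
  rw [Ideal.mem_bot]
  have h1 := CocOf_fst_eq_zero hx
  have h2 := CocOf_fst_eq_zero hy
  ext
  · rw [TrivSqZeroExt.fst_mul, h1, zero_mul, TrivSqZeroExt.fst_zero]
  · rw [TrivSqZeroExt.snd_mul, h1, h2, zero_smul, MulOpposite.op_zero, zero_smul, add_zero,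
      TrivSqZeroExt.snd_zero]

theorem CocOf_dn_residue (a b : k) :
    residue (DualNumber k) (TrivSqZeroExt.inl a + TrivSqZeroExt.inr b)
      = residue (DualNumber k) (algebraMap k (DualNumber k) a) := by
  have h1 : residue (DualNumber k) (TrivSqZeroExt.inr b) = 0 := by
    have h2 : residue (DualNumber k) (TrivSqZeroExt.inr b) ^ 2 = 0 := by
      rw [← map_pow, pow_two, TrivSqZeroExt.inr_mul_inr, map_zero]
    exact pow_eq_zero_iff (two_ne_zero) |>.1 h2
  rw [map_add, h1, add_zero]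
  rfl

end DN

section Eps

variable {𝒪 : Type} [CommRing 𝒪] [IsLocalRing 𝒪]

theorem CocOf_eps_sq : maximalIdeal (Eps 𝒪) ^ 2 = ⊥ := CocOf_dn_sq (k := ResidueField 𝒪)

theorem CocOf_residue_epsMat (a b : M2 (ResidueField 𝒪)) (i j : Fin 2) :
    residue (Eps 𝒪) (epsMat 𝒪 a b i j) = epsψ 𝒪 (a i j) := CocOf_dn_residue (a i j) (b i j)

/-- frame-free version of `S53.exists_basis_isLift`. -/
theorem CocOf_exists_basis {A : Type} [CommRing A] [IsLocalRing A]
    (ρbar : ResidualGaloisRep (ResidueField 𝒪))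
    (e : Module.Basis (Fin 2) (ResidueField 𝒪) ρbar.V)
    (ψ : ResidueField 𝒪 →+* ResidueField A)
    (ρA : GaloisRepAdic A) (h : ρA.residual.IsEquiv (ρbar.baseChangeAlong ψ)) :
    ∃ b : Module.Basis (Fin 2) A ρA.V, ∀ σ : GQ,
      (LinearMap.toMatrix b b (ρA.ρ σ)).map (residue A) =
        (LinearMap.toMatrix e e (ρbar.ρ σ)).map ψ := by
  obtain ⟨E⟩ := h
  let c : Module.Basis (Fin 2) (ResidueField A) (ResidueField A ⊗[A] ρA.V) :=
    (residualBasisAlong ψ ρbar e).map E.toLinearEquiv.symm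
  have hsurj : Function.Surjective (TensorProduct.mk A (ResidueField A) ρA.V 1) :=
    TensorProduct.mk_surjective A ρA.V (ResidueField A) residue_surjective
  choose v hv using fun i => hsurj (c i)
  have hcomp : (TensorProduct.mk A (ResidueField A) ρA.V 1 ∘ v) = c := funext hv
  have : Module.FinitePresentation A ρA.V := Module.finitePresentation_of_projective A ρA.V
  obtain ⟨b, hb⟩ := Module.exists_basis_of_basis_baseChange (R := A) (M := ρA.V) v
    (by rw [hcomp]; exact c.linearIndependent) (by rw [hcomp]; exact c.span_eq)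
    (Module.Flat.rTensor_preserves_injective_linearMap (maximalIdeal A).subtype
      Subtype.val_injective)
  refine ⟨b, fun σ => ?_⟩
  have hbc : residualBasis ρA b = c := by
    refine Module.Basis.eq_of_apply_eq fun i => ?_
    have h1 : residualBasis ρA b i = (1 : ResidueField A) ⊗ₜ[A] b i :=
      Algebra.TensorProduct.basis_apply b i
    have h2 : (1 : ResidueField A) ⊗ₜ[A] b i = (1 : ResidueField A) ⊗ₜ[A] v i := by rw [hb]
    exact h1.trans (h2.trans (hv i))
  have h1 := residual_toMatrix_baseChange ρA b σ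
  rw [hbc] at h1
  have h2 := residual_toMatrix_map_equiv _ _ E (residualBasisAlong ψ ρbar e) σ
  have h3 := residual_toMatrix_baseChangeAlong ψ ρbar e σ
  exact h1.symm.trans (h2.trans h3)

end Eps

theorem cocOf : Stmt_CocOf := by
  intro 𝒪 _ _ ρbar e ρ hρ
  obtain ⟨b, hb⟩ := CocOf_exists_basis ρbar e (epsψ 𝒪) ρ hρ
  -- the `ε`-part
  have hB : ∀ σ : GQ, ∃ B : M2 (ResidueField 𝒪),
      matOf ρ b σ = epsMat 𝒪 (rbar ρbar e σ) B := by
    intro σ
    obtain ⟨a, B, hab⟩ := exists_epsMat (matOf ρ b σ)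
    refine ⟨B, ?_⟩
    have ha : a = rbar ρbar e σ := by
      ext i j
      have h1 := congrFun (congrFun (hb σ) i) j
      rw [Matrix.map_apply, Matrix.map_apply, ← matOf_apply, hab, CocOf_residue_epsMat] at h1
      exact (epsψ 𝒪).injective h1
    rw [hab, ha]
  choose B hB using hB
  have hBmul : ∀ σ τ : GQ,
      B (σ * τ) = rbar ρbar e σ * B τ + B σ * rbar ρbar e τ := by
    intro σ τ
    have h1 := map_mul (matOf ρ b) σ τ
    rw [hB, hB, hB, epsMat_mul] at h1
    exact (epsMat_injective h1).2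
  have hcoc : IsCoc (rbar ρbar e) (fun σ => B σ * rbar ρbar e σ⁻¹) := by
    refine ⟨fun σ τ => ?_, ?_⟩
    · show B (σ * τ) * rbar ρbar e (σ * τ)⁻¹ = B σ * rbar ρbar e σ⁻¹ +
        rbar ρbar e σ * (B τ * rbar ρbar e τ⁻¹) * rbar ρbar e σ⁻¹
      rw [hBmul, mul_inv_rev, map_mul, add_mul, add_comm]
      congr 1
      · rw [mul_assoc (B σ), ← mul_assoc (rbar ρbar e τ), rb_mul_inv, one_mul]
      · simp only [mul_assoc]
    · obtain ⟨L, hL, h⟩ := matCont_matOf ρ b 2
      refine ⟨L, hL, fun σ hσ => ?_⟩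
      have h1 : matOf ρ b σ = 1 := by
        ext i j
        have h2 := h σ hσ i j
        rw [CocOf_eps_sq, Ideal.mem_bot, Matrix.sub_apply, sub_eq_zero] at h2
        exact h2
      rw [hB, ← epsMat_one] at h1
      show B σ * rbar ρbar e σ⁻¹ = 0
      rw [(epsMat_injective h1).2, zero_mul]
  refine ⟨_, hcoc, ?_⟩
  refine isEquiv_ofMat_of_toMatrix_eq ρ b _ _ fun σ => ?_
  rw [← matOf_apply, hB, liftHom_apply, mul_assoc, rb_inv_mul, mul_one]

end Fermat.Agent.TW56

end
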