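/-
TEAM TW56 -> S56, block [TAN], task TAN-HC2 (helper26):
cohomologous cocycles give equivalent deformations.
-/
import Fermat.Agent.TW56.Top.Interface
import Fermat.Agent.S53.Dict

set_option autoImplicit false

namespace Fermat.Agent.TW56

open IsLocalRing Fermat.Agent.S53

theorem CohomEquiv_isUnit_det {𝒪 : Type} [CommRing 𝒪] [IsLocalRing 𝒪] (X : M2 (ResidueField 𝒪)) :
    IsUnit (epsMat 𝒪 1 X).det := by
  have h : epsMat 𝒪 1 X * epsMat 𝒪 1 (-X) = 1 := by
    rw [epsMat_mul, one_mul, one_mul, mul_one, neg_add_cancel, epsMat_one]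
  have h2 : (epsMat 𝒪 1 X).det * (epsMat 𝒪 1 (-X)).det = 1 := by
    rw [← Matrix.det_mul, h, Matrix.det_one]
  exact IsUnit.of_mul_eq_one _ h2

theorem cohomEquiv : Stmt_CohomEquiv := by
  intro 𝒪 _ _ rb hrb c c' h h' hcoh
  obtain ⟨X, hX⟩ := hcoh
  refine (ofMat_isEquiv_iff (matCont_liftHom rb hrb c h) (matCont_liftHom rb hrb c' h')).2
    ⟨epsMat 𝒪 1 X, CohomEquiv_isUnit_det X, fun σ => ?_⟩
  rw [liftHom_apply, liftHom_apply, epsMat_mul, epsMat_mul, one_mul, mul_one, one_mul, mul_one]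
  congr 1
  have h1 : c σ = c' σ + (rb σ * X * rb σ⁻¹ - X) := by
    rw [← hX σ]; abel
  rw [h1, add_mul, sub_mul, mul_assoc (rb σ * X), rb_inv_mul, mul_one]
  abel

end Fermat.Agent.TW56
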