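/-
TEAM TW56 -> S56, ELEM-CYCRAM (helper93): the mod `p` cyclotomic character is ramified at `p`.

`H = ker (cycloChar p)` is open and normal and contains the inertia groups at all `q ≠ p`.  If it
contained the inertia group of the standard place above `p` it would be everything (Minkowski),
so `ζ_p ∈ ℚ`, which is absurd for odd `p`.
-/
import Fermat.Agent.TW56.Top.Asm
import Fermat.Agent.S13.Minkowski
import Fermat.Agent.CFT.CycloBridge
import Fermat.Agent.CFT.LocalBridge

set_option autoImplicit false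

namespace Fermat.Agent.TW56

open ExtCitation Fermat.Agent.S53

/-- some automorphism moves the `p`-th roots of unity (`p` odd). -/
theorem CycRam_exists_ne_one (p : ℕ) [Fact p.Prime] (hp2 : p ≠ 2) :
    ∃ s : GQ, cycloChar p s ≠ 1 := by
  by_contra hcon
  push Not at hcon
  have hp : p.Prime := Fact.out
  have : NeZero p := ⟨hp.ne_zero⟩
  have : NeZero (p : AlgebraicClosure ℚ) := ⟨Nat.cast_ne_zero.mpr (NeZero.ne p)⟩
  have : Fact (1 < p) := ⟨hp.one_lt⟩
  obtain ⟨z, hz⟩ := HasEnoughRootsOfUnity.exists_primitiveRoot (AlgebraicClosure ℚ) p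
  have hfix : ∀ σ : GQ, σ z = z := fun σ => by
    rw [Fermat.Agent.CFT.apply_eq_pow_cycloChar p σ hz.pow_eq_one, hcon σ, Units.val_one,
      ZMod.val_one, pow_one]
  obtain ⟨r, hr⟩ :=
    (InfiniteGalois.mem_range_algebraMap_iff_fixed (k := ℚ) (K := AlgebraicClosure ℚ) z).2 hfix
  have hrp : r ^ p = 1 := by
    apply (algebraMap ℚ (AlgebraicClosure ℚ)).injective
    rw [map_pow, hr, hz.pow_eq_one, map_one]
  have hodd : Odd p := hp.odd_of_ne_two hp2
  have hr1 : r = 1 := by
    apply hodd.strictMono_pow.injective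
    simpa using hrp
  apply hz.ne_one hp.one_lt
  rw [← hr, hr1, map_one]

theorem CycRam_isOpen_ker (p : ℕ) [Fact p.Prime] : IsOpen ((cycloChar p).ker : Set GQ) := by
  refine Subgroup.isOpen_mono (H₁ := (Fermat.Agent.CFT.cycloField p).fixingSubgroup) ?_
    (IntermediateField.fixingSubgroup_isOpen _)
  intro σ hσ
  rw [MonoidHom.mem_ker]
  exact (Fermat.Agent.CFT.cycloChar_eq_one_iff_mem_fixingSubgroup p σ).2 hσ

/-- **ELEM-CYCRAM.** -/
theorem cycRam : Stmt_CycRam := by
  intro p _ hp2
  have hp : p.Prime := Fact.out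
  have hP : (primeLocalPlace (pPrime p)).LiesOverPrime p :=
    Fermat.Agent.CFT.padicPlace_liesOverPrime p
  have hex : ∃ s ∈ (primeLocalPlace (pPrime p)).inertiaSubgroupIn ℚ, cycloChar p s ≠ 1 := by
    by_contra hcon
    push Not at hcon
    have htop : (cycloChar p).ker = ⊤ := by
      refine Fermat.Agent.S13.Mink.eq_top_of_exists_inertia_le (cycloChar p).ker
        (CycRam_isOpen_ker p) fun q hq => ?_
      by_cases hqp : q = p
      · subst hqp
        exact ⟨_, hP, fun s hs => MonoidHom.mem_ker.2 (hcon s hs)⟩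
      · obtain ⟨V, hV⟩ := Fermat.Agent.S54.Frob95.exists_valuationSubring q hq
        exact ⟨V, hV, fun σ hσ => MonoidHom.mem_ker.2
          (Fermat.Agent.CFT.cycloChar_eq_one_of_mem_inertia p hq hqp V hV hσ)⟩
    obtain ⟨s, hs⟩ := CycRam_exists_ne_one p hp2
    exact hs (MonoidHom.mem_ker.1 (htop ▸ Subgroup.mem_top s))
  obtain ⟨s, hs, hs1⟩ := hex
  have hdec : s ∈ (primeLocalPlace (pPrime p)).decompositionSubgroup ℚ := by
    obtain ⟨t, -, rfl⟩ := hs
    exact t.2
  have hrange : s ∈ (primeLocalToGlobal (pPrime p)).range := by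
    have h := Fermat.Agent.CFT.range_localGaloisToGlobal p
    have h2 : s ∈ (localGaloisToGlobal p).range := by
      rw [h]
      exact hdec
    exact h2
  obtain ⟨g, rfl⟩ := hrange
  exact ⟨g, hs, hs1⟩

end Fermat.Agent.TW56
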