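/-
TEAM TW56 -> S56, top level, task ELEM-FLAT (helper76): `IsFlatAt` at the zero ideal of `k[ε]`, in the
form `Flat.FlatCoc`.
-/
import Fermat.Agent.TW56.Top.Asm
import Fermat.Agent.S53.TangentAlg

set_option autoImplicit false

noncomputable section

namespace Fermat.Agent.TW56

open IsLocalRing Fermat.Agent.S53 Matrix

section General

variable {A : Type} [CommRing A] [IsLocalRing A]

/-- `V / 0 V ≃ V`. -/
def ElemFlat_quot (ρ : GaloisRepAdic A) :
    (ρ.V ⧸ ((⊥ : Ideal A) • (⊤ : Submodule A ρ.V))) ≃ₗ[A] ρ.V :=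
  Submodule.quotEquivOfEqBot _ (Submodule.bot_smul ⊤)

theorem ElemFlat_quot_mk (ρ : GaloisRepAdic A) (x : ρ.V) :
    ElemFlat_quot ρ (Submodule.Quotient.mk x) = x :=
  Submodule.quotEquivOfEqBot_apply_mk _ _ x

theorem ElemFlat_quot_level (ρ : GaloisRepAdic A) (σ : GQ)
    (y : ρ.V ⧸ ((⊥ : Ideal A) • (⊤ : Submodule A ρ.V))) :
    ElemFlat_quot ρ (ρ.levelAction ⊥ σ y) = ρ.ρ σ (ElemFlat_quot ρ y) := by
  obtain ⟨x, rfl⟩ := Submodule.Quotient.mk_surjective _ y
  rw [GaloisRepAdic.levelAction, Submodule.mapQ_apply, ElemFlat_quot_mk, ElemFlat_quot_mk]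

end General

section DN

variable {k : Type} [Field k]

/-- `k[ε]² ≃ k² × k²`. -/
def ElemFlat_split (k : Type) [Field k] :
    (Fin 2 → DualNumber k) ≃+ (Fin 2 → k) × (Fin 2 → k) where
  toFun u := (fun i => (u i).fst, fun i => (u i).snd)
  invFun x := fun i => (x.1 i, x.2 i)
  left_inv _ := rfl
  right_inv _ := rfl
  map_add' _ _ := rfl

theorem ElemFlat_split_mulVec (a b : M2 k) (v : Fin 2 → DualNumber k) :
    ElemFlat_split k ((dnMat a b).mulVec v)
      = (a *ᵥ (ElemFlat_split k v).1, a *ᵥ (ElemFlat_split k v).2 + b *ᵥ (ElemFlat_split k v).1) := by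
  refine Prod.ext ?_ ?_
  · funext i
    show ((dnMat a b).mulVec v i).fst = (a *ᵥ fun i => (v i).fst) i
    simp only [Matrix.mulVec, dotProduct, Fin.sum_univ_two, dnMat_apply, TrivSqZeroExt.fst_add,
      TrivSqZeroExt.fst_mul, TrivSqZeroExt.fst_inl, TrivSqZeroExt.fst_inr, add_zero]
  · funext i
    show ((dnMat a b).mulVec v i).snd
      = (a *ᵥ fun i => (v i).snd) i + (b *ᵥ fun i => (v i).fst) i
    simp only [Matrix.mulVec, dotProduct, Fin.sum_univ_two, dnMat_apply, TrivSqZeroExt.snd_add,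
      TrivSqZeroExt.snd_mul, TrivSqZeroExt.fst_add, TrivSqZeroExt.fst_inl, TrivSqZeroExt.fst_inr,
      TrivSqZeroExt.snd_inl, TrivSqZeroExt.snd_inr, add_zero, zero_add, smul_eq_mul,
      MulOpposite.smul_eq_mul_unop, MulOpposite.unop_op]
    ring

end DN

theorem elemFlat : Stmt_ElemFlat := by
  intro 𝒪 _ _ _ p rb hrb c h hflat
  have hfin : Finite (Eps 𝒪 ⧸ (⊥ : Ideal (Eps 𝒪))) :=
    Finite.of_surjective _ (Ideal.Quotient.mk_surjective (I := (⊥ : Ideal (Eps 𝒪))))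
  obtain ⟨H, i1, i2, h1, h2, h3, e, he1, he2⟩ := hflat.2 ⊥ hfin
  let T : (liftRep rb hrb c h).V ≃+ (Fin 2 → ResidueField 𝒪) × (Fin 2 → ResidueField 𝒪) :=
    ElemFlat_split (ResidueField 𝒪)
  have hT : ∀ (σ : GQ) (v : (liftRep rb hrb c h).V),
      T ((liftRep rb hrb c h).ρ σ v) = Flat.actW rb c σ (T v) := fun σ v =>
    ElemFlat_split_mulVec (rb σ) (c σ * rb σ) v
  refine ⟨H, i1, i2, h1, h2, h3,
    e.trans ((ElemFlat_quot (liftRep rb hrb c h)).toEquiv.trans T.toEquiv), ?_, ?_⟩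
  · intro f g
    show T (ElemFlat_quot _ (e (f * g))) = T (ElemFlat_quot _ (e f)) + T (ElemFlat_quot _ (e g))
    rw [he1, map_add, map_add]
  · intro σ f g hfg
    show T (ElemFlat_quot _ (e g)) = Flat.actW rb c σ (T (ElemFlat_quot _ (e f)))
    rw [he2 σ f g hfg, ElemFlat_quot_level, hT]

end Fermat.Agent.TW56

end
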