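import Fermat.Agent.TW56.Top.Asm

/-!
# TW56 / Top : ELEM-HYP1, the hypotheses of S56 in the form `Sel.RbarHyp`
-/

set_option autoImplicit false

namespace Fermat.Agent.TW56

open IsLocalRing

theorem rbarHyp : Stmt_RbarHyp := by
  intro 𝒪 _ _ p _ ρbar S Smin H
  refine ⟨H.habs, ?_, H.hsplit, H.hTW⟩
  intro σ a ha
  have h1 := H.hdet.2 1 σ a (by simpa using ha)
  have hp0 : (p : ResidueField 𝒪) = 0 := by
    have h2 := H.hdet.1
    rw [IsLocalRing.maximalIdeal_eq_bot] at h2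
    exact h2
  have h3 : ((p ^ 1 : ℕ) : ResidueField 𝒪) = 0 := by rw [pow_one, hp0]
  rw [h3, Ideal.mem_span_singleton, zero_dvd_iff, sub_eq_zero] at h1
  exact h1

end Fermat.Agent.TW56
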