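/-
TEAM TW56 -> S56, top level.  ELEM-HYP2 : the hypotheses of S56 in helper62's form (`Stmt_GWHyp`).
-/
import Fermat.Agent.TW56.Top.Asm
import Fermat.Agent.S53.Burnside

set_option autoImplicit false

noncomputable section

namespace Fermat.Agent.TW56

open IsLocalRing Polynomial Fermat.Agent.S53 ExtCitation Matrix

theorem ElemHyp2_spec (p : ℕ) [Fact p.Prime] (σ : GQ) (ζ : AlgebraicClosure ℚ) (hζ : ζ ^ p = 1) :
    σ ζ = ζ ^ (cycloExp p σ) := by
  have : NeZero p := ⟨(Fact.out : p.Prime).ne_zero⟩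
  have hu : IsUnit ζ := IsUnit.of_pow_eq_one hζ (Fact.out : p.Prime).ne_zero
  obtain ⟨t, rfl⟩ := hu
  have ht : t ∈ rootsOfUnity p (AlgebraicClosure ℚ) := by
    rw [mem_rootsOfUnity]
    ext
    simpa using hζ
  have h := modularCyclotomicCharacter.spec (L := AlgebraicClosure ℚ) (card_rootsOfUnity_eq_self p)
    (σ : AlgebraicClosure ℚ ≃+* AlgebraicClosure ℚ) ht
  exact h

/-- a `2 × 2` matrix of trace zero commuting with all matrices is zero (`2 ≠ 0`). -/
theorem ElemHyp2_central {k : Type} [Field k] (h2 : (2 : k) ≠ 0) (m : M2 k) (htr : m.trace = 0)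
    (hc : ∀ X : M2 k, X * m = m * X) : m = 0 := by
  have h12 := hc !![0, 1; 0, 0]
  have h21 := hc !![0, 0; 1, 0]
  have a1 := congrFun (congrFun h12 0) 0
  have a2 := congrFun (congrFun h12 0) 1
  have a3 := congrFun (congrFun h21 1) 1
  simp [Matrix.mul_apply, Fin.sum_univ_two] at a1 a2 a3
  rw [Matrix.trace_fin_two] at htr
  have h00 : m 0 0 = 0 := by
    have : (2 : k) * m 0 0 = 0 := by
      linear_combination htr - a2
    exact (mul_eq_zero.1 this).resolve_left h2
  have h11 : m 1 1 = 0 := by rw [a2, h00]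
  ext i j
  fin_cases i <;> fin_cases j
  · exact h00
  · exact a3
  · exact a1
  · exact h11

theorem gwHyp : Stmt_GWHyp := by
  intro 𝒪 _ _ p _ _ ρbar S Smin hyp e
  have hchar : CharP (ResidueField 𝒪) p :=
    charP_of_injective_algebraMap (algebraMap (ZMod p) (ResidueField 𝒪)).injective p
  have h2 : (2 : ResidueField 𝒪) ≠ 0 := by
    apply Ring.two_ne_zero
    rw [ringChar.eq (ResidueField 𝒪) p]
    exact hyp.hp2
  refine ⟨hyp.hp2, mem_toPrimes.2 hyp.hpSmin, finLevel_rbar ρbar e, ?_, ?_, ?_⟩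
  · intro q hq A hA s hs
    have hq' : (q : ℕ) ∉ Smin := fun h => hq (mem_toPrimes.2 h)
    have hqp : (q : ℕ) ≠ p := fun h => hq' (h ▸ hyp.hpSmin)
    have hun : ρbar.IsUnramifiedAt (q : ℕ) := by
      by_contra hcon
      exact hq' ((hyp.hmin q q.2 hqp).2 hcon)
    rw [rbar_apply, hun A hA s hs]
    exact LinearMap.toMatrix_one e
  · intro σ
    have h1 : LinearMap.det (ρbar.ρ σ) - ((cycloExp p σ : ℕ) : ResidueField 𝒪)
        ∈ Ideal.span {((p ^ 1 : ℕ) : ResidueField 𝒪)} :=
      hyp.hdet.2 1 σ (cycloExp p σ) fun μ hμ => ElemHyp2_spec p σ μ (by rwa [pow_one] at hμ)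
    rw [pow_one, CharP.cast_eq_zero, Ideal.mem_span_singleton, zero_dvd_iff, sub_eq_zero] at h1
    rw [rbar_apply, LinearMap.det_toMatrix, h1, coe_cycloChar, map_natCast]
  · intro m htr hm
    refine ElemHyp2_central h2 m htr fun X => ?_
    have hX : Matrix.toLin e e X ∈ Submodule.span (ResidueField 𝒪) (Set.range ρbar.ρ) := by
      rw [span_range_eq_top ρbar hyp.habs]
      exact Submodule.mem_top
    have key : ∀ f ∈ Submodule.span (ResidueField 𝒪) (Set.range ρbar.ρ),
        LinearMap.toMatrix e e f * m = m * LinearMap.toMatrix e e f := by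
      intro f hf
      induction hf using Submodule.span_induction with
      | mem f hf =>
        obtain ⟨σ, rfl⟩ := hf
        exact hm σ
      | zero => rw [map_zero, zero_mul, mul_zero]
      | add f g _ _ hf hg => rw [map_add, add_mul, mul_add, hf, hg]
      | smul a f _ hf => rw [map_smul, smul_mul_assoc, mul_smul_comm, hf]
    have := key _ hX
    rwa [LinearMap.toMatrix_toLin] at this

end Fermat.Agent.TW56

end
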