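/-
TEAM TW56 -> S56, block [ELEM].  ELEM-ORD1 : the shape of a strict ordinary deformation to `k[ε]`.
-/
import Fermat.Agent.TW56.Top.Asm
import Fermat.Agent.CFT.LocalBridge

set_option autoImplicit false

noncomputable section

namespace Fermat.Agent.TW56

open IsLocalRing Polynomial Fermat.Agent.S53 ExtCitation Matrix

/-! ### linear algebra over `k` -/

section Lin

variable {k : Type} [Field k]

theorem ElemOrd1_nil_apply (l : Fin 2 → k) (i : Fin 2) :
    nil l i 0 = l i * -(l 1) ∧ nil l i 1 = l i * l 0 := by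
  constructor <;> simp [nil, Matrix.vecMulVec_apply]

theorem ElemOrd1_mulVec_apply (N : M2 k) (w : Fin 2 → k) (i : Fin 2) :
    (N *ᵥ w) i = N i 0 * w 0 + N i 1 * w 1 := by
  simp [Matrix.mulVec, dotProduct, Fin.sum_univ_two]

/-- a matrix killing `l` with image in `k l` is a multiple of `nil l`. -/
theorem ElemOrd1_nil {l : Fin 2 → k} (hl : l ≠ 0) (N : M2 k) (h1 : N *ᵥ l = 0)
    (h2 : ∀ w : Fin 2 → k, ∃ t : k, N *ᵥ w = t • l) : ∃ t : k, N = t • nil l := by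
  obtain ⟨t0, ht0⟩ := h2 ![1, 0]
  obtain ⟨t1, ht1⟩ := h2 ![0, 1]
  have hN0 : ∀ i, N i 0 = t0 * l i := by
    intro i
    have := congrFun ht0 i
    simpa [ElemOrd1_mulVec_apply] using this
  have hN1 : ∀ i, N i 1 = t1 * l i := by
    intro i
    have := congrFun ht1 i
    simpa [ElemOrd1_mulVec_apply] using this
  have hrel : ∀ i, (t0 * l 0 + t1 * l 1) * l i = 0 := by
    intro i
    have := congrFun h1 i
    rw [ElemOrd1_mulVec_apply, hN0, hN1, Pi.zero_apply] at this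
    linear_combination this
  have hrel' : t0 * l 0 + t1 * l 1 = 0 := by
    by_contra hne
    apply hl
    funext i
    exact (mul_eq_zero.1 (hrel i)).resolve_left hne
  by_cases h0 : l 0 = 0
  · have hl1 : l 1 ≠ 0 := by
      intro h
      apply hl
      funext i
      fin_cases i
      · exact h0
      · exact h
    have ht1' : t1 = 0 := by
      rw [h0, mul_zero, zero_add] at hrel'
      exact (mul_eq_zero.1 hrel').resolve_right hl1
    refine ⟨-t0 / l 1, ?_⟩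
    ext i j
    fin_cases j
    · show N i 0 = (-t0 / l 1) * nil l i 0
      rw [hN0, (ElemOrd1_nil_apply l i).1]
      field_simp
    · show N i 1 = (-t0 / l 1) * nil l i 1
      rw [hN1, (ElemOrd1_nil_apply l i).2, ht1', h0]
      ring
  · refine ⟨t1 / l 0, ?_⟩
    ext i j
    fin_cases j
    · show N i 0 = (t1 / l 0) * nil l i 0
      rw [hN0, (ElemOrd1_nil_apply l i).1]
      field_simp
      linear_combination (l i) * hrel'
    · show N i 1 = (t1 / l 0) * nil l i 1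
      rw [hN1, (ElemOrd1_nil_apply l i).2]
      field_simp

/-- a matrix mapping `l ≠ 0` to `l'`. -/
theorem ElemOrd1_exists_Y {l : Fin 2 → k} (hl : l ≠ 0) (l' : Fin 2 → k) :
    ∃ Y : M2 k, Y *ᵥ l = l' := by
  by_cases h0 : l 0 = 0
  · have hl1 : l 1 ≠ 0 := by
      intro h
      apply hl
      funext i
      fin_cases i
      · exact h0
      · exact h
    refine ⟨Matrix.of fun i j => if j = 1 then l' i / l 1 else 0, ?_⟩
    funext i
    rw [ElemOrd1_mulVec_apply]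
    simp
    field_simp
  · refine ⟨Matrix.of fun i j => if j = 0 then l' i / l 0 else 0, ?_⟩
    funext i
    rw [ElemOrd1_mulVec_apply]
    simp
    field_simp

end Lin

/-! ### determinant of a triangular endomorphism -/

theorem ElemOrd1_det {A V : Type*} [CommRing A] [AddCommGroup V] [Module A V]
    (b : Module.Basis (Fin 2) A V) (f : V →ₗ[A] V) (x z : A) (hx : f (b 0) = x • b 0)
    (hz : f (b 1) - z • b 1 ∈ Submodule.span A {b 0}) : LinearMap.det f = x * z := by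
  obtain ⟨u, hu⟩ := Submodule.mem_span_singleton.1 hz
  have h1 : f (b 1) = u • b 0 + z • b 1 := by
    rw [hu]
    abel
  rw [← LinearMap.det_toMatrix b, Matrix.det_fin_two]
  simp [LinearMap.toMatrix_apply, hx, h1]

/-! ### vectors over the dual numbers -/

section DN

variable {k : Type} [Field k]

/-- the constant part of a vector. -/
def ElemOrd1_f (v : Fin 2 → DualNumber k) : Fin 2 → k := fun i => TrivSqZeroExt.fst (v i)

/-- the `ε`-part of a vector. -/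
def ElemOrd1_s (v : Fin 2 → DualNumber k) : Fin 2 → k := fun i => TrivSqZeroExt.snd (v i)

/-- constant vectors. -/
def ElemOrd1_i (w : Fin 2 → k) : Fin 2 → DualNumber k := fun i => TrivSqZeroExt.inl (w i)

theorem ElemOrd1_f_i (w : Fin 2 → k) : ElemOrd1_f (ElemOrd1_i w) = w := rfl

theorem ElemOrd1_s_i (w : Fin 2 → k) : ElemOrd1_s (ElemOrd1_i w) = 0 := rfl

theorem ElemOrd1_f_sub (v w : Fin 2 → DualNumber k) :
    ElemOrd1_f (v - w) = ElemOrd1_f v - ElemOrd1_f w := rfl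

theorem ElemOrd1_s_sub (v w : Fin 2 → DualNumber k) :
    ElemOrd1_s (v - w) = ElemOrd1_s v - ElemOrd1_s w := rfl

theorem ElemOrd1_f_smul (e : DualNumber k) (v : Fin 2 → DualNumber k) :
    ElemOrd1_f (e • v) = TrivSqZeroExt.fst e • ElemOrd1_f v := by
  funext i
  simp [ElemOrd1_f]

theorem ElemOrd1_s_smul (e : DualNumber k) (v : Fin 2 → DualNumber k) :
    ElemOrd1_s (e • v) = TrivSqZeroExt.fst e • ElemOrd1_s v + TrivSqZeroExt.snd e • ElemOrd1_f v := by
  funext i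
  simp [ElemOrd1_f, ElemOrd1_s, mul_comm]

theorem ElemOrd1_f_mulVec (a b : M2 k) (v : Fin 2 → DualNumber k) :
    ElemOrd1_f ((dnMat a b).mulVec v) = a *ᵥ ElemOrd1_f v := by
  funext i
  simp [ElemOrd1_f, Matrix.mulVec, dotProduct, Fin.sum_univ_two, dnMat_apply]

theorem ElemOrd1_s_mulVec (a b : M2 k) (v : Fin 2 → DualNumber k) :
    ElemOrd1_s ((dnMat a b).mulVec v) = a *ᵥ ElemOrd1_s v + b *ᵥ ElemOrd1_f v := by
  funext i
  rw [Pi.add_apply, ElemOrd1_mulVec_apply, ElemOrd1_mulVec_apply]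
  simp [ElemOrd1_f, ElemOrd1_s, Matrix.mulVec, dotProduct, Fin.sum_univ_two, dnMat_apply]
  ring

/-- `x = a z`, `x z = a` in `k[ε]` : `z = ± 1`. -/
theorem ElemOrd1_scalars {a : k} (ha : a ≠ 0) (h2 : (2 : k) ≠ 0) {x z : DualNumber k}
    (hxz : x = TrivSqZeroExt.inl a * z) (hdet : x * z = TrivSqZeroExt.inl a) :
    TrivSqZeroExt.fst z ^ 2 = 1 ∧ TrivSqZeroExt.snd z = 0 ∧
      TrivSqZeroExt.fst x = a * TrivSqZeroExt.fst z ∧ TrivSqZeroExt.snd x = 0 := by
  have hf : TrivSqZeroExt.fst x = a * TrivSqZeroExt.fst z := by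
    rw [hxz]
    simp
  have hs : TrivSqZeroExt.snd x = a * TrivSqZeroExt.snd z := by
    rw [hxz]
    simp
  have h1 := congrArg TrivSqZeroExt.fst hdet
  have h3 := congrArg TrivSqZeroExt.snd hdet
  simp only [TrivSqZeroExt.fst_mul, TrivSqZeroExt.fst_inl, TrivSqZeroExt.snd_mul,
    TrivSqZeroExt.snd_inl, smul_eq_mul, MulOpposite.smul_eq_mul_unop, MulOpposite.unop_op] at h1 h3
  rw [hf] at h1 h3
  rw [hs] at h3
  have hz2 : TrivSqZeroExt.fst z ^ 2 = 1 := by
    apply mul_left_cancel₀ ha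
    linear_combination h1
  have hz0 : TrivSqZeroExt.fst z ≠ 0 := by
    intro h
    rw [h] at hz2
    simp at hz2
  have hz1 : TrivSqZeroExt.snd z = 0 := by
    have h4 : (2 * a * TrivSqZeroExt.fst z) * TrivSqZeroExt.snd z = 0 := by
      linear_combination h3
    exact (mul_eq_zero.1 h4).resolve_left (mul_ne_zero (mul_ne_zero h2 ha) hz0)
  exact ⟨hz2, hz1, hf, by rw [hs, hz1, mul_zero]⟩

/-- **the core computation**, for one element of the decomposition group. -/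
theorem ElemOrd1_core {R C Rinv : M2 k} (hR : R * Rinv = 1) (b0 : Fin 2 → DualNumber k)
    (x z : DualNumber k) {a : k} (ha : a ≠ 0) (h2 : (2 : k) ≠ 0)
    (hx : (dnMat R C).mulVec b0 = x • b0)
    (hz : ∀ v : Fin 2 → DualNumber k, ∃ e : DualNumber k, (dnMat R C).mulVec v - z • v = e • b0)
    (hxz : x = TrivSqZeroExt.inl a * z) (hdet : x * z = TrivSqZeroExt.inl a)
    (Y : M2 k) (hY : Y *ᵥ ElemOrd1_f b0 = ElemOrd1_s b0) (hl : ElemOrd1_f b0 ≠ 0) :
    ∃ z0 : k, z0 ^ 2 = 1 ∧ (∀ w : Fin 2 → k, ∃ t : k, R *ᵥ w - z0 • w = t • ElemOrd1_f b0) ∧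
      R *ᵥ ElemOrd1_f b0 = (a * z0) • ElemOrd1_f b0 ∧
      ∃ t : k, C * Rinv + (R * Y * Rinv - Y) = t • nil (ElemOrd1_f b0) := by
  obtain ⟨hz2, hz1, hx0, hx1⟩ := ElemOrd1_scalars ha h2 hxz hdet
  obtain ⟨l, hldef⟩ : ∃ l, l = ElemOrd1_f b0 := ⟨_, rfl⟩
  obtain ⟨l', hl'def⟩ : ∃ l', l' = ElemOrd1_s b0 := ⟨_, rfl⟩
  obtain ⟨z0, hz0def⟩ : ∃ z0, z0 = TrivSqZeroExt.fst z := ⟨_, rfl⟩
  rw [← hldef] at hY hl ⊢
  rw [← hl'def] at hY
  rw [← hz0def] at hz2 hx0
  have hz0 : z0 ≠ 0 := by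
    intro h
    rw [h] at hz2
    simp at hz2
  -- the two components of `hx`
  have hxf : R *ᵥ l = (a * z0) • l := by
    have := congrArg ElemOrd1_f hx
    rwa [ElemOrd1_f_mulVec, ElemOrd1_f_smul, hx0, ← hldef] at this
  have hxs : R *ᵥ l' + C *ᵥ l = (a * z0) • l' := by
    have := congrArg ElemOrd1_s hx
    rwa [ElemOrd1_s_mulVec, ElemOrd1_s_smul, hx0, hx1, zero_smul, add_zero, ← hldef, ← hl'def]
      at this
  -- the two components of `hz` on constant vectors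
  have hzw : ∀ w : Fin 2 → k, ∃ e0 e1 : k, R *ᵥ w - z0 • w = e0 • l ∧
      C *ᵥ w = e0 • l' + e1 • l := by
    intro w
    obtain ⟨e, he⟩ := hz (ElemOrd1_i w)
    refine ⟨TrivSqZeroExt.fst e, TrivSqZeroExt.snd e, ?_, ?_⟩
    · have := congrArg ElemOrd1_f he
      rwa [ElemOrd1_f_sub, ElemOrd1_f_mulVec, ElemOrd1_f_smul, ElemOrd1_f_smul, ElemOrd1_f_i,
        ← hz0def, ← hldef] at this
    · have := congrArg ElemOrd1_s he
      rwa [ElemOrd1_s_sub, ElemOrd1_s_mulVec, ElemOrd1_s_smul, ElemOrd1_s_smul, ElemOrd1_f_i,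
        ElemOrd1_s_i, hz1, Matrix.mulVec_zero, smul_zero, zero_smul, zero_add, add_zero, sub_zero,
        ← hldef, ← hl'def] at this
  refine ⟨z0, hz2, fun w => ?_, hxf, ?_⟩
  · obtain ⟨e0, -, h, -⟩ := hzw w
    exact ⟨e0, h⟩
  -- `N R w ∈ k l`
  have hNR : ∀ w : Fin 2 → k, ∃ t : k,
      (C * Rinv + (R * Y * Rinv - Y)) *ᵥ (R *ᵥ w) = t • l := by
    intro w
    obtain ⟨e0, e1, h1, h3⟩ := hzw w
    obtain ⟨e0', -, h1', -⟩ := hzw (Y *ᵥ w)
    refine ⟨e0' + e1, ?_⟩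
    have hRR : Rinv *ᵥ (R *ᵥ w) = w := by
      rw [Matrix.mulVec_mulVec, mul_eq_one_comm.1 hR, Matrix.one_mulVec]
    have e : (C * Rinv + (R * Y * Rinv - Y)) *ᵥ (R *ᵥ w)
        = C *ᵥ w + R *ᵥ (Y *ᵥ w) - Y *ᵥ (R *ᵥ w) := by
      rw [Matrix.add_mulVec, Matrix.sub_mulVec, ← Matrix.mulVec_mulVec, ← Matrix.mulVec_mulVec,
        ← Matrix.mulVec_mulVec, hRR]
      abel
    have hYe : e0 • l' = Y *ᵥ (R *ᵥ w) - z0 • (Y *ᵥ w) := by
      rw [← hY, ← Matrix.mulVec_smul, ← h1, Matrix.mulVec_sub, Matrix.mulVec_smul]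
    rw [e, h3, hYe, add_smul, ← h1']
    abel
  have hNl : (C * Rinv + (R * Y * Rinv - Y)) *ᵥ l = 0 := by
    have hRR : Rinv *ᵥ (R *ᵥ l) = l := by
      rw [Matrix.mulVec_mulVec, mul_eq_one_comm.1 hR, Matrix.one_mulVec]
    have e : (C * Rinv + (R * Y * Rinv - Y)) *ᵥ (R *ᵥ l)
        = C *ᵥ l + R *ᵥ (Y *ᵥ l) - Y *ᵥ (R *ᵥ l) := by
      rw [Matrix.add_mulVec, Matrix.sub_mulVec, ← Matrix.mulVec_mulVec, ← Matrix.mulVec_mulVec,
        ← Matrix.mulVec_mulVec, hRR]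
      abel
    have h3 : (C * Rinv + (R * Y * Rinv - Y)) *ᵥ (R *ᵥ l) = 0 := by
      rw [e, hY, hxf, Matrix.mulVec_smul, hY, add_comm, hxs, sub_self]
    rw [hxf, Matrix.mulVec_smul] at h3
    exact (smul_eq_zero.1 h3).resolve_left (mul_ne_zero ha hz0)
  refine ElemOrd1_nil hl _ hNl fun w => ?_
  obtain ⟨t, ht⟩ := hNR (Rinv *ᵥ w)
  refine ⟨t, ?_⟩
  have hRR : R *ᵥ (Rinv *ᵥ w) = w := by
    rw [Matrix.mulVec_mulVec, hR, Matrix.one_mulVec]
  rwa [hRR] at ht

/-- the constant part of a basis vector is nonzero. -/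
theorem ElemOrd1_f_ne_zero (b : Module.Basis (Fin 2) (DualNumber k) (Fin 2 → DualNumber k)) :
    ElemOrd1_f (b 0) ≠ 0 := by
  intro h
  have h1 : (TrivSqZeroExt.inr (1 : k) : DualNumber k) • b 0 = 0 := by
    funext i
    have hi : TrivSqZeroExt.fst (b 0 i) = 0 := congrFun h i
    ext
    · simp
    · simp [hi]
  have h2 := congrArg (fun v => b.repr v 0) h1
  simp only [map_smul, Module.Basis.repr_self, Finsupp.smul_apply, Finsupp.single_eq_same,
    smul_eq_mul, mul_one, map_zero, Finsupp.coe_zero, Pi.zero_apply] at h2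
  have h3 := congrArg TrivSqZeroExt.snd h2
  simp at h3

theorem ElemOrd1_natCast (a : ℕ) : ((a : ℕ) : DualNumber k) = TrivSqZeroExt.inl (a : k) :=
  (map_natCast (TrivSqZeroExt.inlHom k k) a).symm

end DN

/-! ### arithmetic input -/

section Arith

variable (p : ℕ) [Fact p.Prime]

theorem ElemOrd1_spec (σ : GQ) (ζ : AlgebraicClosure ℚ) (hζ : ζ ^ p = 1) :
    σ ζ = ζ ^ (cycloExp p σ) := by
  have : NeZero p := ⟨(Fact.out : p.Prime).ne_zero⟩
  have hu : IsUnit ζ := IsUnit.of_pow_eq_one hζ (Fact.out : p.Prime).ne_zero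
  obtain ⟨t, rfl⟩ := hu
  have ht : t ∈ rootsOfUnity p (AlgebraicClosure ℚ) := by
    rw [mem_rootsOfUnity]
    ext
    simpa using hζ
  have h := modularCyclotomicCharacter.spec (L := AlgebraicClosure ℚ) (card_rootsOfUnity_eq_self p)
    (σ : AlgebraicClosure ℚ ≃+* AlgebraicClosure ℚ) ht
  exact h

theorem ElemOrd1_liesOver : (primeLocalPlace (pPrime p)).LiesOverPrime p :=
  _root_.Fermat.Agent.CFT.padicPlace_liesOverPrime p

theorem ElemOrd1_mem_decomp (g : primeLocalGaloisGroup (pPrime p)) :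
    primeLocalToGlobal (pPrime p) g ∈ (primeLocalPlace (pPrime p)).decompositionSubgroup ℚ :=
  localGaloisToGlobal_mem_decompositionSubgroup p g

theorem ElemOrd1_cyc {k : Type} [Field k] [Algebra (ZMod p) k] (σ : GQ) :
    algebraMap (ZMod p) k (cycloChar p σ : ZMod p) = ((cycloExp p σ : ℕ) : k) ∧
      ((cycloExp p σ : ℕ) : k) ≠ 0 := by
  have h1 : algebraMap (ZMod p) k (cycloChar p σ : ZMod p) = ((cycloExp p σ : ℕ) : k) := by
    rw [coe_cycloChar, map_natCast]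
  refine ⟨h1, ?_⟩
  rw [← h1]
  intro h
  have h2 := (algebraMap (ZMod p) k).injective (h.trans (map_zero _).symm)
  exact (cycloChar p σ).ne_zero h2

theorem ElemOrd1_two_ne {k : Type} [Field k] [Algebra (ZMod p) k] (hp2 : p ≠ 2) :
    (2 : k) ≠ 0 := by
  have : CharP k p := charP_of_injective_algebraMap (algebraMap (ZMod p) k).injective p
  intro h
  have h1 : ((2 : ℕ) : k) = 0 := by exact_mod_cast h
  rw [CharP.cast_eq_zero_iff k p] at h1
  exact hp2 ((Nat.prime_dvd_prime_iff_eq Fact.out Nat.prime_two).1 h1)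

theorem ElemOrd1_p_eq_zero {k : Type} [Field k] [Algebra (ZMod p) k] :
    ((p ^ 1 : ℕ) : DualNumber k) = 0 := by
  have : CharP k p := charP_of_injective_algebraMap (algebraMap (ZMod p) k).injective p
  rw [pow_one, ElemOrd1_natCast, CharP.cast_eq_zero, TrivSqZeroExt.inl_zero]

end Arith

theorem elemOrd1 : Stmt_ElemOrd1 := by
  intro 𝒪 _ _ p _ _ hp2 rb hrb c h hdet hord
  have h2 : (2 : ResidueField 𝒪) ≠ 0 := ElemOrd1_two_ne p hp2
  have hpE : ((p ^ 1 : ℕ) : Eps 𝒪) = 0 := ElemOrd1_p_eq_zero (k := ResidueField 𝒪) p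
  obtain ⟨L, ⟨b, hL⟩, -, hI, hS⟩ := hord.2 (primeLocalPlace (pPrime p)) (ElemOrd1_liesOver p)
  obtain ⟨b0, hb0⟩ : ∃ b0 : Fin 2 → DualNumber (ResidueField 𝒪), b0 = b 0 := ⟨_, rfl⟩
  have hl : ElemOrd1_f b0 ≠ 0 := by
    rw [hb0]
    exact ElemOrd1_f_ne_zero (k := ResidueField 𝒪) b
  obtain ⟨Y, hY⟩ := ElemOrd1_exists_Y hl (ElemOrd1_s b0)
  have hmemL : ∀ v : (liftRep rb hrb c h).V, v ∈ L →
      ∃ e : DualNumber (ResidueField 𝒪),
        (show Fin 2 → DualNumber (ResidueField 𝒪) from v) = e • b0 := by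
    intro v hv
    rw [hL] at hv
    obtain ⟨e, he⟩ := Submodule.mem_span_singleton.1 hv
    exact ⟨e, by rw [hb0]; exact he.symm⟩
  have key : ∀ g : primeLocalGaloisGroup (pPrime p), ∃ z0 : ResidueField 𝒪, z0 ^ 2 = 1 ∧
      (∀ w : Fin 2 → ResidueField 𝒪, ∃ t : ResidueField 𝒪,
        rb (primeLocalToGlobal (pPrime p) g) *ᵥ w - z0 • w = t • ElemOrd1_f b0) ∧
      rb (primeLocalToGlobal (pPrime p) g) *ᵥ ElemOrd1_f b0
        = (((cycloExp p (primeLocalToGlobal (pPrime p) g) : ℕ) : ResidueField 𝒪) * z0)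
          • ElemOrd1_f b0 ∧
      ∃ t : ResidueField 𝒪, c (primeLocalToGlobal (pPrime p) g)
          * rb (primeLocalToGlobal (pPrime p) g) * rb (primeLocalToGlobal (pPrime p) g)⁻¹
        + (rb (primeLocalToGlobal (pPrime p) g) * Y * rb (primeLocalToGlobal (pPrime p) g)⁻¹ - Y)
          = t • nil (ElemOrd1_f b0) := by
    intro g
    obtain ⟨σ, hσ⟩ : ∃ σ, σ = primeLocalToGlobal (pPrime p) g := ⟨_, rfl⟩
    rw [← hσ]
    obtain ⟨x, z, hx, hz, hcyc⟩ := hS σ (by rw [hσ]; exact ElemOrd1_mem_decomp p g)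
    have hspec : ∀ μ : AlgebraicClosure ℚ, μ ^ p ^ 1 = 1 → σ μ = μ ^ (cycloExp p σ) :=
      fun μ hμ => ElemOrd1_spec p σ μ (by rwa [pow_one] at hμ)
    have hxz := hcyc 1 _ hspec
    have hdt := hdet.2 1 σ _ hspec
    rw [hpE, Ideal.span_singleton_eq_bot.2 rfl, Ideal.mem_bot, sub_eq_zero] at hxz hdt
    have hb0L : b 0 ∈ L := by
      rw [hL]
      exact Submodule.mem_span_singleton_self _
    have hdetxz : LinearMap.det ((liftRep rb hrb c h).ρ σ) = x * z :=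
      ElemOrd1_det b _ x z (hx (b 0) hb0L) (by rw [← hL]; exact hz (b 1))
    rw [hdetxz] at hdt
    refine ElemOrd1_core (rb_mul_inv rb σ) b0 x z (ElemOrd1_cyc p σ).2 h2 ?_ ?_ ?_ ?_ Y hY hl
    · rw [hb0]
      exact hx (b 0) hb0L
    · intro v
      exact hmemL _ (hz v)
    · rw [← ElemOrd1_natCast]
      exact hxz
    · rw [← ElemOrd1_natCast]
      exact hdt
  refine ⟨ElemOrd1_f b0, ⟨hl, fun g => ?_, fun g hg w => ?_⟩, -Y, fun g => ?_⟩
  · obtain ⟨z0, hz2, hw, hl0, -⟩ := key g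
    refine ⟨z0, hz2, hw, ?_⟩
    rw [(ElemOrd1_cyc p _).1]
    exact hl0
  · obtain ⟨e, he⟩ := hmemL _ (hI _ hg (ElemOrd1_i w))
    refine ⟨TrivSqZeroExt.fst e, ?_⟩
    have h3 : (dnMat (rb (primeLocalToGlobal (pPrime p) g))
        (c (primeLocalToGlobal (pPrime p) g) * rb (primeLocalToGlobal (pPrime p) g))).mulVec
          (ElemOrd1_i w) - ElemOrd1_i w = e • b0 := he
    have := congrArg ElemOrd1_f h3
    rwa [ElemOrd1_f_sub, ElemOrd1_f_mulVec, ElemOrd1_f_smul, ElemOrd1_f_i] at this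
  · obtain ⟨-, -, -, -, t, ht⟩ := key g
    refine ⟨t, ?_⟩
    rw [← ht, mul_assoc, rb_mul_inv, mul_one]
    show c (primeLocalToGlobal (pPrime p) g)
      - (rb (primeLocalToGlobal (pPrime p) g) * -Y * rb (primeLocalToGlobal (pPrime p) g⁻¹) - -Y) = _
    rw [map_inv]
    simp only [mul_neg, neg_mul]
    abel

end Fermat.Agent.TW56

end
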