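/-
TEAM TW56 -> S56, top level, ELEM-ORD2 : uniqueness of the ordinary line.
-/
import Fermat.Agent.TW56.Top.Asm

set_option autoImplicit false

noncomputable section

namespace Fermat.Agent.TW56

open IsLocalRing Polynomial Fermat.Agent.S53 ExtCitation Matrix

theorem ElemOrd2_nil_smul {k : Type} [Field k] (s : k) (ℓ : Fin 2 → k) :
    nil (s • ℓ) = (s ^ 2) • nil ℓ := by
  ext i j
  fin_cases i <;> fin_cases j <;> simp [nil, Matrix.vecMulVec_apply] <;> ring

/-- not every vector is a multiple of a given one. -/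
theorem ElemOrd2_not_all {k : Type} [Field k] (ℓ : Fin 2 → k)
    (h : ∀ w : Fin 2 → k, ∃ t : k, w = t • ℓ) : False := by
  obtain ⟨s, hs⟩ := h ![1, 0]
  obtain ⟨s', hs'⟩ := h ![0, 1]
  have a0 : (1 : k) = s * ℓ 0 := by simpa using congrFun hs 0
  have a1 : (0 : k) = s * ℓ 1 := by simpa using congrFun hs 1
  have b1 : (1 : k) = s' * ℓ 1 := by simpa using congrFun hs' 1
  have hs0 : s ≠ 0 := by
    rintro rfl
    simp at a0
  have hl1 : ℓ 1 = 0 := by
    rcases mul_eq_zero.1 a1.symm with h | h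
    · exact absurd h hs0
    · exact h
  rw [hl1, mul_zero] at b1
  exact one_ne_zero b1

theorem elemOrd2 : Stmt_ElemOrd2 := by
  intro p _ k _ _ rb ℓ ℓ' h h' hg
  obtain ⟨g, hg, hχ⟩ := hg
  set R := GW.rbv rb (pPrime p) g with hR
  set ω : k := algebraMap (ZMod p) k (cycloChar p (primeLocalToGlobal (pPrime p) g) : ZMod p)
    with hω
  have hω1 : ω ≠ 1 := by
    intro e
    apply hχ
    apply Units.ext
    apply (algebraMap (ZMod p) k).injective
    rw [Units.val_one, map_one]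
    exact e
  obtain ⟨z, -, hz1, hz2⟩ := h'.shape g
  have hin' := h'.inert g hg
  have hz : z = 1 := by
    by_contra hne
    have hne' : z - 1 ≠ 0 := sub_ne_zero.2 hne
    apply ElemOrd2_not_all ℓ'
    intro w
    obtain ⟨t₁, ht₁⟩ := hz1 w
    obtain ⟨t₂, ht₂⟩ := hin' w
    refine ⟨(z - 1)⁻¹ * (t₂ - t₁), ?_⟩
    have e : (z - 1) • w = (t₂ - t₁) • ℓ' := by
      rw [sub_smul, sub_smul, ← ht₁, ← ht₂, one_smul]
      abel
    rw [mul_smul, ← e, smul_smul, inv_mul_cancel₀ hne', one_smul]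
  rw [hz, mul_one] at hz2
  obtain ⟨t, ht⟩ := h.inert g hg ℓ'
  rw [hz2] at ht
  have hω' : ω - 1 ≠ 0 := sub_ne_zero.2 hω1
  have hl : ℓ' = ((ω - 1)⁻¹ * t) • ℓ := by
    have e : (ω - 1) • ℓ' = t • ℓ := by rw [sub_smul, one_smul, ht]
    rw [mul_smul, ← e, smul_smul, inv_mul_cancel₀ hω', one_smul]
  exact ⟨((ω - 1)⁻¹ * t) ^ 2, by rw [hl, ElemOrd2_nil_smul]⟩

end Fermat.Agent.TW56

end
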