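/-
TEAM TW56 -> S56, block [ELEM] (architect helper55; this file: helper86, task ELEM-RAM).
A ramified `ρ̄` is ramified at the standard place.
-/
import Fermat.Agent.TW56.Top.Asm
import Fermat.Agent.TW56.Sel.Places
import Fermat.Agent.CFT.LocalBridge

set_option autoImplicit false
set_option linter.style.haveILetI false

noncomputable section

namespace Fermat.Agent.TW56

open IsLocalRing Fermat.Agent.S53 ExtCitation Matrix

local notation "Qb" => AlgebraicClosure ℚ

/-- elementwise description of the inertia group. -/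
theorem ElemRam_inertia_iff (A : ValuationSubring Qb) (σ : GQ) :
    σ ∈ A.inertiaSubgroupIn ℚ ↔
      σ ∈ A.decompositionSubgroup ℚ ∧ ∀ a ∈ A, σ a - a ∈ A.nonunits := by
  rw [Sel.Places_mem_inertiaIn_iff]
  constructor
  · rintro ⟨hσ, h⟩
    refine ⟨hσ, fun a ha => ?_⟩
    have h1 := h (IsLocalRing.residue A ⟨a, ha⟩)
    rw [← IsLocalRing.ResidueField.residue_smul, ← sub_eq_zero, ← map_sub,
      IsLocalRing.residue_eq_zero_iff, ← ValuationSubring.coe_mem_nonunits_iff] at h1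
    exact h1
  · rintro ⟨hσ, h⟩
    refine ⟨hσ, fun xbar => ?_⟩
    obtain ⟨x, rfl⟩ := IsLocalRing.residue_surjective xbar
    rw [← IsLocalRing.ResidueField.residue_smul, ← sub_eq_zero, ← map_sub,
      IsLocalRing.residue_eq_zero_iff, ← ValuationSubring.coe_mem_nonunits_iff]
    exact h x x.2

/-- conjugation of inertia groups. -/
theorem ElemRam_inertia_conj {A A' : ValuationSubring Qb} {g : GQ}
    (hg : ∀ x : Qb, g x ∈ A' ↔ x ∈ A) {φ : GQ} (hφ : φ ∈ A'.inertiaSubgroupIn ℚ) :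
    g⁻¹ * φ * g ∈ A.inertiaSubgroupIn ℚ := by
  rw [ElemRam_inertia_iff] at hφ ⊢
  refine ⟨Sel.Places_dec_conj hg hφ.1, fun a ha => ?_⟩
  rw [← Sel.Places_nonunits_iff hg, map_sub, Sel.Places_conj_apply]
  exact hφ.2 _ ((hg a).2 ha)

theorem ElemRam_liesOver (v : Nat.Primes) : (primeLocalPlace v).LiesOverPrime (v : ℕ) := by
  letI : Fact (v : ℕ).Prime := ⟨v.2⟩
  exact CFT.padicPlace_liesOverPrime (v : ℕ)

theorem ElemRam_range (v : Nat.Primes) :
    (primeLocalToGlobal v).range = (primeLocalPlace v).decompositionSubgroup ℚ := by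
  letI : Fact (v : ℕ).Prime := ⟨v.2⟩
  exact CFT.range_localGaloisToGlobal (v : ℕ)

/-- **ELEM-RAM** -/
theorem elemRam : Stmt_ElemRam := by
  intro k _ ρbar e v hram
  unfold ResidualGaloisRep.IsUnramifiedAt at hram
  push Not at hram
  obtain ⟨A', hA', σ, hσ, hne⟩ := hram
  obtain ⟨g, hg⟩ := CFT.Num.DC_transitive CFT.GN.dictA CFT.GN.dictD v.2 (ElemRam_liesOver v) hA'
  have hτ := ElemRam_inertia_conj hg hσ
  have hdec : g⁻¹ * σ * g ∈ (primeLocalToGlobal v).range := by
    rw [ElemRam_range]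
    exact ((ElemRam_inertia_iff _ _).1 hτ).1
  obtain ⟨γ, hγ⟩ := hdec
  refine ⟨γ, ?_, ?_⟩
  · show primeLocalToGlobal v γ ∈ _
    rw [hγ]; exact hτ
  · intro h1
    have h2 : rbar ρbar e (g⁻¹ * σ * g) = 1 := by rw [← hγ]; exact h1
    rw [rbar_apply, ← LinearMap.toMatrix_one e] at h2
    have h3 : ρbar.ρ (g⁻¹ * σ * g) = 1 := (LinearMap.toMatrix e e).injective h2
    apply hne
    have h4 : σ = g * (g⁻¹ * σ * g) * g⁻¹ := by group
    rw [h4, map_mul, map_mul, h3, mul_one, ← map_mul, mul_inv_cancel, map_one]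

end Fermat.Agent.TW56

end
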