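/-
TEAM TW56 -> S56, top level, task ELEM-TR : `det = cyclotomic` gives trace zero.
-/
import Fermat.Agent.TW56.Top.Asm
import Fermat.Agent.TW56.Sel.Pick

set_option autoImplicit false

noncomputable section

namespace Fermat.Agent.TW56

open IsLocalRing Polynomial Fermat.Agent.S53 ExtCitation Matrix

section ElemTr

variable {k : Type} [Field k]

/-- the `ε`-component of the determinant of `(1 + ε c) r`. -/
theorem ElemTr_snd_det (r c : M2 k) : (dnMat r (c * r)).det.snd = r.det * c.trace := by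
  rw [Matrix.det_fin_two, Matrix.det_fin_two, Matrix.trace_fin_two]
  simp only [dnMat_apply, Matrix.mul_apply, Fin.sum_univ_two, TrivSqZeroExt.snd_sub,
    TrivSqZeroExt.snd_mul, TrivSqZeroExt.fst_add, TrivSqZeroExt.snd_add, TrivSqZeroExt.fst_inl,
    TrivSqZeroExt.fst_inr, TrivSqZeroExt.snd_inl, TrivSqZeroExt.snd_inr, add_zero, zero_add,
    smul_eq_mul, MulOpposite.smul_eq_mul_unop, MulOpposite.unop_op]
  ring

/-- a natural number which is not a unit of `k[ε]` is zero. -/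
theorem ElemTr_natCast_eq_zero (p : ℕ) (h : ¬ IsUnit ((p : ℕ) : DualNumber k)) :
    ((p : ℕ) : DualNumber k) = 0 := by
  by_cases h0 : ((p : ℕ) : k) = 0
  · rw [← map_natCast (TrivSqZeroExt.inlHom k k), h0, map_zero]
  · exfalso
    apply h
    rw [← map_natCast (TrivSqZeroExt.inlHom k k)]
    exact (IsUnit.mk0 _ h0).map (TrivSqZeroExt.inlHom k k)

end ElemTr

/-- **ELEM-TR**. -/
theorem elemTr : Stmt_ElemTr := by
  intro 𝒪 _ _ p _ rb hrb c h hdet σ
  obtain ⟨hp, hd⟩ := hdet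
  have hp0 : ((p : ℕ) : Eps 𝒪) = 0 := by
    rw [IsLocalRing.mem_maximalIdeal, mem_nonunits_iff] at hp
    exact ElemTr_natCast_eq_zero p hp
  have : NeZero p := ⟨(Fact.out : p.Prime).ne_zero⟩
  obtain ⟨a, ha⟩ := Sel.Pick_exists_pow p σ
  have h1 := hd 1 σ a (fun μ hμ => ha μ (by rwa [pow_one] at hμ))
  rw [pow_one, hp0, Ideal.span_singleton_eq_bot.2 rfl, Ideal.mem_bot, sub_eq_zero] at h1
  have h2 : LinearMap.det ((liftRep rb hrb c h).ρ σ) = (epsMat 𝒪 (rb σ) (c σ * rb σ)).det :=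
    LinearMap.det_toLin' _
  rw [h2] at h1
  have h3 : (dnMat (rb σ) (c σ * rb σ)).det = ((a : ℕ) : DualNumber (ResidueField 𝒪)) := h1
  have h4 := congrArg TrivSqZeroExt.snd h3
  rw [ElemTr_snd_det, TrivSqZeroExt.snd_natCast] at h4
  have h5 : (rb σ).det ≠ 0 := by
    intro h0
    have h6 := congrArg Matrix.det (rb_mul_inv rb σ)
    rw [Matrix.det_mul, h0, zero_mul, Matrix.det_one] at h6
    exact zero_ne_one h6
  exact (mul_eq_zero.1 h4).resolve_left h5

end Fermat.Agent.TW56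

end
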