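/-
TEAM TW56 -> S56, top level, task ELEM-UNIP (helper72): deformations which are unipotent on inertia.
-/
import Fermat.Agent.TW56.Top.Asm
import Fermat.Agent.CFT.LocalBridge

set_option autoImplicit false

noncomputable section

namespace Fermat.Agent.TW56

open IsLocalRing Polynomial Fermat.Agent.S53 ExtCitation Matrix

/-- a `2 × 2` matrix with characteristic polynomial `(X - 1)²` has trace `2` and determinant `1`. -/
theorem ElemUnip_tr_det {R : Type} [CommRing R] [Nontrivial R] (M : M2 R)
    (h : M.charpoly = (X - 1) ^ 2) : M.trace = 2 ∧ M.det = 1 := by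
  rw [Matrix.charpoly_fin_two] at h
  have e : ((X : R[X]) - 1) ^ 2 = X ^ 2 - C 2 * X + C 1 := by
    rw [map_ofNat, map_one]
    ring
  rw [e] at h
  constructor
  · have h1 := congrArg (fun P : R[X] => P.coeff 1) h
    simp only [coeff_add, coeff_sub, coeff_X_pow, coeff_C_mul, coeff_X_one, coeff_C] at h1
    simpa using h1
  · have h0 := congrArg (fun P : R[X] => P.coeff 0) h
    simp only [coeff_add, coeff_sub, coeff_X_pow, coeff_C_mul, coeff_X_zero, coeff_C] at h0
    simpa using h0

theorem ElemUnip_dn {k : Type} [Field k] (a b : M2 k) (h : (dnMat a b).charpoly = (X - 1) ^ 2) :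
    a.trace = 2 ∧ a.det = 1 ∧ b.trace = 0 := by
  obtain ⟨h1, h2⟩ := ElemUnip_tr_det _ h
  rw [Matrix.trace_fin_two] at h1
  rw [Matrix.det_fin_two] at h2
  have e2 : (2 : DualNumber k) = 1 + 1 := one_add_one_eq_two.symm
  have e2' : (2 : k) = 1 + 1 := one_add_one_eq_two.symm
  refine ⟨?_, ?_, ?_⟩
  · have := congrArg TrivSqZeroExt.fst (h1.trans e2)
    rw [Matrix.trace_fin_two, e2']
    simpa [dnMat_apply] using this
  · have := congrArg TrivSqZeroExt.fst h2
    rw [Matrix.det_fin_two]
    simpa [dnMat_apply] using this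
  · have := congrArg TrivSqZeroExt.snd (h1.trans e2)
    rw [Matrix.trace_fin_two]
    simpa [dnMat_apply] using this

theorem elemUnip : Stmt_ElemUnip := by
  intro 𝒪 _ _ v rb hrb c h hU
  have hP : (primeLocalPlace v).LiesOverPrime (v : ℕ) := by
    let _ : Fact (v : ℕ).Prime := ⟨v.2⟩
    exact Fermat.Agent.CFT.padicPlace_liesOverPrime (v : ℕ)
  have key : ∀ g, IsInertV v g → (GW.rbv rb v g).trace = 2 ∧ (GW.rbv rb v g).det = 1 ∧
      (c (primeLocalToGlobal v g) * GW.rbv rb v g).trace = 0 := by
    intro g hg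
    have h1 := hU _ hP _ hg
    have h2 : LinearMap.charpoly ((liftRep rb hrb c h).ρ (primeLocalToGlobal v g)) =
        (epsMat 𝒪 (rb (primeLocalToGlobal v g))
          (c (primeLocalToGlobal v g) * rb (primeLocalToGlobal v g))).charpoly :=
      Matrix.charpoly_toLin' _
    rw [h2] at h1
    exact ElemUnip_dn _ _ h1
  exact ⟨fun g hg => ⟨(key g hg).1, (key g hg).2.1⟩, fun g hg => (key g hg).2.2⟩

end Fermat.Agent.TW56

end
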