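/-
TEAM TW56 -> S56, top level, block ELEM: `Stmt_ElemUnr`, `Stmt_ElemZLoc`.
-/
import Fermat.Agent.TW56.Top.Asm

set_option autoImplicit false

namespace Fermat.Agent.TW56

open IsLocalRing Polynomial Fermat.Agent.S53 ExtCitation Matrix

/-- ELEM-UNR : unramified deformations. -/
theorem elemUnr : Stmt_ElemUnr := by
  intro 𝒪 _ _ q rb hrb c h hu A hA σ hσ
  have h1 : (liftRep rb hrb c h).ρ σ = 1 := hu A hA σ hσ
  have h2 : epsMat 𝒪 (rb σ) (c σ * rb σ) = 1 := by
    apply Matrix.toLin'.injective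
    apply LinearMap.ext
    intro v
    have h3 := LinearMap.congr_fun h1 v
    rw [Matrix.toLin'_apply, Matrix.toLin'_one]
    exact h3
  rw [← epsMat_one] at h2
  obtain ⟨e1, e2⟩ := epsMat_injective h2
  rw [e1, mul_one] at e2
  exact e2

/-- ELEM-ZLOC : the restriction of a global trace zero cocycle is in `ZLoc`. -/
theorem elemZLoc : Stmt_ElemZLoc := by
  intro k _ rb c h htr v
  obtain ⟨L, hL, hlev⟩ := h.lev
  refine ⟨⟨fun σ τ => ?_, fun σ => htr _⟩, L, hL, fun g s hs => ?_⟩
  · show c (primeLocalToGlobal v (σ * τ)) = c (primeLocalToGlobal v σ)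
      + rb (primeLocalToGlobal v σ) * c (primeLocalToGlobal v τ) * rb (primeLocalToGlobal v σ⁻¹)
    rw [map_mul, map_inv, h.coc]
  · show c (primeLocalToGlobal v (g * s)) = c (primeLocalToGlobal v g)
    have h0 : c (primeLocalToGlobal v s) = 0 := by
      apply hlev
      intro x hx
      exact (IntermediateField.mem_fixingSubgroup_iff L _).1 hs x hx
    rw [map_mul, h.coc, h0, mul_zero, zero_mul, add_zero]

end Fermat.Agent.TW56

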