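/-
TEAM TW56 -> S56, block [TAN], task TAN-EQ-FLAT: `condFlat` is invariant under equivalence.
-/
import Fermat.Agent.TW56.Top.Interface

set_option autoImplicit false

noncomputable section

namespace Fermat.Agent.TW56

open IsLocalRing Polynomial Fermat.Agent.S53

section General

variable {A : Type} [CommRing A] [IsLocalRing A] {ρ ρ' : GaloisRepAdic A}

theorem EquivFlat_conj (E : GaloisRepAdic.Equiv ρ ρ') (σ : GQ) :
    ρ'.ρ σ = E.toLinearEquiv.conj (ρ.ρ σ) := by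
  refine LinearMap.ext fun y => ?_
  rw [LinearEquiv.conj_apply_apply, E.map_apply, LinearEquiv.apply_symm_apply]

theorem EquivFlat_det (E : GaloisRepAdic.Equiv ρ ρ') (σ : GQ) :
    LinearMap.det (ρ'.ρ σ) = LinearMap.det (ρ.ρ σ) := by
  rw [EquivFlat_conj E σ, LinearEquiv.conj_apply, LinearMap.comp_assoc, LinearMap.det_conj]

theorem EquivFlat_charpoly (E : GaloisRepAdic.Equiv ρ ρ') (σ : GQ) :
    LinearMap.charpoly (ρ'.ρ σ) = LinearMap.charpoly (ρ.ρ σ) := by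
  rw [EquivFlat_conj E σ, LinearEquiv.charpoly_conj]

theorem EquivFlat_detCyc (E : GaloisRepAdic.Equiv ρ ρ') {p : ℕ} (h : ρ.DetIsCyclotomic p) :
    ρ'.DetIsCyclotomic p := by
  refine ⟨h.1, fun n σ a ha => ?_⟩
  rw [EquivFlat_det E σ]
  exact h.2 n σ a ha

theorem EquivFlat_unram (E : GaloisRepAdic.Equiv ρ ρ') {q : ℕ} (h : ρ.IsUnramifiedAt q) :
    ρ'.IsUnramifiedAt q := by
  intro P hP σ hσ
  rw [EquivFlat_conj E σ, h P hP σ hσ]
  refine LinearMap.ext fun y => ?_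
  rw [LinearEquiv.conj_apply_apply, Module.End.one_apply, Module.End.one_apply,
    LinearEquiv.apply_symm_apply]

theorem EquivFlat_unip (E : GaloisRepAdic.Equiv ρ ρ') {q : ℕ} (h : ρ.IsUnipotentOnInertiaAt q) :
    ρ'.IsUnipotentOnInertiaAt q := by
  intro P hP σ hσ
  rw [EquivFlat_charpoly E σ]
  exact h P hP σ hσ

/-- the isomorphism `V / I V ≃ V' / I V'` induced by an equivalence. -/
def EquivFlat_quot (E : GaloisRepAdic.Equiv ρ ρ') (I : Ideal A) :
    (ρ.V ⧸ (I • (⊤ : Submodule A ρ.V))) ≃ₗ[A] (ρ'.V ⧸ (I • (⊤ : Submodule A ρ'.V))) :=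
  Submodule.Quotient.equiv _ _ E.toLinearEquiv (by
    rw [Submodule.map_smul'', Submodule.map_top, LinearEquiv.range])

theorem EquivFlat_quot_mk (E : GaloisRepAdic.Equiv ρ ρ') (I : Ideal A) (x : ρ.V) :
    EquivFlat_quot E I (Submodule.Quotient.mk x) = Submodule.Quotient.mk (E.toLinearEquiv x) :=
  rfl

theorem EquivFlat_quot_level (E : GaloisRepAdic.Equiv ρ ρ') (I : Ideal A) (σ : GQ)
    (y : ρ.V ⧸ (I • (⊤ : Submodule A ρ.V))) :
    EquivFlat_quot E I (ρ.levelAction I σ y) = ρ'.levelAction I σ (EquivFlat_quot E I y) := by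
  obtain ⟨x, rfl⟩ := Submodule.Quotient.mk_surjective _ y
  rw [EquivFlat_quot_mk, GaloisRepAdic.levelAction, GaloisRepAdic.levelAction,
    Submodule.mapQ_apply, Submodule.mapQ_apply, EquivFlat_quot_mk, E.map_apply]

theorem EquivFlat_flat (E : GaloisRepAdic.Equiv ρ ρ') {p : ℕ} (h : ρ.IsFlatAt p) :
    ρ'.IsFlatAt p := by
  refine ⟨h.1, fun I hI => ?_⟩
  obtain ⟨H, i1, i2, h1, h2, h3, e, he1, he2⟩ := h.2 I hI
  refine ⟨H, i1, i2, h1, h2, h3, e.trans (EquivFlat_quot E I).toEquiv, ?_, ?_⟩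
  · intro f g
    show EquivFlat_quot E I (e (f * g)) = EquivFlat_quot E I (e f) + EquivFlat_quot E I (e g)
    rw [he1, map_add]
  · intro σ f g hfg
    show EquivFlat_quot E I (e g) = ρ'.levelAction I σ (EquivFlat_quot E I (e f))
    rw [he2 σ f g hfg, EquivFlat_quot_level]

end General

theorem equivFlat : Stmt_EquivFlat := by
  rintro 𝒪 _ _ p Smin Q ρ ρ' ⟨E⟩ ⟨⟨h1, h2, h3⟩, h4⟩
  exact ⟨⟨EquivFlat_detCyc E h1, EquivFlat_flat E h2, fun q hq hqS => EquivFlat_unram E (h3 q hq hqS)⟩,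
    fun q hqS hq hqp => EquivFlat_unip E (h4 q hqS hq hqp)⟩

end Fermat.Agent.TW56

end
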