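/-
TEAM TW56 -> S56, top level.  Adapter: `Stmt_FlatLoc` (a globally flat deformation is locally flat)
from helper33's `Flat.Stmt_Bridge` (proved in `Flat/Bridge.lean`).   (helper70)
-/
import Fermat.Agent.TW56.Top.Asm
import Fermat.Agent.TW56.Flat.Bridge

set_option autoImplicit false

noncomputable section

namespace Fermat.Agent.TW56

open Fermat.Agent.S53

/-- `Stmt_FlatLoc` from the bridge. -/
theorem flatLoc_of (hB : Flat.Stmt_Bridge) : Stmt_FlatLoc := by
  intro p _ k _ _ rb c _ hc
  exact hB p ((Fin 2 → k) × (Fin 2 → k)) (Flat.actW rb c) hc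

/-- **`Stmt_FlatLoc`**, unconditionally. -/
theorem flatLoc : Stmt_FlatLoc := flatLoc_of Flat.bridge

end Fermat.Agent.TW56

end
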