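/-
TEAM TW56 -> S56, block [TAN]: assembly of `Stmt_HomCoc`.
-/
import Fermat.Agent.TW56.Top.Interface
import Fermat.Agent.S53.Dict
import Fermat.Agent.S53.Residual
import Fermat.Agent.S53.TestAlg

set_option autoImplicit false

noncomputable section

namespace Fermat.Agent.TW56

open IsLocalRing Polynomial Fermat.Agent.S53

/-! ### residual representations and base change -/

section Res

variable {A B : Type} [CommRing A] [IsLocalRing A] [CommRing B] [IsLocalRing B]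

/-- the residual representation of a base change. -/
theorem HomCoc_residual_baseChange (φ : A →+* B) [hφ : IsLocalHom φ] (ρ : GaloisRepAdic A) :
    (ρ.baseChangeAlong φ hφ).residual.IsEquiv (ρ.residual.baseChangeAlong (ResidueField.map φ)) := by
  obtain ⟨b⟩ := exists_basis ρ
  refine residual_isEquiv_of_toMatrix_eq _ _
    (residualBasis (ρ.baseChangeAlong φ hφ) (dictBaseChangeBasis φ hφ ρ b))
    (residualBasisAlong (ResidueField.map φ) ρ.residual (residualBasis ρ b)) fun σ => ?_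
  rw [residual_toMatrix_baseChangeAlong, residual_toMatrix_baseChange,
    residual_toMatrix_baseChange]
  have h := congrArg (fun f : GQ →* M2 B => f σ) (matOf_baseChangeAlong φ hφ ρ b)
  simp only [matOf_apply, mapMat_apply] at h
  rw [h]
  ext i j
  simp only [Matrix.map_apply]
  exact (ResidueField.map_residue φ _).symm

/-- transitivity of base change of residual representations. -/
theorem HomCoc_baseChange_comp {k K L : Type} [Field k] [Field K] [Field L] (ψ : k →+* K)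
    (ψ' : K →+* L) (ρ : ResidualGaloisRep k) (e : Module.Basis (Fin 2) k ρ.V) :
    ((ρ.baseChangeAlong ψ).baseChangeAlong ψ').IsEquiv (ρ.baseChangeAlong (ψ'.comp ψ)) := by
  refine residual_isEquiv_of_toMatrix_eq _ _
    (residualBasisAlong ψ' _ (residualBasisAlong ψ ρ e)) (residualBasisAlong (ψ'.comp ψ) ρ e)
    fun σ => ?_
  rw [residual_toMatrix_baseChangeAlong, residual_toMatrix_baseChangeAlong,
    residual_toMatrix_baseChangeAlong]
  ext i j
  simp only [Matrix.map_apply, RingHom.comp_apply]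

end Res

/-! ### a ring with nilpotent ideal is complete -/

theorem HomCoc_isAdicComplete {R : Type} [CommRing R] (I : Ideal R) (N : ℕ) (hN : I ^ N = ⊥) :
    IsAdicComplete I R where
  haus' := by
    intro x hx
    have h := hx N
    rw [hN, Submodule.bot_smul, SModEq.bot] at h
    exact h
  prec' := by
    intro f hf
    refine ⟨f N, fun n => ?_⟩
    rcases le_total n N with h | h
    · exact hf h
    · have h1 := hf h
      rw [hN, Submodule.bot_smul, SModEq.bot] at h1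
      rw [h1]

/-! ### the dual numbers as a coefficient ring -/

section EpsInst

variable (𝒪 : Type) [CommRing 𝒪] [IsLocalRing 𝒪]

theorem HomCoc_eps_noeth : IsNoetherianRing (Eps 𝒪) := by
  have := (test_eps (𝒪 := 𝒪)).isArtinian
  infer_instance

theorem HomCoc_eps_complete : IsAdicComplete (maximalIdeal (Eps 𝒪)) (Eps 𝒪) := by
  obtain ⟨n, hn⟩ := exists_pow_eq_bot_of_test (test_eps (𝒪 := 𝒪))
  exact HomCoc_isAdicComplete _ n hn

theorem HomCoc_map_eq_epsψ [IsLocalHom (algebraMap 𝒪 (Eps 𝒪))] :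
    ResidueField.map (algebraMap 𝒪 (Eps 𝒪)) = epsψ 𝒪 := by
  refine RingHom.ext fun x => ?_
  obtain ⟨c, rfl⟩ := residue_surjective x
  rw [ResidueField.map_residue, epsψ_spec]

theorem HomCoc_algebraMap_eq (c : 𝒪) (a₀ : M2 (ResidueField 𝒪)) (i j : Fin 2)
    (h : a₀ i j = residue 𝒪 c) : epsMat 𝒪 a₀ 0 i j = algebraMap 𝒪 (Eps 𝒪) c := by
  show TrivSqZeroExt.inl (a₀ i j) + TrivSqZeroExt.inr ((0 : M2 (ResidueField 𝒪)) i j) = _
  rw [h, Matrix.zero_apply, TrivSqZeroExt.inr_zero, add_zero]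
  rfl

end EpsInst

/-- the residual representation of a tangent vector. -/
theorem HomCoc_residual {𝒪 : Type} [CommRing 𝒪] [IsLocalRing 𝒪]
    (ρbar : ResidualGaloisRep (ResidueField 𝒪)) (e : Module.Basis (Fin 2) (ResidueField 𝒪) ρbar.V)
    {R : Type} [CommRing R] [IsLocalRing R] [Algebra 𝒪 R] [IsLocalHom (algebraMap 𝒪 R)]
    (ρ : GaloisRepAdic R)
    (hρ : ρ.residual.IsEquiv (ρbar.baseChangeAlong (ResidueField.map (algebraMap 𝒪 R))))
    (φ : R →ₐ[𝒪] Eps 𝒪) (hφ : IsLocalHom (φ : R →+* Eps 𝒪)) :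
    (ρ.baseChangeAlong (φ : R →+* Eps 𝒪) hφ).residual.IsEquiv
      (ρbar.baseChangeAlong (epsψ 𝒪)) := by
  obtain ⟨E1⟩ := HomCoc_residual_baseChange (φ : R →+* Eps 𝒪) ρ
  obtain ⟨E2⟩ := hρ
  obtain ⟨E3⟩ := HomCoc_baseChange_comp (ResidueField.map (algebraMap 𝒪 R))
    (ResidueField.map (φ : R →+* Eps 𝒪)) ρbar e
  have hcomp : (ResidueField.map (φ : R →+* Eps 𝒪)).comp (ResidueField.map (algebraMap 𝒪 R))
      = epsψ 𝒪 := by
    refine RingHom.ext fun x => ?_
    obtain ⟨c, rfl⟩ := residue_surjective x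
    rw [RingHom.comp_apply, ResidueField.map_residue, ResidueField.map_residue, epsψ_spec]
    congr 1
    exact φ.commutes c
  rw [hcomp] at E3
  exact ⟨(E1.trans (E2.baseChangeAlong _)).trans E3⟩

theorem homCoc (h1 : Stmt_CocOf) (h2 : Stmt_CohomEquiv) (h3 : Stmt_ConstCoc) (h4 : Stmt_HomEps) :
    Stmt_HomCoc := by
  intro 𝒪 _ _ _ _ ρbar 𝒟 e hE hB DQ
  obtain ⟨hloc, hconst, huniq⟩ := h4 𝒪 DQ.R DQ.residue_surjective
  -- the deformation attached to a tangent vector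
  have hres : ∀ φ : DQ.R →ₐ[𝒪] Eps 𝒪,
      (DQ.ρ.baseChangeAlong (φ : DQ.R →+* Eps 𝒪) (hloc φ)).residual.IsEquiv
        (ρbar.baseChangeAlong (epsψ 𝒪)) :=
    fun φ => HomCoc_residual ρbar e DQ.ρ DQ.residual_isEquiv φ (hloc φ)
  have hcoc := fun φ : DQ.R →ₐ[𝒪] Eps 𝒪 => h1 𝒪 ρbar e _ (hres φ)
  choose Φ hΦ hΦe using hcoc
  -- type of the surjective ones
  have htype : ∀ φ : DQ.R →ₐ[𝒪] Eps 𝒪, Function.Surjective φ →
      𝒟 (DQ.ρ.baseChangeAlong (φ : DQ.R →+* Eps 𝒪) (hloc φ)) :=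
    fun φ hs => hB DQ.R DQ.ρ φ (hloc φ) hs DQ.isOfType
  refine ⟨Φ, fun φ => ?_, fun φ φ' hc => ?_⟩
  · by_cases hs : Function.Surjective φ
    · exact Or.inl ⟨hΦ φ, hE _ _ (hΦe φ) (htype φ hs)⟩
    · right
      obtain ⟨b⟩ := exists_basis DQ.ρ
      have hcont : MatCont (mapMat (φ : DQ.R →+* Eps 𝒪) (matOf DQ.ρ b)) :=
        matCont_mapMat _ (hloc φ) (matCont_matOf DQ.ρ b)
      refine h3 𝒪 (rbar ρbar e) (finLevel_rbar ρbar e) (Φ φ) (hΦ φ)
        (mapMat (φ : DQ.R →+* Eps 𝒪) (matOf DQ.ρ b)) hcont (fun σ => ?_) ?_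
      · choose a ha using fun i j => hconst φ hs (matOf DQ.ρ b σ i j)
        refine ⟨Matrix.of fun i j => residue 𝒪 (a i j), ?_⟩
        ext i j
        rw [HomCoc_algebraMap_eq 𝒪 (a i j) _ i j rfl, ← ha]
        rfl
      · refine isEquiv_trans (isEquiv_symm (hΦe φ)) ?_
        refine isEquiv_trans (isEquiv_ofMat_matOf _
          (dictBaseChangeBasis (φ : DQ.R →+* Eps 𝒪) (hloc φ) DQ.ρ b)) ?_
        exact dict_ofMat_isEquiv_of_eq _ _ (matOf_baseChangeAlong _ _ _ _)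
  · -- injectivity
    have heq : (DQ.ρ.baseChangeAlong (φ : DQ.R →+* Eps 𝒪) (hloc φ)).IsEquiv
        (DQ.ρ.baseChangeAlong (φ' : DQ.R →+* Eps 𝒪) (hloc φ')) :=
      isEquiv_trans (hΦe φ) (isEquiv_trans
        (h2 𝒪 (rbar ρbar e) (finLevel_rbar ρbar e) (Φ φ) (Φ φ') (hΦ φ) (hΦ φ') hc)
        (isEquiv_symm (hΦe φ')))
    have i1 := HomCoc_eps_noeth 𝒪
    have i2 := HomCoc_eps_complete 𝒪
    have i3 := (test_eps (𝒪 := 𝒪)).isLocalHom
    have key : ∀ ψ ψ' : DQ.R →ₐ[𝒪] Eps 𝒪, Function.Surjective ψ →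
        (DQ.ρ.baseChangeAlong (ψ' : DQ.R →+* Eps 𝒪) (hloc ψ')).IsEquiv
          (DQ.ρ.baseChangeAlong (ψ : DQ.R →+* Eps 𝒪) (hloc ψ)) → ψ = ψ' := by
      intro ψ ψ' hs hee
      have hu := DQ.universal (Eps 𝒪) (test_eps (𝒪 := 𝒪)).residue_surjective
        (DQ.ρ.baseChangeAlong (ψ : DQ.R →+* Eps 𝒪) (hloc ψ)) (htype ψ hs)
        (by rw [HomCoc_map_eq_epsψ]; exact hres ψ)
      exact hu.unique ⟨hloc ψ, isEquiv_refl _⟩ ⟨hloc ψ', hee⟩
    by_cases hs : Function.Surjective φ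
    · exact key φ φ' hs (isEquiv_symm heq)
    · by_cases hs' : Function.Surjective φ'
      · exact (key φ' φ hs' heq).symm
      · exact huniq φ φ' hs hs'

end Fermat.Agent.TW56

end
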