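import Fermat.Agent.TW56.Top.Interface

/-!
# TW56 / Top / HomEps : `𝒪`-algebra homomorphisms `R → k[ε]`
-/

set_option autoImplicit false

noncomputable section

namespace Fermat.Agent.TW56

open IsLocalRing Fermat.Agent.S53

/-- the abstract form: `D` an `𝒪`-algebra with a projection `f` to `k` such that every nonzero element
`n` of `ker f` generates `D` together with `𝒪`. -/
theorem HomEps_abs (𝒪 : Type) [CommRing 𝒪] [IsLocalRing 𝒪]
    (R : Type) [CommRing R] [IsLocalRing R] [Algebra 𝒪 R]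
    (hsurj : Function.Surjective (residue R ∘ algebraMap 𝒪 R))
    (D : Type) [CommRing D] [Algebra 𝒪 D] (f : D →+* ResidueField 𝒪)
    (hf : ∀ c : 𝒪, f (algebraMap 𝒪 D c) = residue 𝒪 c)
    (hgen : ∀ d n : D, f n = 0 → n ≠ 0 → ∃ u w : 𝒪, d = algebraMap 𝒪 D u + algebraMap 𝒪 D w * n) :
    (∀ φ : R →ₐ[𝒪] D, IsLocalHom (φ : R →+* D)) ∧
    (∀ φ : R →ₐ[𝒪] D, ¬ Function.Surjective φ → ∀ x : R, ∃ a : 𝒪, φ x = algebraMap 𝒪 D a) ∧
    (∀ φ φ' : R →ₐ[𝒪] D, ¬ Function.Surjective φ → ¬ Function.Surjective φ' → φ = φ') := by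
  -- (1') the maximal ideal goes to `ker f`
  have h1 : ∀ (φ : R →ₐ[𝒪] D) (m : R), m ∈ maximalIdeal R → f (φ m) = 0 := by
    intro φ m hm
    by_contra ha
    obtain ⟨α, hα⟩ := residue_surjective (-(f (φ m))⁻¹)
    have hy : IsUnit (1 + algebraMap 𝒪 R α * m) := by
      by_contra hnu
      have h2 : 1 + algebraMap 𝒪 R α * m ∈ maximalIdeal R := (mem_maximalIdeal _).2 hnu
      have h3 : (1 : R) ∈ maximalIdeal R := by
        have := Ideal.sub_mem _ h2 (Ideal.mul_mem_left _ (algebraMap 𝒪 R α) hm)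
        simp at this
      exact (Ideal.ne_top_iff_one _).1 (maximalIdeal.isMaximal R).ne_top h3
    have h4 : IsUnit (f (φ (1 + algebraMap 𝒪 R α * m))) := (hy.map φ).map f
    rw [map_add, map_one, map_mul, AlgHom.commutes, map_add, map_one, map_mul, hf, hα, neg_mul,
      inv_mul_cancel₀ ha, add_neg_cancel] at h4
    exact not_isUnit_zero h4
  -- decomposition
  have hdec : ∀ x : R, ∃ a : 𝒪, x - algebraMap 𝒪 R a ∈ maximalIdeal R := by
    intro x
    obtain ⟨a, ha⟩ := hsurj (residue R x)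
    refine ⟨a, ?_⟩
    rw [← residue_eq_zero_iff, map_sub, sub_eq_zero]
    exact ha.symm
  -- (2') non surjective homomorphisms kill the maximal ideal
  have h2 : ∀ φ : R →ₐ[𝒪] D, ¬ Function.Surjective φ → ∀ m ∈ maximalIdeal R, φ m = 0 := by
    intro φ hφ m hm
    by_contra hn
    apply hφ
    intro d
    obtain ⟨u, w, rfl⟩ := hgen d (φ m) (h1 φ m hm) hn
    exact ⟨algebraMap 𝒪 R u + algebraMap 𝒪 R w * m, by
      rw [map_add, map_mul, AlgHom.commutes, AlgHom.commutes]⟩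
  have h3 : ∀ φ : R →ₐ[𝒪] D, ¬ Function.Surjective φ → ∀ (x : R) (a : 𝒪),
      x - algebraMap 𝒪 R a ∈ maximalIdeal R → φ x = algebraMap 𝒪 D a := by
    intro φ hφ x a ha
    have := h2 φ hφ _ ha
    rwa [map_sub, AlgHom.commutes, sub_eq_zero] at this
  refine ⟨fun φ => ⟨fun x hx => ?_⟩, fun φ hφ x => ?_, fun φ φ' hφ hφ' => ?_⟩
  · by_contra hnu
    have h4 : f (φ x) = 0 := h1 φ x ((mem_maximalIdeal _).2 hnu)
    have h5 : IsUnit (f (φ x)) := IsUnit.map f hx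
    rw [h4] at h5
    exact not_isUnit_zero h5
  · obtain ⟨a, ha⟩ := hdec x
    exact ⟨a, h3 φ hφ x a ha⟩
  · ext x
    obtain ⟨a, ha⟩ := hdec x
    rw [h3 φ hφ x a ha, h3 φ' hφ' x a ha]

/-- generation of the dual numbers. -/
theorem HomEps_dn {k : Type} [Field k] (d n : DualNumber k) (h0 : TrivSqZeroExt.fst n = 0)
    (hn : n ≠ 0) : ∃ u w : k, d = TrivSqZeroExt.inl u + TrivSqZeroExt.inl w * n := by
  have hb : TrivSqZeroExt.snd n ≠ 0 := by
    intro hb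
    apply hn
    ext
    · exact h0
    · exact hb
  refine ⟨TrivSqZeroExt.fst d, TrivSqZeroExt.snd d / TrivSqZeroExt.snd n, ?_⟩
  ext
  · simp only [TrivSqZeroExt.fst_add, TrivSqZeroExt.fst_mul, TrivSqZeroExt.fst_inl, h0, mul_zero,
      add_zero]
  · simp only [TrivSqZeroExt.snd_add, TrivSqZeroExt.snd_mul, TrivSqZeroExt.fst_inl,
      TrivSqZeroExt.snd_inl, smul_eq_mul, smul_zero, add_zero, zero_add]
    rw [div_mul_cancel₀ _ hb]

/-- the projection `k[ε] → k`. -/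
def HomEps_fst (𝒪 : Type) [CommRing 𝒪] [IsLocalRing 𝒪] : Eps 𝒪 →+* ResidueField 𝒪 :=
  (TrivSqZeroExt.fstHom (ResidueField 𝒪) (ResidueField 𝒪) (ResidueField 𝒪)).toRingHom

theorem HomEps_gen (𝒪 : Type) [CommRing 𝒪] [IsLocalRing 𝒪] (d n : Eps 𝒪)
    (h0 : HomEps_fst 𝒪 n = 0) (hn : n ≠ 0) :
    ∃ u w : 𝒪, d = algebraMap 𝒪 (Eps 𝒪) u + algebraMap 𝒪 (Eps 𝒪) w * n := by
  obtain ⟨u, w, h⟩ := HomEps_dn (k := ResidueField 𝒪) d n h0 hn
  obtain ⟨u', rfl⟩ := residue_surjective u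
  obtain ⟨w', rfl⟩ := residue_surjective w
  exact ⟨u', w', h⟩

/-- **TAN-HC4** -/
theorem homEps : Stmt_HomEps := by
  intro 𝒪 _ _ R _ _ _ _ hsurj
  exact HomEps_abs 𝒪 R hsurj (Eps 𝒪) (HomEps_fst 𝒪) (fun _ => rfl) (HomEps_gen 𝒪)

end Fermat.Agent.TW56

end
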