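/-
TEAM TW56 -> S56, block [TAN], task TAN-PS2 (helper31): generators of the maximal ideal give a
surjection from the power series ring.
-/
import Fermat.Agent.TW56.Top.Interface
import Fermat.Agent.S53.PSEval
import Fermat.Agent.S53.PSComplete

set_option autoImplicit false

noncomputable section

namespace Fermat.Agent.TW56

open IsLocalRing Fermat.Agent.S53

section

variable {𝒪 : Type} [CommRing 𝒪] {R : Type} [CommRing R] [Algebra 𝒪 R] (I : Ideal R)

/-- evaluation modulo `I ^ n` at elements of `I`. -/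
theorem PSeval_exists_level (r : ℕ) (x : Fin r → R) (hx : ∀ i, x i ∈ I) (n : ℕ) :
    ∃ φ : MvPowerSeries (Fin r) 𝒪 →ₐ[𝒪] R ⧸ I ^ n,
      ∀ i, φ (MvPowerSeries.X i) = Ideal.Quotient.mk (I ^ n) (x i) := by
  refine exists_eval r (fun i => Ideal.Quotient.mk (I ^ n) (x i)) n ?_
  have h1 : Ideal.span (Set.range fun i => Ideal.Quotient.mk (I ^ n) (x i)) =
      (Ideal.span (Set.range x)).map (Ideal.Quotient.mk (I ^ n)) := by
    rw [Ideal.map_span, ← Set.range_comp]
    rfl
  rw [h1, ← Ideal.map_pow, Ideal.map_eq_bot_iff_le_ker, Ideal.mk_ker]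
  refine Ideal.pow_right_mono ?_ n
  rw [Ideal.span_le]
  rintro _ ⟨i, rfl⟩
  exact hx i

theorem PSeval_span_pow (r : ℕ) (x : Fin r → R) (hx : ∀ i, x i ∈ I) (n : ℕ) :
    Ideal.span (Set.range fun i => Ideal.Quotient.mk (I ^ n) (x i)) ^ n = ⊥ := by
  have h1 : Ideal.span (Set.range fun i => Ideal.Quotient.mk (I ^ n) (x i)) =
      (Ideal.span (Set.range x)).map (Ideal.Quotient.mk (I ^ n)) := by
    rw [Ideal.map_span, ← Set.range_comp]
    rfl
  rw [h1, ← Ideal.map_pow, Ideal.map_eq_bot_iff_le_ker, Ideal.mk_ker]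
  refine Ideal.pow_right_mono ?_ n
  rw [Ideal.span_le]
  rintro _ ⟨i, rfl⟩
  exact hx i

/-- evaluation of power series at elements of `I`, `R` being `I`-adically complete. -/
theorem PSeval_exists_eval [IsAdicComplete I R] (r : ℕ) (x : Fin r → R) (hx : ∀ i, x i ∈ I) :
    ∃ γ : MvPowerSeries (Fin r) 𝒪 →ₐ[𝒪] R, ∀ i, γ (MvPowerSeries.X i) = x i := by
  choose φ hφ using PSeval_exists_level (𝒪 := 𝒪) I r x hx
  have hc : ∀ {m n : ℕ} (hle : m ≤ n),
      (Ideal.Quotient.factorₐ 𝒪 (Ideal.pow_le_pow_right hle)).comp (φ n) = φ m := by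
    intro m n hle
    refine (eval_ext r _ _ m ?_ ?_).symm
    · have : (fun i => φ m (MvPowerSeries.X i)) = fun i => Ideal.Quotient.mk (I ^ m) (x i) :=
        funext (hφ m)
      rw [this]
      exact PSeval_span_pow I r x hx m
    · intro i
      rw [AlgHom.comp_apply, hφ, hφ]
      rfl
  refine ⟨IsAdicComplete.liftAlgHom I φ hc, fun i => ?_⟩
  refine IsHausdorff.eq_iff_smodEq (I := I) |>.mpr fun n => ?_
  rw [SModEq.sub_mem, smul_eq_mul, Ideal.mul_top, ← Ideal.Quotient.eq_zero_iff_mem, map_sub,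
    sub_eq_zero]
  have := IsAdicComplete.mk_liftAlgHom I φ hc n (MvPowerSeries.X i)
  rw [hφ] at this
  exact this

end

theorem psEval : Stmt_PSeval := by
  intro 𝒪 _ _ _ _ _ R _ _ _ _ _ _ hres r x hx
  have hxm : ∀ i, x i ∈ maximalIdeal R := by
    intro i
    rw [← hx]
    exact Ideal.mem_sup_right (Ideal.subset_span ⟨i, rfl⟩)
  obtain ⟨γ, hγ⟩ := PSeval_exists_eval (𝒪 := 𝒪) (maximalIdeal R) r x hxm
  refine ⟨γ, ?_⟩
  have hcomp : IsAdicComplete (maximalIdeal (MvPowerSeries (Fin r) 𝒪)) (MvPowerSeries (Fin r) 𝒪) :=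
    isAdicComplete_mvPowerSeries r
  have hmap : (maximalIdeal (MvPowerSeries (Fin r) 𝒪)).map (γ : MvPowerSeries (Fin r) 𝒪 →+* R) =
      maximalIdeal R := by
    rw [maximalIdeal_mvPowerSeries_eq, psBigIdeal, Ideal.map_sup, Ideal.map_map, Ideal.map_span,
      ← Set.range_comp, ← hx]
    congr 1
    · congr 1
      ext c
      have : (MvPowerSeries.C c : MvPowerSeries (Fin r) 𝒪) =
          algebraMap 𝒪 (MvPowerSeries (Fin r) 𝒪) c := by
        rw [MvPowerSeries.algebraMap_apply]; rfl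
      simp only [RingHom.comp_apply, RingHom.coe_coe, this, AlgHom.commutes]
    · congr 2
      ext i
      exact hγ i
  have hH : IsHausdorff ((maximalIdeal (MvPowerSeries (Fin r) 𝒪)).map
      (γ : MvPowerSeries (Fin r) 𝒪 →+* R)) R := by
    rw [hmap]; infer_instance
  have := surjective_of_mk_map_comp_surjective (I := maximalIdeal (MvPowerSeries (Fin r) 𝒪))
    (γ : MvPowerSeries (Fin r) 𝒪 →+* R) ?_
  · exact this
  · rw [hmap]
    intro y
    obtain ⟨c, hc⟩ := hres y
    refine ⟨algebraMap 𝒪 _ c, ?_⟩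
    simp only [RingHom.comp_apply, RingHom.coe_coe, AlgHom.commutes]
    exact hc

end Fermat.Agent.TW56

end

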