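/-
TEAM TW56 -> S56, block [TAN], TAN-PS1 : few tangent vectors ⟹ few generators of the maximal ideal.
-/
import Fermat.Agent.TW56.Top.Interface

set_option autoImplicit false
set_option linter.unusedSectionVars false

noncomputable section

namespace Fermat.Agent.TW56

open IsLocalRing Fermat.Agent.S53

/-- an `𝒪`-algebra `E` which "is" the ring of dual numbers over `k = 𝒪/𝔪`. -/
structure PSgens_DL (𝒪 E : Type) [CommRing 𝒪] [IsLocalRing 𝒪] [CommRing E] [Algebra 𝒪 E] where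
  f : E →+* ResidueField 𝒪
  s : E →+ ResidueField 𝒪
  pr : ResidueField 𝒪 → ResidueField 𝒪 → E
  f_pr : ∀ a b, f (pr a b) = a
  s_pr : ∀ a b, s (pr a b) = b
  ext : ∀ e e' : E, f e = f e' → s e = s e' → e = e'
  s_mul : ∀ e e' : E, s (e * e') = f e * s e' + f e' * s e
  f_alg : ∀ c : 𝒪, f (algebraMap 𝒪 E c) = residue 𝒪 c
  s_alg : ∀ c : 𝒪, s (algebraMap 𝒪 E c) = 0

section Abstract

variable {𝒪 E : Type} [CommRing 𝒪] [IsLocalRing 𝒪] [CommRing E] [Algebra 𝒪 E]
variable {R : Type} [CommRing R] [IsLocalRing R] [Algebra 𝒪 R]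

theorem PSgens_exists_sub_mem (hs : Function.Surjective (residue R ∘ algebraMap 𝒪 R)) (a : R) :
    ∃ c : 𝒪, a - algebraMap 𝒪 R c ∈ maximalIdeal R := by
  obtain ⟨c, hc⟩ := hs (residue R a)
  refine ⟨c, ?_⟩
  rw [← residue_eq_zero_iff, map_sub, sub_eq_zero]
  exact hc.symm

/-- an ideal strictly smaller than the maximal ideal is killed by a map to the "dual numbers" `E`
which does not kill the maximal ideal (copy of `S53.X.exists_algHom_dual`, noetherian version). -/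
theorem PSgens_exists_algHom_dual [IsNoetherianRing R] [IsLocalHom (algebraMap 𝒪 R)]
    (hres : Function.Surjective (residue R ∘ algebraMap 𝒪 R))
    (ε : E) (hε0 : ε ≠ 0) (hε2 : ε * ε = 0)
    (hεm : ∀ c ∈ maximalIdeal 𝒪, algebraMap 𝒪 E c = 0)
    (𝔞 : Ideal R) (h𝔞 : 𝔞 < maximalIdeal R) (h𝔞m : ∀ c ∈ maximalIdeal 𝒪, algebraMap 𝒪 R c ∈ 𝔞) :
    ∃ ψ : R →ₐ[𝒪] E, (∀ a ∈ 𝔞, ψ a = 0) ∧ ∃ b ∈ maximalIdeal R, ψ b ≠ 0 := by
  set m := maximalIdeal R with hm
  have h𝔟 : 𝔞 ⊔ m * m < m := by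
    refine lt_of_le_of_ne (sup_le h𝔞.le Ideal.mul_le_left) fun heq => ?_
    have h1 : m ≤ 𝔞 ⊔ m • m := by rw [smul_eq_mul]; exact heq.ge
    have h2 : m ≤ 𝔞 := Submodule.le_of_le_smul_of_le_jacobson_bot (IsNoetherian.noetherian m)
      (IsLocalRing.maximalIdeal_le_jacobson _) h1
    exact absurd h𝔞 (not_lt_of_ge h2)
  obtain ⟨𝔠, ⟨h𝔠1, h𝔠2⟩, h𝔠max⟩ :=
    WellFounded.has_min (wellFounded_gt (α := Ideal R)) {𝔠 | 𝔞 ⊔ m * m ≤ 𝔠 ∧ 𝔠 < m} ⟨_, le_rfl, h𝔟⟩
  obtain ⟨w₀, hw₀m, hw₀𝔠⟩ := SetLike.exists_of_lt h𝔠2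
  have hsup : 𝔠 ⊔ Ideal.span {w₀} = m := by
    by_contra hne
    have hle : 𝔠 ⊔ Ideal.span {w₀} ≤ m :=
      sup_le h𝔠2.le ((Ideal.span_singleton_le_iff_mem _).mpr hw₀m)
    have hlt : 𝔠 ⊔ Ideal.span {w₀} < m := lt_of_le_of_ne hle hne
    refine h𝔠max _ ⟨h𝔠1.trans le_sup_left, hlt⟩ ?_
    refine lt_of_le_of_ne le_sup_left fun heq => hw₀𝔠 ?_
    rw [heq]
    exact Ideal.mem_sup_right (Ideal.mem_span_singleton_self w₀)
  have h𝔞𝔠 : 𝔞 ≤ 𝔠 := le_sup_left.trans h𝔠1
  have hmm𝔠 : m * m ≤ 𝔠 := le_sup_right.trans h𝔠1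
  have key1 : ∀ b : R, ∃ c d : 𝒪, b - (algebraMap 𝒪 R c + algebraMap 𝒪 R d * w₀) ∈ 𝔠 := by
    intro b
    obtain ⟨c, hc⟩ := PSgens_exists_sub_mem hres b
    rw [← hm, ← hsup] at hc
    obtain ⟨y, hy, z, hz, hyz⟩ := Submodule.mem_sup.mp hc
    obtain ⟨r, rfl⟩ := Ideal.mem_span_singleton'.mp hz
    obtain ⟨d, hd⟩ := PSgens_exists_sub_mem hres r
    refine ⟨c, d, ?_⟩
    have : b - (algebraMap 𝒪 R c + algebraMap 𝒪 R d * w₀) = y + (r - algebraMap 𝒪 R d) * w₀ := by
      linear_combination -hyz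
    rw [this]
    exact 𝔠.add_mem hy (hmm𝔠 (Ideal.mul_mem_mul hd hw₀m))
  have key2 : ∀ c d : 𝒪, algebraMap 𝒪 R c + algebraMap 𝒪 R d * w₀ ∈ 𝔠 →
      c ∈ maximalIdeal 𝒪 ∧ d ∈ maximalIdeal 𝒪 := by
    intro c d h
    have hc : c ∈ maximalIdeal 𝒪 := by
      rw [IsLocalRing.mem_maximalIdeal]
      intro hcu
      have h1 : algebraMap 𝒪 R c ∈ m := by
        have := m.sub_mem (h𝔠2.le h) (m.mul_mem_left (algebraMap 𝒪 R d) hw₀m)
        simpa using this
      exact (IsLocalRing.mem_maximalIdeal _).mp h1 (hcu.map _)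
    refine ⟨hc, ?_⟩
    rw [IsLocalRing.mem_maximalIdeal]
    intro hdu
    have h1 : algebraMap 𝒪 R d * w₀ ∈ 𝔠 := by
      have := 𝔠.sub_mem h (h𝔞𝔠 (h𝔞m c hc))
      simpa using this
    exact hw₀𝔠 ((Ideal.unit_mul_mem_iff_mem 𝔠 (hdu.map _)).mp h1)
  let g : 𝒪 → 𝒪 → E := fun c d => algebraMap 𝒪 E c + algebraMap 𝒪 E d * ε
  have key3 : ∀ c d c' d' : 𝒪, (algebraMap 𝒪 R c + algebraMap 𝒪 R d * w₀) -
      (algebraMap 𝒪 R c' + algebraMap 𝒪 R d' * w₀) ∈ 𝔠 → g c d = g c' d' := by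
    intro c d c' d' h
    have h' : algebraMap 𝒪 R (c - c') + algebraMap 𝒪 R (d - d') * w₀ ∈ 𝔠 := by
      have : algebraMap 𝒪 R (c - c') + algebraMap 𝒪 R (d - d') * w₀ =
        (algebraMap 𝒪 R c + algebraMap 𝒪 R d * w₀) -
          (algebraMap 𝒪 R c' + algebraMap 𝒪 R d' * w₀) := by
        rw [map_sub, map_sub]; ring
      rw [this]; exact h
    obtain ⟨h1, h2⟩ := key2 _ _ h'
    have e1 := hεm _ h1
    have e2 := hεm _ h2
    rw [map_sub] at e1 e2
    show algebraMap 𝒪 E c + algebraMap 𝒪 E d * ε = algebraMap 𝒪 E c' + algebraMap 𝒪 E d' * ε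
    linear_combination e1 + ε * e2
  choose cf df hcd using key1
  have key4 : ∀ (b : R) (c d : 𝒪), b - (algebraMap 𝒪 R c + algebraMap 𝒪 R d * w₀) ∈ 𝔠 →
      g (cf b) (df b) = g c d := by
    intro b c d h
    apply key3
    have := 𝔠.sub_mem h (hcd b)
    have e : (algebraMap 𝒪 R (cf b) + algebraMap 𝒪 R (df b) * w₀) -
      (algebraMap 𝒪 R c + algebraMap 𝒪 R d * w₀) =
      (b - (algebraMap 𝒪 R c + algebraMap 𝒪 R d * w₀)) -
        (b - (algebraMap 𝒪 R (cf b) + algebraMap 𝒪 R (df b) * w₀)) := by ring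
    rw [e]; exact this
  let ψ : R →ₐ[𝒪] E :=
    { toFun := fun b => g (cf b) (df b)
      map_one' := by
        rw [key4 1 1 0 (by simp)]
        simp [g]
      map_mul' := fun b b' => by
        rw [key4 (b * b') (cf b * cf b') (cf b * df b' + cf b' * df b)]
        · simp only [g, map_mul, map_add]
          linear_combination (-(algebraMap 𝒪 E (df b) * algebraMap 𝒪 E (df b'))) * hε2
        · have e : b * b' - (algebraMap 𝒪 R (cf b * cf b') +
              algebraMap 𝒪 R (cf b * df b' + cf b' * df b) * w₀) =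
              (b - (algebraMap 𝒪 R (cf b) + algebraMap 𝒪 R (df b) * w₀)) * b' +
              (algebraMap 𝒪 R (cf b) + algebraMap 𝒪 R (df b) * w₀) *
                (b' - (algebraMap 𝒪 R (cf b') + algebraMap 𝒪 R (df b') * w₀)) +
              (algebraMap 𝒪 R (df b) * algebraMap 𝒪 R (df b')) * (w₀ * w₀) := by
            simp only [map_mul, map_add]; ring
          rw [e]
          exact 𝔠.add_mem (𝔠.add_mem (𝔠.mul_mem_right _ (hcd b)) (𝔠.mul_mem_left _ (hcd b')))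
            (𝔠.mul_mem_left _ (hmm𝔠 (Ideal.mul_mem_mul hw₀m hw₀m)))
      map_zero' := by
        rw [key4 0 0 0 (by simp)]
        simp [g]
      map_add' := fun b b' => by
        rw [key4 (b + b') (cf b + cf b') (df b + df b')]
        · simp only [g, map_add]; ring
        · have e : b + b' - (algebraMap 𝒪 R (cf b + cf b') +
              algebraMap 𝒪 R (df b + df b') * w₀) =
              (b - (algebraMap 𝒪 R (cf b) + algebraMap 𝒪 R (df b) * w₀)) +
              (b' - (algebraMap 𝒪 R (cf b') + algebraMap 𝒪 R (df b') * w₀)) := by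
            simp only [map_add]; ring
          rw [e]
          exact 𝔠.add_mem (hcd b) (hcd b')
      commutes' := fun r => by
        rw [key4 (algebraMap 𝒪 R r) r 0 (by simp)]
        simp [g] }
  refine ⟨ψ, fun a ha => ?_, w₀, hw₀m, ?_⟩
  · show g (cf a) (df a) = 0
    rw [key4 a 0 0 (by simpa using h𝔞𝔠 ha)]
    simp [g]
  · show g (cf w₀) (df w₀) ≠ 0
    rw [key4 w₀ 0 1 (by simp)]
    simpa [g] using hε0

/-- the first component of a tangent vector kills the maximal ideal. -/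
theorem PSgens_f_eq_zero (L : PSgens_DL 𝒪 E) (φ : R →ₐ[𝒪] E) {x : R} (hx : x ∈ maximalIdeal R) :
    L.f (φ x) = 0 := by
  have hsurj : Function.Surjective (L.f.comp (φ : R →+* E)) := by
    intro y
    obtain ⟨c, rfl⟩ := residue_surjective y
    exact ⟨algebraMap 𝒪 R c, by simp [L.f_alg]⟩
  have hker := IsLocalRing.eq_maximalIdeal (RingHom.ker_isMaximal_of_surjective _ hsurj)
  rw [← hker] at hx
  exact hx

/-- the first component of a tangent vector is the residue map. -/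
theorem PSgens_f_eq (L : PSgens_DL 𝒪 E) (hres : Function.Surjective (residue R ∘ algebraMap 𝒪 R))
    (φ ψ : R →ₐ[𝒪] E) (x : R) : L.f (φ x) = L.f (ψ x) := by
  obtain ⟨c, hc⟩ := PSgens_exists_sub_mem hres x
  have h1 := PSgens_f_eq_zero L φ hc
  have h2 := PSgens_f_eq_zero L ψ hc
  rw [map_sub, map_sub, AlgHom.commutes, sub_eq_zero] at h1 h2
  rw [h1, h2]

theorem PSgens_s_one (L : PSgens_DL 𝒪 E) : L.s 1 = 0 := by
  have := L.s_alg 1
  rwa [map_one] at this

/-- `φ + t ψ`. -/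
def PSgens_add (L : PSgens_DL 𝒪 E) (hres : Function.Surjective (residue R ∘ algebraMap 𝒪 R))
    (φ ψ : R →ₐ[𝒪] E) (t : ResidueField 𝒪) : R →ₐ[𝒪] E where
  toFun x := L.pr (L.f (φ x)) (L.s (φ x) + t * L.s (ψ x))
  map_one' := by
    apply L.ext
    · rw [L.f_pr, map_one φ]
    · rw [L.s_pr, map_one φ, map_one ψ, PSgens_s_one, mul_zero, add_zero]
  map_mul' x y := by
    apply L.ext
    · rw [L.f_pr, map_mul φ, map_mul L.f, map_mul L.f, L.f_pr, L.f_pr]
    · rw [L.s_pr, L.s_mul, L.f_pr, L.f_pr, L.s_pr, L.s_pr, map_mul φ, map_mul ψ, L.s_mul, L.s_mul,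
        PSgens_f_eq L hres ψ φ x, PSgens_f_eq L hres ψ φ y]
      ring
  map_zero' := by
    apply L.ext
    · rw [L.f_pr, map_zero φ]
    · rw [L.s_pr, map_zero φ, map_zero ψ, map_zero L.s, mul_zero, add_zero]
  map_add' x y := by
    apply L.ext
    · rw [L.f_pr, map_add φ, map_add L.f, map_add L.f, L.f_pr, L.f_pr]
    · rw [L.s_pr, map_add φ, map_add ψ, map_add L.s, map_add L.s, map_add L.s, L.s_pr, L.s_pr]
      ring
  commutes' c := by
    apply L.ext
    · rw [L.f_pr, AlgHom.commutes]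
    · rw [L.s_pr, AlgHom.commutes, AlgHom.commutes, L.s_alg, mul_zero, add_zero]

theorem PSgens_f_add (L : PSgens_DL 𝒪 E) (hres : Function.Surjective (residue R ∘ algebraMap 𝒪 R))
    (φ ψ : R →ₐ[𝒪] E) (t : ResidueField 𝒪) (x : R) :
    L.f (PSgens_add L hres φ ψ t x) = L.f (φ x) := L.f_pr _ _

theorem PSgens_s_add (L : PSgens_DL 𝒪 E) (hres : Function.Surjective (residue R ∘ algebraMap 𝒪 R))
    (φ ψ : R →ₐ[𝒪] E) (t : ResidueField 𝒪) (x : R) :
    L.s (PSgens_add L hres φ ψ t x) = L.s (φ x) + t * L.s (ψ x) := L.s_pr _ _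

/-- the inductive claim. -/
theorem PSgens_claim [IsNoetherianRing R] [IsLocalHom (algebraMap 𝒪 R)]
    [Finite (ResidueField 𝒪)] (L : PSgens_DL 𝒪 E)
    (hres : Function.Surjective (residue R ∘ algebraMap 𝒪 R)) (r : ℕ) :
    ∀ 𝔞 : Ideal R, 𝔞 ≤ maximalIdeal R → (∀ c ∈ maximalIdeal 𝒪, algebraMap 𝒪 R c ∈ 𝔞) →
      (∀ s : Finset (R →ₐ[𝒪] E), (∀ φ ∈ s, ∀ x ∈ 𝔞, φ x = 0) →
        s.card ≤ Nat.card (ResidueField 𝒪) ^ r) →
      ∃ x : Fin r → R, 𝔞 ⊔ Ideal.span (Set.range x) = maximalIdeal R := by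
  classical
  have hε0 : L.pr 0 1 ≠ 0 := by
    intro h
    have := congrArg L.s h
    rw [L.s_pr, map_zero] at this
    exact one_ne_zero this
  have hε2 : L.pr 0 1 * L.pr 0 1 = 0 := by
    apply L.ext
    · rw [map_mul, L.f_pr, mul_zero, map_zero]
    · rw [L.s_mul, L.f_pr, zero_mul, add_zero, map_zero]
  have hεm : ∀ c ∈ maximalIdeal 𝒪, algebraMap 𝒪 E c = 0 := by
    intro c hc
    apply L.ext
    · rw [L.f_alg, map_zero, residue_eq_zero_iff]; exact hc
    · rw [L.s_alg, map_zero]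
  have := Fintype.ofFinite (ResidueField 𝒪)
  have hq : 0 < Nat.card (ResidueField 𝒪) := Nat.card_pos
  induction r with
  | zero =>
    intro 𝔞 h𝔞 h𝔞m hcard
    refine ⟨Fin.elim0, ?_⟩
    by_contra hne
    have hne' : 𝔞 ≠ maximalIdeal R := by
      intro h
      apply hne
      rw [h]
      simp
    obtain ⟨ψ, hψ, b, hb, hψb⟩ := PSgens_exists_algHom_dual hres _ hε0 hε2 hεm 𝔞
      (lt_of_le_of_ne h𝔞 hne') h𝔞m
    -- `ψ` and `ψ - ψ` are two different elements
    have hsb : L.s (ψ b) ≠ 0 := by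
      intro h
      apply hψb
      apply L.ext
      · rw [PSgens_f_eq_zero L ψ hb, map_zero]
      · rw [h, map_zero]
    have hne2 : ψ ≠ PSgens_add L hres ψ ψ (-1) := by
      intro h
      have h1 := congrArg (fun φ : R →ₐ[𝒪] E => L.s (φ b)) h
      simp only [PSgens_s_add] at h1
      apply hsb
      linear_combination h1
    have h2 := hcard {ψ, PSgens_add L hres ψ ψ (-1)} (by
      intro φ hφ x hx
      rw [Finset.mem_insert, Finset.mem_singleton] at hφ
      rcases hφ with rfl | rfl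
      · exact hψ x hx
      · apply L.ext
        · rw [PSgens_f_add, hψ x hx]
        · rw [PSgens_s_add, hψ x hx, map_zero, mul_zero, add_zero])
    rw [Finset.card_pair hne2, pow_zero] at h2
    omega
  | succ r ih =>
    intro 𝔞 h𝔞 h𝔞m hcard
    by_cases heq : 𝔞 = maximalIdeal R
    · refine ⟨fun _ => 0, ?_⟩
      rw [heq]
      apply le_antisymm
      · refine sup_le le_rfl ?_
        rw [Ideal.span_le]
        rintro _ ⟨_, rfl⟩
        exact Ideal.zero_mem _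
      · exact le_sup_left
    obtain ⟨ψ, hψ, b, hb, hψb⟩ := PSgens_exists_algHom_dual hres _ hε0 hε2 hεm 𝔞
      (lt_of_le_of_ne h𝔞 heq) h𝔞m
    have hsb : L.s (ψ b) ≠ 0 := by
      intro h
      apply hψb
      apply L.ext
      · rw [PSgens_f_eq_zero L ψ hb, map_zero]
      · rw [h, map_zero]
    obtain ⟨x', hx'⟩ := ih (𝔞 ⊔ Ideal.span {b})
      (sup_le h𝔞 ((Ideal.span_singleton_le_iff_mem _).mpr hb))
      (fun c hc => Ideal.mem_sup_left (h𝔞m c hc)) (by
      intro s hs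
      have hsb0 : ∀ φ ∈ s, φ b = 0 := fun φ hφ =>
        hs φ hφ b (Ideal.mem_sup_right (Ideal.mem_span_singleton_self b))
      have hinj : Set.InjOn (fun z : ResidueField 𝒪 × (R →ₐ[𝒪] E) => PSgens_add L hres z.2 ψ z.1)
          (((Finset.univ : Finset (ResidueField 𝒪)) ×ˢ s : Finset _) : Set _) := by
        rintro ⟨t, φ⟩ h1 ⟨t', φ'⟩ h2 h
        rw [Finset.mem_coe, Finset.mem_product] at h1 h2
        simp only at h
        have e1 := congrArg (fun χ : R →ₐ[𝒪] E => L.s (χ b)) h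
        simp only [PSgens_s_add, hsb0 φ h1.2, hsb0 φ' h2.2, map_zero, zero_add] at e1
        have ht : t = t' := mul_right_cancel₀ hsb e1
        subst ht
        have hφ : φ = φ' := by
          apply AlgHom.ext
          intro x
          apply L.ext
          · exact PSgens_f_eq L hres φ φ' x
          · have e2 := congrArg (fun χ : R →ₐ[𝒪] E => L.s (χ x)) h
            simp only [PSgens_s_add] at e2
            exact add_right_cancel e2
        rw [hφ]
      have h3 := hcard (((Finset.univ : Finset (ResidueField 𝒪)) ×ˢ s).image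
        (fun z : ResidueField 𝒪 × (R →ₐ[𝒪] E) => PSgens_add L hres z.2 ψ z.1)) (by
        intro χ hχ x hx
        rw [Finset.mem_image] at hχ
        obtain ⟨⟨t, φ⟩, h1, rfl⟩ := hχ
        rw [Finset.mem_product] at h1
        have e1 : φ x = 0 := hs φ h1.2 x (Ideal.mem_sup_left hx)
        apply L.ext
        · rw [PSgens_f_add, e1]
        · rw [PSgens_s_add, e1, hψ x hx, map_zero, mul_zero, add_zero])
      rw [Finset.card_image_of_injOn hinj, Finset.card_product, Finset.card_univ,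
        ← Nat.card_eq_fintype_card, pow_succ, mul_comm] at h3
      exact Nat.le_of_mul_le_mul_right h3 hq)
    refine ⟨Fin.cons b x', ?_⟩
    rw [← hx', Fin.range_cons, Set.insert_eq, Ideal.span_union, sup_assoc]

end Abstract

section DN

variable {k : Type} [Field k]

theorem PSgens_dn_ext (e e' : DualNumber k) (h1 : TrivSqZeroExt.fst e = TrivSqZeroExt.fst e')
    (h2 : TrivSqZeroExt.snd e = TrivSqZeroExt.snd e') : e = e' := TrivSqZeroExt.ext h1 h2

theorem PSgens_dn_snd_mul (e e' : DualNumber k) :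
    TrivSqZeroExt.snd (e * e') =
      TrivSqZeroExt.fst e * TrivSqZeroExt.snd e' + TrivSqZeroExt.fst e' * TrivSqZeroExt.snd e := by
  rw [TrivSqZeroExt.snd_mul, smul_eq_mul, MulOpposite.smul_eq_mul_unop, MulOpposite.unop_op,
    mul_comm (TrivSqZeroExt.snd e)]

end DN

/-- `S53.Eps 𝒪` is the ring of dual numbers. -/
def PSgens_epsDL (𝒪 : Type) [CommRing 𝒪] [IsLocalRing 𝒪] : PSgens_DL 𝒪 (Eps 𝒪) where
  f := (TrivSqZeroExt.fstHom (ResidueField 𝒪) (ResidueField 𝒪) (ResidueField 𝒪)).toRingHom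
  s := (TrivSqZeroExt.sndHom (ResidueField 𝒪) (ResidueField 𝒪)).toAddMonoidHom
  pr a b := (TrivSqZeroExt.inl a + TrivSqZeroExt.inr b : DualNumber (ResidueField 𝒪))
  f_pr a b := by
    show TrivSqZeroExt.fst (TrivSqZeroExt.inl a + TrivSqZeroExt.inr b :
      DualNumber (ResidueField 𝒪)) = a
    rw [TrivSqZeroExt.fst_add, TrivSqZeroExt.fst_inl, TrivSqZeroExt.fst_inr, add_zero]
  s_pr a b := by
    show TrivSqZeroExt.snd (TrivSqZeroExt.inl a + TrivSqZeroExt.inr b :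
      DualNumber (ResidueField 𝒪)) = b
    rw [TrivSqZeroExt.snd_add, TrivSqZeroExt.snd_inl, TrivSqZeroExt.snd_inr, zero_add]
  ext e e' h1 h2 := PSgens_dn_ext e e' h1 h2
  s_mul e e' := PSgens_dn_snd_mul e e'
  f_alg _ := rfl
  s_alg _ := rfl

theorem psGens : Stmt_PSgens := by
  intro 𝒪 _ _ _ _ R _ _ _ _ _ hres r hcard
  have hm : ∀ c ∈ maximalIdeal 𝒪, algebraMap 𝒪 R c ∈ maximalIdeal R := by
    intro c hc
    rw [mem_maximalIdeal, mem_nonunits_iff] at hc ⊢
    exact fun h => hc (isUnit_of_map_unit (algebraMap 𝒪 R) c h)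
  exact PSgens_claim (PSgens_epsDL 𝒪) hres r _
    (Ideal.map_le_iff_le_comap.2 fun c hc => hm c hc)
    (fun c hc => Ideal.mem_map_of_mem _ hc) (fun s _ => hcard s)

end Fermat.Agent.TW56

end
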