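/-
TEAM TW56 -> S56, block [TAN], task TAN-BC-FLAT: `condFlat` is stable under surjective base change
to `k[ε]` (`Stmt_SurjFlat`).

For a surjective local homomorphism `φ : A → B`, an ideal `I'` of `B` and `I = φ⁻¹ I'`, the map
`V / I V → (B ⊗ V) / I' (B ⊗ V)`, `v ↦ 1 ⊗ v` is an additive bijection commuting with the Galois
action (`SurjFlat_F`): so the Hopf algebra for `(ρ, I)` also works for `(ρ', I')`.
The determinant / unramified / unipotent conditions are stable under any local base change.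
-/
import Fermat.Agent.TW56.Top.Interface

set_option autoImplicit false
set_option linter.style.haveILetI false

noncomputable section

namespace Fermat.Agent.TW56

open IsLocalRing Polynomial Fermat.Agent.S53
open scoped TensorProduct

section Alg

variable {A B : Type} [CommRing A] [CommRing B] [Algebra A B] {V : Type} [AddCommGroup V]
  [Module A V]

/-- `v ↦ 1 ⊗ v mod I' (B ⊗ V)` -/
def SurjFlat_g (V : Type) [AddCommGroup V] [Module A V] (I' : Ideal B) :
    V →ₗ[A] ((B ⊗[A] V) ⧸ (I' • (⊤ : Submodule B (B ⊗[A] V)))) :=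
  ((I' • (⊤ : Submodule B (B ⊗[A] V))).mkQ.restrictScalars A).comp (TensorProduct.mk A B V 1)

theorem SurjFlat_g_apply (I' : Ideal B) (v : V) :
    SurjFlat_g V I' v = Submodule.Quotient.mk ((1 : B) ⊗ₜ[A] v) := rfl

theorem SurjFlat_le_ker (I' : Ideal B) :
    (I'.comap (algebraMap A B)) • (⊤ : Submodule A V) ≤ LinearMap.ker (SurjFlat_g V I') := by
  rw [Submodule.smul_le]
  intro a ha v _
  rw [LinearMap.mem_ker, SurjFlat_g_apply, Submodule.Quotient.mk_eq_zero]
  have e : (1 : B) ⊗ₜ[A] (a • v) = algebraMap A B a • ((1 : B) ⊗ₜ[A] v) := by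
    rw [TensorProduct.tmul_smul, TensorProduct.smul_tmul', TensorProduct.smul_tmul',
      Algebra.smul_def, smul_eq_mul]
  rw [e]
  exact Submodule.smul_mem_smul (Ideal.mem_comap.1 ha) Submodule.mem_top

/-- the map `V / I V → (B ⊗ V) / I' (B ⊗ V)`, `I = I' ∩ A`. -/
def SurjFlat_F (V : Type) [AddCommGroup V] [Module A V] (I' : Ideal B) :
    (V ⧸ ((I'.comap (algebraMap A B)) • (⊤ : Submodule A V))) →ₗ[A]
      ((B ⊗[A] V) ⧸ (I' • (⊤ : Submodule B (B ⊗[A] V)))) :=
  Submodule.liftQ _ (SurjFlat_g V I') (SurjFlat_le_ker I')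

theorem SurjFlat_F_mk (I' : Ideal B) (v : V) :
    SurjFlat_F V I' (Submodule.Quotient.mk v) = Submodule.Quotient.mk ((1 : B) ⊗ₜ[A] v) := rfl

theorem SurjFlat_mem_smul_top {R W : Type} [CommRing R] [AddCommGroup W] [Module R W]
    (b : Module.Basis (Fin 2) R W) (I : Ideal R) {v : W} (h : ∀ i, b.repr v i ∈ I) :
    v ∈ I • (⊤ : Submodule R W) := by
  rw [← b.sum_repr v]
  exact Submodule.sum_mem _ fun i _ => Submodule.smul_mem_smul (h i) Submodule.mem_top

theorem SurjFlat_repr_mem {R W : Type} [CommRing R] [AddCommGroup W] [Module R W]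
    (b : Module.Basis (Fin 2) R W) (I : Ideal R) {v : W} (hv : v ∈ I • (⊤ : Submodule R W))
    (i : Fin 2) : b.repr v i ∈ I := by
  refine Submodule.smul_induction_on (p := fun x => b.repr x i ∈ I) hv ?_ ?_
  · intro a ha w _
    simp only [map_smul, Finsupp.smul_apply, smul_eq_mul]
    exact I.mul_mem_right _ ha
  · intro x y hx hy
    simp only [map_add, Finsupp.add_apply]
    exact I.add_mem hx hy

theorem SurjFlat_F_injective (b : Module.Basis (Fin 2) A V) (I' : Ideal B) :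
    Function.Injective (SurjFlat_F (A := A) V I') := by
  rw [← LinearMap.ker_eq_bot, LinearMap.ker_eq_bot']
  intro x hx
  obtain ⟨v, rfl⟩ := Submodule.Quotient.mk_surjective _ x
  rw [SurjFlat_F_mk, Submodule.Quotient.mk_eq_zero] at hx
  rw [Submodule.Quotient.mk_eq_zero]
  refine SurjFlat_mem_smul_top b _ fun i => ?_
  have h1 := SurjFlat_repr_mem (Algebra.TensorProduct.basis B b) I' hx i
  rw [Algebra.TensorProduct.basis_repr_tmul, one_smul, Finsupp.mapRange_apply] at h1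
  exact Ideal.mem_comap.2 h1

theorem SurjFlat_F_surjective (hs : Function.Surjective (algebraMap A B)) (I' : Ideal B) :
    Function.Surjective (SurjFlat_F (A := A) V I') := by
  intro y
  obtain ⟨w, rfl⟩ := Submodule.Quotient.mk_surjective _ y
  obtain ⟨v, rfl⟩ := TensorProduct.mk_surjective A V B hs w
  exact ⟨Submodule.Quotient.mk v, rfl⟩

end Alg

section BC

variable {A B : Type} [CommRing A] [IsLocalRing A] [CommRing B] [IsLocalRing B]

theorem SurjFlat_ρ_tmul (φ : A →+* B) (hφ : IsLocalHom φ) (ρ : GaloisRepAdic A) (σ : GQ) :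
    letI : Algebra A B := φ.toAlgebra
    (ρ.baseChangeAlong φ hφ).ρ σ = (ρ.ρ σ).baseChange B := rfl

theorem SurjFlat_det (φ : A →+* B) (hφ : IsLocalHom φ) (ρ : GaloisRepAdic A) (p : ℕ)
    (h : ρ.DetIsCyclotomic p) : (ρ.baseChangeAlong φ hφ).DetIsCyclotomic p := by
  letI : Algebra A B := φ.toAlgebra
  refine ⟨?_, fun n σ a ha => ?_⟩
  · have h1 := map_nonunit φ _ h.1
    rwa [map_natCast] at h1
  · have h1 := h.2 n σ a ha
    rw [Ideal.mem_span_singleton] at h1 ⊢
    obtain ⟨c, hc⟩ := h1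
    refine ⟨φ c, ?_⟩
    have h2 : LinearMap.det ((ρ.baseChangeAlong φ hφ).ρ σ) = φ (LinearMap.det (ρ.ρ σ)) :=
      LinearMap.det_baseChange (A := B) (ρ.ρ σ)
    rw [h2, ← map_natCast φ a, ← map_sub, hc, map_mul, map_natCast]

theorem SurjFlat_unram (φ : A →+* B) (hφ : IsLocalHom φ) (ρ : GaloisRepAdic A) (q : ℕ)
    (h : ρ.IsUnramifiedAt q) : (ρ.baseChangeAlong φ hφ).IsUnramifiedAt q := by
  letI : Algebra A B := φ.toAlgebra
  intro P hP σ hσ
  have h1 : (ρ.baseChangeAlong φ hφ).ρ σ = (ρ.ρ σ).baseChange B := rfl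
  rw [h1, h P hP σ hσ]
  exact LinearMap.baseChange_one A ρ.V

theorem SurjFlat_unip (φ : A →+* B) (hφ : IsLocalHom φ) (ρ : GaloisRepAdic A) (q : ℕ)
    (h : ρ.IsUnipotentOnInertiaAt q) : (ρ.baseChangeAlong φ hφ).IsUnipotentOnInertiaAt q := by
  letI : Algebra A B := φ.toAlgebra
  intro P hP σ hσ
  have h1 : LinearMap.charpoly ((ρ.baseChangeAlong φ hφ).ρ σ) =
      (LinearMap.charpoly (ρ.ρ σ)).map φ := LinearMap.charpoly_baseChange (ρ.ρ σ) B
  rw [h1, h P hP σ hσ]
  simp

theorem SurjFlat_finite_residue (φ : A →+* B) (hφ : IsLocalHom φ) (hs : Function.Surjective φ)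
    (h : Finite (ResidueField A)) : Finite (ResidueField B) := by
  haveI := hφ
  refine Finite.of_surjective (ResidueField.map φ) ?_
  intro y
  obtain ⟨b, rfl⟩ := residue_surjective y
  obtain ⟨a, rfl⟩ := hs b
  exact ⟨residue A a, ResidueField.map_residue φ a⟩

theorem SurjFlat_isFlatAt (φ : A →+* B) (hφ : IsLocalHom φ) (hs : Function.Surjective φ)
    (ρ : GaloisRepAdic A) (p : ℕ) (h : ρ.IsFlatAt p) :
    (ρ.baseChangeAlong φ hφ).IsFlatAt p := by
  letI : Algebra A B := φ.toAlgebra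
  refine ⟨SurjFlat_finite_residue φ hφ hs h.1, fun I' hI' => ?_⟩
  have hfin : Finite (A ⧸ I'.comap φ) :=
    Finite.of_injective (Ideal.quotientMap I' φ le_rfl) (Ideal.quotientMap_injective)
  obtain ⟨H, i1, i2, hH1, hH2, hH3, e, he1, he2⟩ := h.2 (I'.comap φ) hfin
  have b : Module.Basis (Fin 2) A ρ.V := Module.finBasisOfFinrankEq A ρ.V ρ.finrank_eq
  refine ⟨H, i1, i2, hH1, hH2, hH3,
    e.trans (Equiv.ofBijective (SurjFlat_F (A := A) (B := B) ρ.V I')
      ⟨SurjFlat_F_injective b I', SurjFlat_F_surjective hs I'⟩), ?_, ?_⟩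
  · intro f g
    show SurjFlat_F (A := A) (B := B) ρ.V I' (e (f * g)) = SurjFlat_F (A := A) (B := B) ρ.V I' (e f) +
      SurjFlat_F (A := A) (B := B) ρ.V I' (e g)
    rw [he1, map_add]
  · intro σ f g hfg
    show SurjFlat_F (A := A) (B := B) ρ.V I' (e g) =
      (ρ.baseChangeAlong φ hφ).levelAction I' σ (SurjFlat_F (A := A) (B := B) ρ.V I' (e f))
    rw [he2 σ f g hfg]
    obtain ⟨v, hv⟩ := Submodule.Quotient.mk_surjective _ (e f)
    rw [← hv]
    rfl

end BC

/-- **TAN-BC-FLAT** -/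
theorem surjFlat : Stmt_SurjFlat := by
  intro 𝒪 _ _ _ p Smin Q R _ _ _ ρ φ hφ hs h
  obtain ⟨⟨h1, h2, h3⟩, h4⟩ := h
  exact ⟨⟨SurjFlat_det _ hφ ρ p h1, SurjFlat_isFlatAt _ hφ hs ρ p h2,
    fun q hq hqS => SurjFlat_unram _ hφ ρ q (h3 q hq hqS)⟩,
    fun q hq hqp hne => SurjFlat_unip _ hφ ρ q (h4 q hq hqp hne)⟩

end Fermat.Agent.TW56

end
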