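/-
TEAM TW56 -> S56, block [TAN] (architect helper55; this file: helper86, task TAN-BC-ORD).
Base change of the elementary local conditions along ANY local homomorphism of local rings.
-/
import Fermat.Agent.TW56.Top.Interface

set_option autoImplicit false
set_option linter.style.haveILetI false

noncomputable section

namespace Fermat.Agent.TW56

open IsLocalRing Polynomial
open scoped TensorProduct

variable {R B : Type} [CommRing R] [IsLocalRing R] [CommRing B] [IsLocalRing B]

omit [IsLocalRing R] [IsLocalRing B] in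
/-- a ring hom maps `(m)` into `(m)`, `m ∈ ℕ`. -/
theorem BCBasic_span (φ : R →+* B) (m : ℕ) {x : R} (hx : x ∈ Ideal.span {(m : R)}) :
    φ x ∈ Ideal.span {(m : B)} := by
  obtain ⟨c, rfl⟩ := Ideal.mem_span_singleton'.1 hx
  rw [map_mul, map_natCast]
  exact Ideal.mul_mem_left _ _ (Ideal.mem_span_singleton_self _)

/-- a local hom maps the maximal ideal into the maximal ideal. -/
theorem BCBasic_max (φ : R →+* B) (hφ : IsLocalHom φ) (p : ℕ) (h : (p : R) ∈ maximalIdeal R) :
    (p : B) ∈ maximalIdeal B := by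
  have := map_nonunit φ (p : R) h
  rwa [map_natCast] at this

theorem BCBasic_rho (φ : R →+* B) (hφ : IsLocalHom φ) (ρ : GaloisRepAdic R)
    (σ : AlgebraicClosure ℚ ≃ₐ[ℚ] AlgebraicClosure ℚ) :
    letI : Algebra R B := φ.toAlgebra
    (ρ.baseChangeAlong φ hφ).ρ σ = (ρ.ρ σ).baseChange B := rfl

/-- `det = cyclotomic` is stable under base change. -/
theorem SurjOrd_det (φ : R →+* B) (hφ : IsLocalHom φ) (ρ : GaloisRepAdic R) (p : ℕ)
    (h : ρ.DetIsCyclotomic p) : (ρ.baseChangeAlong φ hφ).DetIsCyclotomic p := by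
  letI : Algebra R B := φ.toAlgebra
  refine ⟨BCBasic_max φ hφ p h.1, fun n σ a ha => ?_⟩
  have h1 := BCBasic_span φ (p ^ n) (h.2 n σ a ha)
  rw [map_sub, map_natCast] at h1
  have h2 : LinearMap.det ((ρ.baseChangeAlong φ hφ).ρ σ) = φ (LinearMap.det (ρ.ρ σ)) :=
    LinearMap.det_baseChange (A := B) (ρ.ρ σ)
  rw [h2]
  exact h1

/-- unramifiedness is stable under base change. -/
theorem SurjOrd_unram (φ : R →+* B) (hφ : IsLocalHom φ) (ρ : GaloisRepAdic R) (q : ℕ)
    (h : ρ.IsUnramifiedAt q) : (ρ.baseChangeAlong φ hφ).IsUnramifiedAt q := by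
  letI : Algebra R B := φ.toAlgebra
  intro P hP σ hσ
  have h1 : (ρ.baseChangeAlong φ hφ).ρ σ = (ρ.ρ σ).baseChange B := rfl
  rw [h1, h P hP σ hσ]
  exact LinearMap.baseChange_one R ρ.V

/-- unipotence on inertia is stable under base change. -/
theorem SurjOrd_unip (φ : R →+* B) (hφ : IsLocalHom φ) (ρ : GaloisRepAdic R) (q : ℕ)
    (h : ρ.IsUnipotentOnInertiaAt q) : (ρ.baseChangeAlong φ hφ).IsUnipotentOnInertiaAt q := by
  letI : Algebra R B := φ.toAlgebra
  intro P hP σ hσ
  have h1 : LinearMap.charpoly ((ρ.baseChangeAlong φ hφ).ρ σ) =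
      (LinearMap.charpoly (ρ.ρ σ)).map φ := LinearMap.charpoly_baseChange (A := B) (ρ.ρ σ)
  rw [h1, h P hP σ hσ, Polynomial.map_pow, Polynomial.map_sub, Polynomial.map_X,
    Polynomial.map_one]

end Fermat.Agent.TW56

end
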