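/-
TEAM TW56 -> S56, block [TAN] (architect helper55; this file: helper86, task TAN-BC-ORD).
The strict ordinary condition is stable under base change along any local homomorphism.
-/
import Fermat.Agent.TW56.Top.BCBasic

set_option autoImplicit false
set_option linter.style.haveILetI false

noncomputable section

namespace Fermat.Agent.TW56

open IsLocalRing Polynomial Fermat.Agent.S53
open scoped TensorProduct

variable {R B : Type} [CommRing R] [IsLocalRing R] [CommRing B] [IsLocalRing B]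

/-- strict ordinarity is stable under base change. -/
theorem SurjOrd_strict (φ : R →+* B) (hφ : IsLocalHom φ) (ρ : GaloisRepAdic R) (p : ℕ)
    (h : ρ.IsStrictOrdinaryAt p) : (ρ.baseChangeAlong φ hφ).IsStrictOrdinaryAt p := by
  letI : Algebra R B := φ.toAlgebra
  refine ⟨BCBasic_max φ hφ p h.1, fun P hP => ?_⟩
  obtain ⟨L, ⟨b, hb⟩, -, hI, hx⟩ := h.2 P hP
  -- the line
  have hL : ∀ (c : B) (v : ρ.V), v ∈ L →
      c ⊗ₜ[R] v ∈ Submodule.span B {(1 : B) ⊗ₜ[R] b 0} := by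
    intro c v hv
    rw [hb] at hv
    obtain ⟨r, rfl⟩ := Submodule.mem_span_singleton.1 hv
    refine Submodule.mem_span_singleton.2 ⟨c * φ r, ?_⟩
    rw [TensorProduct.smul_tmul', smul_eq_mul, mul_one, TensorProduct.tmul_smul,
      TensorProduct.smul_tmul', Algebra.smul_def, mul_comm]
    rfl
  have hb0 : b 0 ∈ L := by rw [hb]; exact Submodule.mem_span_singleton_self _
  have hsm : ∀ (z : R) (c : B) (v : ρ.V), φ z • (c ⊗ₜ[R] v) = c ⊗ₜ[R] (z • v) := by
    intro z c v
    rw [TensorProduct.tmul_smul, TensorProduct.smul_tmul', TensorProduct.smul_tmul',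
      smul_eq_mul, Algebra.smul_def]
    rfl
  -- the scalars
  have hx' : ∀ σ ∈ P.decompositionSubgroup ℚ, ∃ x z : B,
      (∀ w ∈ Submodule.span B {(1 : B) ⊗ₜ[R] b 0}, (ρ.ρ σ).baseChange B w = x • w) ∧
      (∀ v : B ⊗[R] ρ.V, (ρ.ρ σ).baseChange B v - z • v ∈
        Submodule.span B {(1 : B) ⊗ₜ[R] b 0}) ∧
      ∀ (n a : ℕ), (∀ μ : AlgebraicClosure ℚ, μ ^ p ^ n = 1 → σ μ = μ ^ a) →
        x - (a : B) * z ∈ Ideal.span {((p ^ n : ℕ) : B)} := by
    intro σ hσ
    obtain ⟨x, z, h1, h2, h3⟩ := hx σ hσ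
    refine ⟨φ x, φ z, ?_, ?_, ?_⟩
    · intro w hw
      obtain ⟨c, rfl⟩ := Submodule.mem_span_singleton.1 hw
      rw [map_smul, LinearMap.baseChange_tmul, h1 _ hb0, ← hsm, smul_comm]
    · intro w
      induction w using TensorProduct.induction_on with
      | zero => rw [LinearMap.map_zero, smul_zero, sub_zero]; exact Submodule.zero_mem _
      | tmul c v =>
        rw [LinearMap.baseChange_tmul, hsm, ← TensorProduct.tmul_sub]
        exact hL c _ (h2 v)
      | add u v hu hv =>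
        rw [map_add, smul_add, add_sub_add_comm]
        exact Submodule.add_mem _ hu hv
    · intro n a ha
      have h4 := BCBasic_span φ (p ^ n) (h3 n a ha)
      rwa [map_sub, map_mul, map_natCast] at h4
  have key : ∃ L' : Submodule B (B ⊗[R] ρ.V),
      (∃ b' : Module.Basis (Fin 2) B (B ⊗[R] ρ.V), L' = Submodule.span B {b' 0}) ∧
      (∀ σ ∈ P.decompositionSubgroup ℚ, ∀ v ∈ L', (ρ.ρ σ).baseChange B v ∈ L') ∧
      (∀ σ ∈ P.inertiaSubgroupIn ℚ, ∀ v : B ⊗[R] ρ.V, (ρ.ρ σ).baseChange B v - v ∈ L') ∧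
      (∀ σ ∈ P.decompositionSubgroup ℚ, ∃ x z : B,
        (∀ w ∈ L', (ρ.ρ σ).baseChange B w = x • w) ∧
        (∀ v : B ⊗[R] ρ.V, (ρ.ρ σ).baseChange B v - z • v ∈ L') ∧
        ∀ (n a : ℕ), (∀ μ : AlgebraicClosure ℚ, μ ^ p ^ n = 1 → σ μ = μ ^ a) →
          x - (a : B) * z ∈ Ideal.span {((p ^ n : ℕ) : B)}) := by
    refine ⟨Submodule.span B {(1 : B) ⊗ₜ[R] b 0}, ⟨Algebra.TensorProduct.basis B b, ?_⟩,
      ?_, ?_, hx'⟩
    · rw [Algebra.TensorProduct.basis_apply]
    · intro σ hσ v hv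
      obtain ⟨x, z, h1, -, -⟩ := hx' σ hσ
      rw [h1 v hv]
      exact Submodule.smul_mem _ _ hv
    · intro σ hσ w
      induction w using TensorProduct.induction_on with
      | zero => rw [LinearMap.map_zero, sub_zero]; exact Submodule.zero_mem _
      | tmul c v =>
        rw [LinearMap.baseChange_tmul, ← TensorProduct.tmul_sub]
        exact hL c _ (hI σ hσ v)
      | add u v hu hv =>
        rw [map_add, add_sub_add_comm]
        exact Submodule.add_mem _ hu hv
  exact key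

/-- **TAN-BC-ORD** (surjectivity is not used). -/
theorem surjOrd : Stmt_SurjOrd := by
  intro 𝒪 _ _ p Smin Q R _ _ _ ρ φ hφ _ h
  obtain ⟨⟨h1, h2, h3⟩, h4⟩ := h
  exact ⟨⟨SurjOrd_det _ hφ ρ p h1, SurjOrd_strict _ hφ ρ p h2,
    fun q hq hqS => SurjOrd_unram _ hφ ρ q (h3 q hq hqS)⟩,
    fun q hqS hq hqp => SurjOrd_unip _ hφ ρ q (h4 q hqS hq hqp)⟩

end Fermat.Agent.TW56

end
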