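/-
TEAM TW56 -> S56, top level.  THE FINAL ASSEMBLY (helper33, chief).

`s56_of` : the statement of S56 from the six outputs which are still open at 02:45Z:
  EC.Stmt_ECadAux (EC), Stmt_LocQ, Stmt_LocUnip, Stmt_LocOrd (LOCQ), GW.Stmt_LocUnr, Flat.Stmt_COUNT.
Everything else is unconditional.
-/
import Fermat.Agent.TW56.Top.Asm2
import Fermat.Agent.TW56.Top.CocOf
import Fermat.Agent.TW56.Top.CohomEquiv
import Fermat.Agent.TW56.Top.ConstCoc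
import Fermat.Agent.TW56.Top.CycRam
import Fermat.Agent.TW56.Top.ElemFlat
import Fermat.Agent.TW56.Top.ElemHyp1
import Fermat.Agent.TW56.Top.ElemHyp2
import Fermat.Agent.TW56.Top.ElemOrd1
import Fermat.Agent.TW56.Top.ElemOrd2
import Fermat.Agent.TW56.Top.ElemRam
import Fermat.Agent.TW56.Top.ElemTr
import Fermat.Agent.TW56.Top.ElemUnip
import Fermat.Agent.TW56.Top.ElemUnr
import Fermat.Agent.TW56.Top.EquivFlat
import Fermat.Agent.TW56.Top.EquivOrd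
import Fermat.Agent.TW56.Top.FlatLoc
import Fermat.Agent.TW56.Top.HomCoc
import Fermat.Agent.TW56.Top.HomEps
import Fermat.Agent.TW56.Top.PSeval
import Fermat.Agent.TW56.Top.PSgens
import Fermat.Agent.TW56.Top.SurjFlat
import Fermat.Agent.TW56.Top.SurjOrd
import Fermat.Agent.TW56.Sel.Done
import Fermat.Agent.TW56.GW.BAll
import Fermat.Agent.TW56.Flat.All
import Fermat.Agent.TW56.Flat.TopLocFlat

set_option autoImplicit false

namespace Fermat.Agent.TW56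

open IsLocalRing Polynomial

theorem final_HomCoc : Stmt_HomCoc := homCoc cocOf cohomEquiv constCoc homEps
theorem final_PSsurj : Stmt_PSsurj := psSurj psGens psEval

theorem final_MTord (hEA : EC.Stmt_ECadAux) (hQ : Stmt_LocQ) (hU : Stmt_LocUnip)
    (hO : Stmt_LocOrd) (hLU : GW.Stmt_LocUnr) : Stmt_MTord :=
  mtOrd2 Sel.done_mat Sel.done_twset (GW.all_GWmatAux hLU) hEA hQ hU hO rbarHyp gwHyp elemTr
    elemUnr elemZLoc elemUnip elemRam elemOrd1 elemOrd2 cycRam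

theorem final_MTflat (hEA : EC.Stmt_ECadAux) (hQ : Stmt_LocQ) (hU : Stmt_LocUnip)
    (hLU : GW.Stmt_LocUnr) (hC : Flat.Stmt_COUNT) : Stmt_MTflat :=
  mtFlat2 Sel.done_mat Sel.done_twset (GW.all_GWmatAux hLU) hEA hQ hU
    (Flat.topLocFlat (Flat.flat_of_COUNT hC)) flatLoc rbarHyp gwHyp elemTr elemUnr elemZLoc
    elemUnip elemRam elemFlat

/-- **S56 from the six open outputs.** -/
theorem s56_of (hEA : EC.Stmt_ECadAux) (hQ : Stmt_LocQ) (hU : Stmt_LocUnip) (hO : Stmt_LocOrd)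
    (hLU : GW.Stmt_LocUnr) (hC : Flat.Stmt_COUNT)
    {𝒪 : Type} [CommRing 𝒪] [IsDomain 𝒪] [IsDiscreteValuationRing 𝒪]
    [IsAdicComplete (maximalIdeal 𝒪) 𝒪] [Finite (ResidueField 𝒪)]
    (p : ℕ) [Fact p.Prime] (hp2 : p ≠ 2) (hp𝒪 : (p : 𝒪) ∈ maximalIdeal 𝒪)
    (ρbar : ResidualGaloisRep (ResidueField 𝒪))
    (habs : ρbar.IsAbsolutelyIrreducible)
    (hdet : (GaloisRepAdic.ofResidualGaloisRep ρbar).DetIsCyclotomic p)
    (hsplit : ∀ σ : AlgebraicClosure ℚ ≃ₐ[ℚ] AlgebraicClosure ℚ,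
      ∃ α β : ResidueField 𝒪, LinearMap.charpoly (ρbar.ρ σ) = (X - C α) * (X - C β))
    (hTW : ∀ (K : Type) [Field K] [Algebra (ResidueField 𝒪) K]
      (G : Subgroup (AlgebraicClosure ℚ ≃ₐ[ℚ] AlgebraicClosure ℚ)), G.index = 2 →
      ∀ V : Submodule K (ρbar.baseChange K).V,
        (∀ σ ∈ G, ∀ x ∈ V, (ρbar.baseChange K).ρ σ x ∈ V) → V = ⊥ ∨ V = ⊤)
    (S Smin : Finset ℕ) (hpSmin : p ∈ Smin) (hSmin : Smin ⊆ S) (hS : ∀ q ∈ S, q.Prime)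
    (hmin : ∀ q : ℕ, q.Prime → q ≠ p → (q ∈ Smin ↔ ¬ ρbar.IsUnramifiedAt q)) :
    (∃ r : ℕ, ∀ n : ℕ, ∃ qv : Fin r → ℕ, Function.Injective qv ∧
      (∀ i, (qv i).Prime ∧ qv i ∉ S ∧ p ^ (n + 1) ∣ qv i - 1) ∧
      (∀ i, ∀ P : ValuationSubring (AlgebraicClosure ℚ), P.LiesOverPrime (qv i) →
        ∀ φ : AlgebraicClosure ℚ ≃ₐ[ℚ] AlgebraicClosure ℚ, P.IsFrobeniusAt φ (qv i) →
          ∃ α β : ResidueField 𝒪, α ≠ β ∧ LinearMap.charpoly (ρbar.ρ φ) = (X - C α) * (X - C β)) ∧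
      ∀ DQ : GaloisRep.DeformationRingData 𝒪 ρbar (fun _A _ _ _ ρ =>
          GaloisRep.strictOrdinaryCondition 𝒪 p (Smin ∪ Finset.univ.image qv) ρ ∧
            ∀ q ∈ Smin, q.Prime → q ≠ p → ρ.IsUnipotentOnInertiaAt q),
        ∃ γ : MvPowerSeries (Fin r) 𝒪 →ₐ[𝒪] DQ.R, Function.Surjective γ) ∧
    (∃ r : ℕ, ∀ n : ℕ, ∃ qv : Fin r → ℕ, Function.Injective qv ∧
      (∀ i, (qv i).Prime ∧ qv i ∉ S ∧ p ^ (n + 1) ∣ qv i - 1) ∧
      (∀ i, ∀ P : ValuationSubring (AlgebraicClosure ℚ), P.LiesOverPrime (qv i) →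
        ∀ φ : AlgebraicClosure ℚ ≃ₐ[ℚ] AlgebraicClosure ℚ, P.IsFrobeniusAt φ (qv i) →
          ∃ α β : ResidueField 𝒪, α ≠ β ∧ LinearMap.charpoly (ρbar.ρ φ) = (X - C α) * (X - C β)) ∧
      ∀ DQ : GaloisRep.DeformationRingData 𝒪 ρbar (fun _A _ _ _ ρ =>
          GaloisRep.flatCondition 𝒪 p (Smin ∪ Finset.univ.image qv) ρ ∧
            ∀ q ∈ Smin, q.Prime → q ≠ p → ρ.IsUnipotentOnInertiaAt q),
        ∃ γ : MvPowerSeries (Fin r) 𝒪 →ₐ[𝒪] DQ.R, Function.Surjective γ) := by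
  have H : Hyp 𝒪 p ρbar S Smin :=
    ⟨hp2, hp𝒪, habs, hdet, hsplit, hTW, hpSmin, hSmin, hS, hmin⟩
  constructor
  · obtain ⟨r, h⟩ := halfFor final_HomCoc final_PSsurj 𝒪 p ρbar S (condOrd 𝒪 p Smin)
      (fun Q => equivOrd 𝒪 p Smin Q) (fun Q => surjOrd 𝒪 p Smin Q)
      (final_MTord hEA hQ hU hO hLU 𝒪 p ρbar S Smin H)
    refine ⟨r, fun n => ?_⟩
    obtain ⟨qv, ⟨h1, h2, h3⟩, h4⟩ := h n
    exact ⟨qv, h1, h2, h3, h4⟩
  · obtain ⟨r, h⟩ := halfFor final_HomCoc final_PSsurj 𝒪 p ρbar S (condFlat 𝒪 p Smin)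
      (fun Q => equivFlat 𝒪 p Smin Q) (fun Q => surjFlat 𝒪 p Smin Q)
      (final_MTflat hEA hQ hU hLU hC 𝒪 p ρbar S Smin H)
    refine ⟨r, fun n => ?_⟩
    obtain ⟨qv, ⟨h1, h2, h3⟩, h4⟩ := h n
    exact ⟨qv, h1, h2, h3, h4⟩

end Fermat.Agent.TW56
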