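/-
TEAM TW56 -> S56, top level.  ASM-FLAT : assembly of `Stmt_MTflat` (helper22).
-/
import Fermat.Agent.TW56.Top.AsmCommon

set_option autoImplicit false

noncomputable section

namespace Fermat.Agent.TW56

open IsLocalRing Polynomial Fermat.Agent.S53 ExtCitation Matrix

/-- **ASM-FLAT** -/
theorem mtFlat (hMat : Sel.Stmt_Mat) (hTW : Sel.Stmt_TWset) (hGW : GW.Stmt_GWmat)
    (hEC : Stmt_ECad) (hQ : Stmt_LocQ) (hU : Stmt_LocUnip) (hF : Stmt_LocFlat)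
    (hFL : Stmt_FlatLoc) (h1 : Stmt_RbarHyp) (h2 : Stmt_GWHyp) (hTr : Stmt_ElemTr)
    (hUn : Stmt_ElemUnr) (hZ : Stmt_ElemZLoc) (hUp : Stmt_ElemUnip) (hR : Stmt_ElemRam)
    (hEF : Stmt_ElemFlat) : Stmt_MTflat := by
  intro 𝒪 _ _ _ _ _ p _ ρbar S Smin H
  refine asmCommon hMat hTW hGW hEC hQ h1 h2 𝒪 p ρbar S Smin H (condFlat 𝒪 p Smin) ?_
  rintro e Q - ⟨c0, h0, hc0⟩
  obtain ⟨hfin, hcard⟩ := hF 𝒪 p ρbar S Smin H e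
  refine ⟨Asm_L p (rbar ρbar e) (LFlatV (rbar ρbar e)),
    Asm_locHypS hU hUp hR 𝒪 p ρbar S Smin H e c0 h0 hc0.2 _ ?_ hfin hcard, ?_⟩
  · intro X
    exact AddSubgroup.subset_closure (Or.inr ⟨X, rfl⟩)
  · rintro c ⟨h, hc⟩
    have htr : ∀ σ, (c σ).trace = 0 := hTr 𝒪 p _ _ c h hc.1.1
    refine Asm_mem_SelSet hTr hUn hZ hUp 𝒪 p _ _ c h Smin Q hc.1.1 hc.1.2.2 hc.2 _ ?_
    refine AddSubgroup.subset_closure (Or.inl ⟨(hZ _ _ c h htr (pPrime p)).1, ?_⟩)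
    exact hFL p _ _ c h (hEF 𝒪 p _ _ c h hc.1.2.1)

end Fermat.Agent.TW56

end
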