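/-
TEAM TW56 -> S56, top level (architect helper55).  ASM-ORD : assembly of `Stmt_MTord`.
The global part (Taylor-Wiles primes, Greenberg-Wiles bound) is `asmCommon` (helper22); the local part is
`AsmOrd_hloc`.
-/
import Fermat.Agent.TW56.Top.AsmCommon
import Fermat.Agent.TW56.Top.AsmOrdLoc

set_option autoImplicit false

noncomputable section

namespace Fermat.Agent.TW56

open IsLocalRing Polynomial Fermat.Agent.S53 ExtCitation Matrix

theorem mtOrd (hMat : Sel.Stmt_Mat) (hTW : Sel.Stmt_TWset) (hGW : GW.Stmt_GWmat)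
    (hEC : Stmt_ECad) (hQ : Stmt_LocQ) (hU : Stmt_LocUnip) (hO : Stmt_LocOrd)
    (h1 : Stmt_RbarHyp) (h2 : Stmt_GWHyp) (hTr : Stmt_ElemTr) (hUn : Stmt_ElemUnr)
    (hZ : Stmt_ElemZLoc) (hUp : Stmt_ElemUnip) (hR : Stmt_ElemRam) (hO1 : Stmt_ElemOrd1)
    (hO2 : Stmt_ElemOrd2) (hCR : Stmt_CycRam) : Stmt_MTord := by
  intro 𝒪 _ _ _ _ _ p _ ρbar S Smin H
  exact asmCommon hMat hTW hGW hEC hQ h1 h2 𝒪 p ρbar S Smin H (condOrd 𝒪 p Smin)
    fun e Q _ hne => AsmOrd_hloc hU hO hTr hUn hZ hUp hR hO1 hO2 hCR 𝒪 p ρbar S Smin H e Q hne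

end Fermat.Agent.TW56

end
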