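/-
TEAM TW56 -> S56, block [TAN] : TAN-HC3 (helper19).
A deformation `(1 + ε c) ρ̄` equivalent to a representation with matrices in `k` has `c ∼ 0`.
-/
import Fermat.Agent.TW56.Top.Interface
import Fermat.Agent.S53.Dict

set_option autoImplicit false

namespace Fermat.Agent.TW56

open IsLocalRing Fermat.Agent.S53

/-- **TAN-HC3** -/
theorem constCoc : Stmt_ConstCoc := by
  intro 𝒪 _ _ rb hrb c h a ha hconst hequiv
  obtain ⟨P, hP, hc⟩ := (ofMat_isEquiv_iff (matCont_liftHom rb hrb c h) ha).mp hequiv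
  obtain ⟨u, rfl⟩ := (Matrix.isUnit_iff_isUnit_det P).mpr hP
  obtain ⟨P0, P1, hPe⟩ := exists_epsMat (u : M2 (Eps 𝒪))
  obtain ⟨Q0, Q1, hQe⟩ := exists_epsMat ((u⁻¹ : (M2 (Eps 𝒪))ˣ) : M2 (Eps 𝒪))
  have hQP : Q0 * P0 = 1 := by
    have h1 : ((u⁻¹ : (M2 (Eps 𝒪))ˣ) : M2 (Eps 𝒪)) * (u : M2 (Eps 𝒪)) = 1 := u.inv_mul
    rw [hPe, hQe, epsMat_mul, ← epsMat_one] at h1
    exact (epsMat_injective h1).1
  refine ⟨Q0 * P1, fun σ => ?_⟩
  obtain ⟨a0, ha0⟩ := hconst σ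
  have h1 := hc σ
  rw [hPe, ha0, liftHom_apply, epsMat_mul, epsMat_mul] at h1
  obtain ⟨e1, e2⟩ := epsMat_injective h1
  rw [zero_mul, add_zero] at e2
  -- `c rb + X rb = rb X`
  have e3 : c σ * rb σ + Q0 * P1 * rb σ = rb σ * (Q0 * P1) := by
    have e4 : Q0 * (P0 * (c σ * rb σ) + P1 * rb σ) = Q0 * (a0 * P1) := by rw [e2]
    have e5 : Q0 * a0 * P0 = rb σ := by
      rw [mul_assoc, ← e1, ← mul_assoc, hQP, one_mul]
    have hPQ : P0 * Q0 = 1 := mul_eq_one_comm.mp hQP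
    have e6 : Q0 * a0 = rb σ * Q0 := by
      rw [← e5, mul_assoc (Q0 * a0), hPQ, mul_one]
    rw [mul_add, ← mul_assoc, hQP, one_mul, ← mul_assoc, ← mul_assoc, e6, mul_assoc (rb σ)] at e4
    exact e4
  have e7 : c σ = rb σ * (Q0 * P1) * rb σ⁻¹ - Q0 * P1 := by
    have e8 : c σ * rb σ = rb σ * (Q0 * P1) - Q0 * P1 * rb σ := eq_sub_of_add_eq e3
    have e9 : c σ = c σ * rb σ * rb σ⁻¹ := by rw [mul_assoc, rb_mul_inv, mul_one]
    rw [e9, e8, sub_mul, mul_assoc (Q0 * P1), rb_mul_inv, mul_one]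
  rw [Pi.zero_apply, sub_zero]
  exact e7

end Fermat.Agent.TW56
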