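import Fermat.Agent.TW56.Top.Interface

/-!
# TW56 / Top : basic local conditions are invariant under equivalence (helper9)

For a general local ring `A` and `ρ.IsEquiv ρ'` : `DetIsCyclotomic p`, `IsUnramifiedAt q`,
`IsUnipotentOnInertiaAt q` pass from `ρ` to `ρ'`.
-/

set_option autoImplicit false

noncomputable section

namespace Fermat.Agent.TW56

open IsLocalRing Polynomial

variable {A : Type} [CommRing A] [IsLocalRing A]

/-- `ρ' σ = E ∘ ρ σ ∘ E⁻¹` -/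
theorem EquivBasic_conj {ρ ρ' : GaloisRepAdic A} (E : GaloisRepAdic.Equiv ρ ρ')
    (σ : AlgebraicClosure ℚ ≃ₐ[ℚ] AlgebraicClosure ℚ) :
    ρ'.ρ σ = E.toLinearEquiv.conj (ρ.ρ σ) := by
  refine LinearMap.ext fun x => ?_
  rw [LinearEquiv.conj_apply_apply, E.map_apply, LinearEquiv.apply_symm_apply]

theorem EquivBasic_det_eq {ρ ρ' : GaloisRepAdic A} (E : GaloisRepAdic.Equiv ρ ρ')
    (σ : AlgebraicClosure ℚ ≃ₐ[ℚ] AlgebraicClosure ℚ) :
    LinearMap.det (ρ'.ρ σ) = LinearMap.det (ρ.ρ σ) := by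
  rw [EquivBasic_conj E σ, LinearEquiv.conj_apply]
  exact LinearMap.det_conj (ρ.ρ σ) E.toLinearEquiv

theorem EquivBasic_charpoly_eq {ρ ρ' : GaloisRepAdic A} (E : GaloisRepAdic.Equiv ρ ρ')
    (σ : AlgebraicClosure ℚ ≃ₐ[ℚ] AlgebraicClosure ℚ) :
    LinearMap.charpoly (ρ'.ρ σ) = LinearMap.charpoly (ρ.ρ σ) := by
  rw [EquivBasic_conj E σ]
  exact LinearEquiv.charpoly_conj E.toLinearEquiv (ρ.ρ σ)

theorem EquivOrd_det {ρ ρ' : GaloisRepAdic A} (h : ρ.IsEquiv ρ') {p : ℕ}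
    (hρ : ρ.DetIsCyclotomic p) : ρ'.DetIsCyclotomic p := by
  obtain ⟨E⟩ := h
  refine ⟨hρ.1, fun n σ a ha => ?_⟩
  rw [EquivBasic_det_eq E σ]
  exact hρ.2 n σ a ha

theorem EquivOrd_unram {ρ ρ' : GaloisRepAdic A} (h : ρ.IsEquiv ρ') {q : ℕ}
    (hρ : ρ.IsUnramifiedAt q) : ρ'.IsUnramifiedAt q := by
  obtain ⟨E⟩ := h
  intro P hP σ hσ
  rw [EquivBasic_conj E σ, hρ P hP σ hσ]
  refine LinearMap.ext fun x => ?_
  rw [LinearEquiv.conj_apply_apply, Module.End.one_apply, Module.End.one_apply,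
    LinearEquiv.apply_symm_apply]

theorem EquivOrd_unip {ρ ρ' : GaloisRepAdic A} (h : ρ.IsEquiv ρ') {q : ℕ}
    (hρ : ρ.IsUnipotentOnInertiaAt q) : ρ'.IsUnipotentOnInertiaAt q := by
  obtain ⟨E⟩ := h
  intro P hP σ hσ
  rw [EquivBasic_charpoly_eq E σ]
  exact hρ P hP σ hσ

end Fermat.Agent.TW56

end
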