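import Fermat.Agent.TW56.Top.EquivBasic

/-!
# TW56 / Top : TAN-EQ-ORD, `condOrd` is invariant under equivalence (helper9)
-/

set_option autoImplicit false

noncomputable section

namespace Fermat.Agent.TW56

open IsLocalRing Polynomial Fermat.Agent.S53

variable {A : Type} [CommRing A] [IsLocalRing A]

theorem EquivOrd_strict {ρ ρ' : GaloisRepAdic A} (h : ρ.IsEquiv ρ') {p : ℕ}
    (hρ : ρ.IsStrictOrdinaryAt p) : ρ'.IsStrictOrdinaryAt p := by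
  obtain ⟨E⟩ := h
  refine ⟨hρ.1, fun P hP => ?_⟩
  obtain ⟨L, ⟨b, hb⟩, hD, hI, hχ⟩ := hρ.2 P hP
  -- membership in the transported line
  have hmem : ∀ v : ρ.V, v ∈ L → E.toLinearEquiv v ∈ L.map (E.toLinearEquiv : ρ.V →ₗ[A] ρ'.V) :=
    fun v hv => Submodule.mem_map_of_mem hv
  have hact : ∀ (σ : AlgebraicClosure ℚ ≃ₐ[ℚ] AlgebraicClosure ℚ) (w : ρ'.V),
      ρ'.ρ σ w = E.toLinearEquiv (ρ.ρ σ (E.toLinearEquiv.symm w)) := by
    intro σ w
    rw [E.map_apply, LinearEquiv.apply_symm_apply]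
  refine ⟨L.map (E.toLinearEquiv : ρ.V →ₗ[A] ρ'.V), ⟨b.map E.toLinearEquiv, ?_⟩, ?_, ?_, ?_⟩
  · rw [hb, Submodule.map_span, Set.image_singleton, Module.Basis.map_apply]
    rfl
  · intro σ hσ w hw
    obtain ⟨v, hv, rfl⟩ := Submodule.mem_map.1 hw
    have : ρ'.ρ σ (E.toLinearEquiv v) = E.toLinearEquiv (ρ.ρ σ v) := (E.map_apply σ v).symm
    exact this ▸ hmem _ (hD σ hσ v hv)
  · intro σ hσ w
    have h1 := hmem _ (hI σ hσ (E.toLinearEquiv.symm w))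
    rw [map_sub, LinearEquiv.apply_symm_apply, ← hact] at h1
    exact h1
  · intro σ hσ
    obtain ⟨x, z, hx, hz, hxz⟩ := hχ σ hσ
    refine ⟨x, z, ?_, ?_, hxz⟩
    · intro w hw
      obtain ⟨v, hv, rfl⟩ := Submodule.mem_map.1 hw
      have : ρ'.ρ σ (E.toLinearEquiv v) = E.toLinearEquiv (ρ.ρ σ v) := (E.map_apply σ v).symm
      refine this.trans ?_
      rw [hx v hv, map_smul]
      rfl
    · intro w
      have h1 := hmem _ (hz (E.toLinearEquiv.symm w))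
      rw [map_sub, map_smul, LinearEquiv.apply_symm_apply, ← hact] at h1
      exact h1

/-- general local ring version of TAN-EQ-ORD -/
theorem EquivOrd_cond (𝒪 : Type) [CommRing 𝒪] [Algebra 𝒪 A] (p : ℕ) (Smin Q : Finset ℕ)
    {ρ ρ' : GaloisRepAdic A} (h : ρ.IsEquiv ρ') (hρ : condOrd 𝒪 p Smin Q ρ) :
    condOrd 𝒪 p Smin Q ρ' := by
  obtain ⟨⟨h1, h2, h3⟩, h4⟩ := hρ
  exact ⟨⟨EquivOrd_det h h1, EquivOrd_strict h h2, fun q hq hqS => EquivOrd_unram h (h3 q hq hqS)⟩,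
    fun q hqS hq hqp => EquivOrd_unip h (h4 q hqS hq hqp)⟩

/-- **TAN-EQ-ORD** -/
theorem equivOrd : Stmt_EquivOrd := by
  intro 𝒪 _ _ p Smin Q ρ ρ' h hρ
  exact EquivOrd_cond 𝒪 p Smin Q h hρ

end Fermat.Agent.TW56

end
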